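import Mathlib

/-!
# Expansions of functions in a local coordinate

`HasExp t f φ` says that the function `f : ι → ℂ` has the Laurent expansion `φ` in the
coordinate function `t : ι → ℂ`, with convergence at every point of `ι`.
-/

set_option autoImplicit false

noncomputable section

open Filter Topology

namespace FermatJ

variable {ι : Type*}

/-- `HasPS t f P`: the power series `P` in the coordinate `t` converges to `f` everywhere. -/
def HasPS (t : ι → ℂ) (f : ι → ℂ) (P : PowerSeries ℂ) : Prop :=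
  ∀ x : ι, HasSum (fun n : ℕ => P.coeff n * t x ^ n) (f x)

/-- `HasExp t f φ`: the Laurent series `φ` in the coordinate `t` converges to `f` everywhere. -/
def HasExp (t : ι → ℂ) (f : ι → ℂ) (φ : LaurentSeries ℂ) : Prop :=
  ∃ (m : ℕ) (P : PowerSeries ℂ),
    φ = HahnSeries.single (-(m : ℤ)) 1 * HahnSeries.ofPowerSeries ℤ ℂ P ∧
      HasPS t (fun x => t x ^ m * f x) P

namespace HasPS

variable {t f g : ι → ℂ} {P Q : PowerSeries ℂ}

theorem zero (t : ι → ℂ) : HasPS t (fun _ => 0) 0 := fun x => by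
  simp

theorem C (t : ι → ℂ) (c : ℂ) : HasPS t (fun _ => c) (PowerSeries.C c) := fun x => by
  have h : (fun n : ℕ => (PowerSeries.C c).coeff n * t x ^ n) = fun n => if n = 0 then c else 0 := by
    funext n
    rw [PowerSeries.coeff_C]
    split_ifs with h
    · simp [h]
    · simp
  rw [h]
  exact hasSum_ite_eq 0 c

theorem one (t : ι → ℂ) : HasPS t (fun _ => 1) 1 := by
  simpa using C t 1

theorem X (t : ι → ℂ) : HasPS t t PowerSeries.X := fun x => by
  have h : (fun n : ℕ => (PowerSeries.X : PowerSeries ℂ).coeff n * t x ^ n)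
      = fun n => if n = 1 then t x else 0 := by
    funext n
    rw [PowerSeries.coeff_X]
    split_ifs with h
    · simp [h]
    · simp
  rw [h]
  exact hasSum_ite_eq 1 _

theorem add (hf : HasPS t f P) (hg : HasPS t g Q) : HasPS t (fun x => f x + g x) (P + Q) :=
  fun x => by
    simpa [add_mul] using (hf x).add (hg x)

theorem neg (hf : HasPS t f P) : HasPS t (fun x => - f x) (-P) :=
  fun x => by
    simpa [neg_mul] using (hf x).neg

theorem mul (hf : HasPS t f P) (hg : HasPS t g Q) : HasPS t (fun x => f x * g x) (P * Q) :=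
  fun x => by
    have hfs := (hf x).summable.norm
    have hgs := (hg x).summable.norm
    have h1 := (summable_norm_sum_mul_antidiagonal_of_summable_norm hfs hgs).of_norm.hasSum
    rw [← tsum_mul_tsum_eq_tsum_sum_antidiagonal_of_summable_norm hfs hgs, (hf x).tsum_eq,
      (hg x).tsum_eq] at h1
    convert! h1 using 1
    funext n
    rw [PowerSeries.coeff_mul, Finset.sum_mul]
    refine Finset.sum_congr rfl fun kl hkl => ?_
    rw [Finset.HasAntidiagonal.mem_antidiagonal] at hkl
    rw [← hkl, pow_add]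
    ring

theorem pow (hf : HasPS t f P) (n : ℕ) : HasPS t (fun x => f x ^ n) (P ^ n) := by
  induction n with
  | zero => simpa using one t
  | succ n ih => simpa [pow_succ] using ih.mul hf

theorem X_pow_mul (hf : HasPS t f P) (n : ℕ) :
    HasPS t (fun x => t x ^ n * f x) (PowerSeries.X ^ n * P) :=
  ((X t).pow n).mul hf

theorem congr (h : ∀ x, f x = g x) (hf : HasPS t f P) : HasPS t g P :=
  fun x => by simpa [← h x] using hf x

theorem eq_zero_of_hasPS_zero (ht : ∀ᶠ z in 𝓝[≠] (0 : ℂ), z ∈ Set.range t)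
    (h : HasPS t (fun _ => 0) P) : P = 0 := by
  set p : FormalMultilinearSeries ℂ ℂ ℂ := FormalMultilinearSeries.ofScalars ℂ (fun n => P.coeff n)
    with hp
  obtain ⟨z0, hz0, ⟨x0, hx0⟩⟩ : ∃ z0 : ℂ, z0 ≠ 0 ∧ z0 ∈ Set.range t := by
    have := (ht.and eventually_mem_nhdsWithin).exists
    obtain ⟨z, hz1, hz2⟩ := this
    exact ⟨z, hz2, hz1⟩
  have hrad : 0 < p.radius := by
    have h1 : ((‖z0‖₊ : NNReal) : ENNReal) ≤ p.radius := by
      apply FormalMultilinearSeries.le_radius_of_summable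
      have := (h x0).summable.norm
      rw [hx0] at this
      refine this.congr fun n => ?_
      rw [norm_mul, norm_pow, hp, FormalMultilinearSeries.ofScalars_norm]
      simp
    refine lt_of_lt_of_le ?_ h1
    simpa using hz0
  have hF := p.hasFPowerSeriesOnBall hrad
  have hsum : ∀ x, p.sum (t x) = 0 := by
    intro x
    have h1 : ∑' n : ℕ, P.coeff n * t x ^ n = 0 := (h x).tsum_eq
    rw [← h1, FormalMultilinearSeries.sum]
    refine tsum_congr fun n => ?_
    rw [hp]
    simp [mul_comm]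
  have hev : ∀ᶠ z in 𝓝[≠] (0 : ℂ), p.sum z = 0 := by
    filter_upwards [ht] with z hz
    obtain ⟨x, rfl⟩ := hz
    exact hsum x
  have hev' : ∀ᶠ z in 𝓝 (0 : ℂ), p.sum z = 0 :=
    (hF.analyticAt.frequently_zero_iff_eventually_zero).mp hev.frequently
  have hz : p = 0 := by
    have h2 : HasFPowerSeriesAt (0 : ℂ → ℂ) p 0 := hF.hasFPowerSeriesAt.congr hev'
    exact h2.eq_zero
  ext n
  have h1 : p.coeff n = (0 : FormalMultilinearSeries ℂ ℂ ℂ).coeff n := by rw [hz]
  have h2 : (0 : FormalMultilinearSeries ℂ ℂ ℂ).coeff n = 0 := by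
    simp [FormalMultilinearSeries.coeff]
  rw [h2] at h1
  simpa [hp] using h1

/-- Uniqueness of expansions if `t` takes all small nonzero values. -/
theorem unique (ht : ∀ᶠ z in 𝓝[≠] (0 : ℂ), z ∈ Set.range t)
    (hf : HasPS t f P) (hg : HasPS t f Q) : P = Q := by
  have h0 : HasPS t (fun _ => 0) (P - Q) := by
    have := hf.add hg.neg
    rw [← sub_eq_add_neg] at this
    exact this.congr fun x => by ring
  rw [← sub_eq_zero]
  exact eq_zero_of_hasPS_zero ht h0

end HasPS

theorem single_mul_ofPowerSeries_shift (m k : ℕ) (P : PowerSeries ℂ) :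
    (HahnSeries.single (-(m : ℤ)) 1 * HahnSeries.ofPowerSeries ℤ ℂ P : LaurentSeries ℂ)
      = HahnSeries.single (-((m + k : ℕ) : ℤ)) 1
        * HahnSeries.ofPowerSeries ℤ ℂ (PowerSeries.X ^ k * P) := by
  rw [map_mul, HahnSeries.ofPowerSeries_X_pow, ← mul_assoc, HahnSeries.single_mul_single]
  congr 2
  · push_cast
    ring_nf
  · exact (one_mul 1).symm

namespace HasExp

variable {t f g : ι → ℂ} {φ ψ : LaurentSeries ℂ}

theorem of_hasPS {P : PowerSeries ℂ} (h : HasPS t f P) :
    HasExp t f (HahnSeries.ofPowerSeries ℤ ℂ P) := by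
  refine ⟨0, P, ?_, ?_⟩
  · simp
  · simpa using h

theorem exists_ge (h : HasExp t f φ) : ∃ m₀ : ℕ, ∀ m ≥ m₀, ∃ P : PowerSeries ℂ,
    φ = HahnSeries.single (-(m : ℤ)) 1 * HahnSeries.ofPowerSeries ℤ ℂ P ∧
      HasPS t (fun x => t x ^ m * f x) P := by
  obtain ⟨m₀, P, hP, hf⟩ := h
  refine ⟨m₀, fun m hm => ?_⟩
  obtain ⟨k, rfl⟩ := Nat.exists_eq_add_of_le hm
  refine ⟨PowerSeries.X ^ k * P, ?_, ?_⟩
  · rw [hP]
    exact single_mul_ofPowerSeries_shift m₀ k P
  · exact (hf.X_pow_mul k).congr fun x => by ring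

theorem congr (h : ∀ x, f x = g x) (hf : HasExp t f φ) : HasExp t g φ := by
  rwa [← show f = g from funext h]

theorem const (t : ι → ℂ) (c : ℂ) : HasExp t (fun _ => c) (HahnSeries.C c) := by
  have := of_hasPS (HasPS.C t c)
  simpa using this

theorem zero (t : ι → ℂ) : HasExp t (fun _ => 0) 0 := by
  simpa using const t 0

theorem one (t : ι → ℂ) : HasExp t (fun _ => 1) 1 := by
  simpa using const t 1

theorem coord (t : ι → ℂ) : HasExp t t (HahnSeries.single 1 1) := by
  have := of_hasPS (HasPS.X t)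
  simpa using this

theorem coord_inv (t : ι → ℂ) (ht : ∀ x, t x ≠ 0) :
    HasExp t (fun x => (t x)⁻¹) (HahnSeries.single (-1) 1) := by
  refine ⟨1, 1, by simp, ?_⟩
  exact (HasPS.one t).congr fun x => by simp [ht x]

theorem add (hf : HasExp t f φ) (hg : HasExp t g ψ) : HasExp t (fun x => f x + g x) (φ + ψ) := by
  obtain ⟨m₁, h₁⟩ := hf.exists_ge
  obtain ⟨m₂, h₂⟩ := hg.exists_ge
  obtain ⟨P, hP, hfP⟩ := h₁ (max m₁ m₂) (le_max_left _ _)
  obtain ⟨Q, hQ, hgQ⟩ := h₂ (max m₁ m₂) (le_max_right _ _)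
  refine ⟨max m₁ m₂, P + Q, ?_, ?_⟩
  · rw [hP, hQ, map_add, mul_add]
  · exact (hfP.add hgQ).congr fun x => by ring

theorem neg (hf : HasExp t f φ) : HasExp t (fun x => - f x) (-φ) := by
  obtain ⟨m, P, hP, hfP⟩ := hf
  refine ⟨m, -P, ?_, ?_⟩
  · rw [hP, map_neg]
    ring
  · exact hfP.neg.congr fun x => by ring

theorem sub (hf : HasExp t f φ) (hg : HasExp t g ψ) : HasExp t (fun x => f x - g x) (φ - ψ) := by
  simpa [sub_eq_add_neg] using hf.add hg.neg

theorem mul (hf : HasExp t f φ) (hg : HasExp t g ψ) : HasExp t (fun x => f x * g x) (φ * ψ) := by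
  obtain ⟨m, P, hP, hfP⟩ := hf
  obtain ⟨k, Q, hQ, hgQ⟩ := hg
  refine ⟨m + k, P * Q, ?_, ?_⟩
  · rw [hP, hQ, map_mul]
    have : (HahnSeries.single (-((m + k : ℕ) : ℤ)) (1 : ℂ) : LaurentSeries ℂ)
        = HahnSeries.single (-(m : ℤ)) 1 * HahnSeries.single (-(k : ℤ)) 1 := by
      rw [HahnSeries.single_mul_single]
      congr 1
      · push_cast
        ring_nf
      · exact (one_mul 1).symm
    rw [this]
    ring
  · exact (hfP.mul hgQ).congr fun x => by ring

theorem pow (hf : HasExp t f φ) (n : ℕ) : HasExp t (fun x => f x ^ n) (φ ^ n) := by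
  induction n with
  | zero => simpa using one t
  | succ n ih => simpa [pow_succ] using ih.mul hf

theorem sum {κ : Type*} (s : Finset κ) {F : κ → ι → ℂ} {Φ : κ → LaurentSeries ℂ}
    (h : ∀ i ∈ s, HasExp t (F i) (Φ i)) :
    HasExp t (fun x => ∑ i ∈ s, F i x) (∑ i ∈ s, Φ i) := by
  classical
  induction s using Finset.induction_on with
  | empty => simpa using zero t
  | insert a s ha ih =>
    rw [Finset.sum_insert ha]
    refine ((h a (Finset.mem_insert_self a s)).add
      (ih fun i hi => h i (Finset.mem_insert_of_mem hi))).congr fun x => ?_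
    rw [Finset.sum_insert ha]

theorem unique (ht : ∀ᶠ z in 𝓝[≠] (0 : ℂ), z ∈ Set.range t)
    (hf : HasExp t f φ) (hg : HasExp t f ψ) : φ = ψ := by
  obtain ⟨m₁, h₁⟩ := hf.exists_ge
  obtain ⟨m₂, h₂⟩ := hg.exists_ge
  obtain ⟨P, hP, hfP⟩ := h₁ (max m₁ m₂) (le_max_left _ _)
  obtain ⟨Q, hQ, hgQ⟩ := h₂ (max m₁ m₂) (le_max_right _ _)
  rw [hP, hQ, hfP.unique ht hgQ]

/-- A function with zero expansion vanishes wherever the coordinate is nonzero. -/
theorem eq_zero_of_zero (hf : HasExp t f 0) {x : ι} (hx : t x ≠ 0) : f x = 0 := by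
  obtain ⟨m, P, hP, hfP⟩ := hf
  have hP0 : P = 0 := by
    have h1 : (HahnSeries.single (-(m : ℤ)) (1 : ℂ) : LaurentSeries ℂ) ≠ 0 := by
      simp
    have h2 := (mul_eq_zero.mp hP.symm).resolve_left h1
    exact HahnSeries.ofPowerSeries_injective (h2.trans (map_zero _).symm)
  have := hfP x
  rw [hP0] at this
  simp only [map_zero, zero_mul] at this
  have h3 := this.unique hasSum_zero
  rcases mul_eq_zero.mp h3 with h | h
  · exact absurd (eq_zero_of_pow_eq_zero h) hx
  · exact h

end HasExp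

end FermatJ
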