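import Mathlib
import Fermat.Agent.J.HasExp
import Fermat.Prelude.Def_ModularCurve_X0

/-!
# The formal product `etaProd` is the expansion of the analytic product
-/

set_option autoImplicit false

noncomputable section

open Filter Topology

namespace FermatJ

variable {ι : Type*}

theorem hasPS_of_differentiableOn {F : ℂ → ℂ} (hF : DifferentiableOn ℂ F (Metric.ball 0 1))
    {t : ι → ℂ} (ht : ∀ x, ‖t x‖ < 1) :
    HasPS t (fun x => F (t x)) (PowerSeries.mk fun n => (n.factorial : ℂ)⁻¹ * iteratedDeriv n F 0) := by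
  intro x
  have h := Complex.hasSum_taylorSeries_on_ball hF (z := t x) (by simpa using ht x)
  convert! h using 2 with n
  simp only [PowerSeries.coeff_mk, sub_zero, smul_eq_mul]
  ring

/-- partial products -/
def partialEta (k : ℕ) (z : ℂ) : ℂ := ∏ i ∈ Finset.range k, (1 - z ^ (i + 1))

theorem differentiable_partialEta (k : ℕ) : Differentiable ℂ (partialEta k) := by
  unfold partialEta
  fun_prop

theorem tendstoLocallyUniformlyOn_partialEta :
    TendstoLocallyUniformlyOn partialEta (fun q => ∏' n : ℕ, (1 - q ^ (n + 1))) atTop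
      (Metric.ball (0 : ℂ) 1) := by
  have h := ModularForm.multipliableLocallyUniformlyOn_one_sub_pow.hasProdLocallyUniformlyOn
  rw [hasProdLocallyUniformlyOn_iff_tendstoLocallyUniformlyOn] at h
  intro u hu x hx
  obtain ⟨t, ht, h'⟩ := h u hu x hx
  refine ⟨t, ht, ?_⟩
  have := tendsto_finset_range.eventually h'
  simpa [partialEta] using this

theorem tendstoLocallyUniformlyOn_iteratedDeriv {F : ℕ → ℂ → ℂ} {f : ℂ → ℂ}
    {U : Set ℂ} (hU : IsOpen U) (hF : ∀ k, DifferentiableOn ℂ (F k) U)
    (h : TendstoLocallyUniformlyOn F f atTop U) (n : ℕ) :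
    TendstoLocallyUniformlyOn (fun k => iteratedDeriv n (F k)) (iteratedDeriv n f) atTop U ∧
      ∀ k, DifferentiableOn ℂ (iteratedDeriv n (F k)) U := by
  induction n with
  | zero => simpa using ⟨h, hF⟩
  | succ n ih =>
    refine ⟨?_, fun k => ?_⟩
    · simp only [iteratedDeriv_succ]
      exact ih.1.deriv (Eventually.of_forall ih.2) hU
    · simp only [iteratedDeriv_succ]
      exact (ih.2 k).deriv hU

theorem tendsto_coeff_partialEta (n : ℕ) :
    Tendsto (fun k => (n.factorial : ℂ)⁻¹ * iteratedDeriv n (partialEta k) 0) atTop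
      (𝓝 ((n.factorial : ℂ)⁻¹ * iteratedDeriv n (fun q => ∏' n : ℕ, (1 - q ^ (n + 1))) 0)) := by
  have h := (tendstoLocallyUniformlyOn_iteratedDeriv Metric.isOpen_ball
    (fun k => (differentiable_partialEta k).differentiableOn)
    tendstoLocallyUniformlyOn_partialEta n).1
  exact (h.tendsto_at (Metric.mem_ball_self one_pos)).const_mul _

/-- formal partial products -/
def partialEtaPS (k : ℕ) : PowerSeries ℤ := ∏ i ∈ Finset.range k, (1 - PowerSeries.X ^ (i + 1))

theorem hasPS_partialEtaPS (t : ι → ℂ) (k : ℕ) :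
    HasPS t (fun x => partialEta k (t x)) ((partialEtaPS k).map (Int.castRingHom ℂ)) := by
  induction k with
  | zero => simpa [partialEta, partialEtaPS] using HasPS.one t
  | succ k ih =>
    have h1 : HasPS t (fun x => 1 + - (t x) ^ (k + 1))
        (1 + - PowerSeries.X ^ (k + 1)) := (HasPS.one t).add ((HasPS.X t).pow (k + 1)).neg
    have := ih.mul h1
    refine HasPS.congr (f := fun x => partialEta k (t x) * (1 + - (t x) ^ (k + 1))) (fun x => ?_) ?_
    · simp [partialEta, Finset.prod_range_succ, sub_eq_add_neg]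
    · convert! this using 1
      simp [partialEtaPS, Finset.prod_range_succ, sub_eq_add_neg]

theorem coeff_partialEta (k n : ℕ) :
    (n.factorial : ℂ)⁻¹ * iteratedDeriv n (partialEta k) 0
      = ((partialEtaPS k).map (Int.castRingHom ℂ)).coeff n := by
  set t : Metric.ball (0 : ℂ) 1 → ℂ := Subtype.val with ht
  have hr : ∀ᶠ z in 𝓝[≠] (0 : ℂ), z ∈ Set.range t := by
    rw [ht, Subtype.range_coe_subtype]
    exact nhdsWithin_le_nhds (Metric.ball_mem_nhds 0 one_pos)
  have h1 := hasPS_of_differentiableOn (differentiable_partialEta k).differentiableOn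
    (t := t) (fun x => mem_ball_zero_iff.mp x.2)
  have h2 := h1.unique hr (hasPS_partialEtaPS t k)
  rw [← h2, PowerSeries.coeff_mk]

open scoped PowerSeries.WithPiTopology in
theorem tendsto_coeff_partialEtaPS (n : ℕ) :
    Tendsto (fun k => ((partialEtaPS k).map (Int.castRingHom ℂ)).coeff n) atTop
      (𝓝 ((ModularCurve.etaProd.map (Int.castRingHom ℂ)).coeff n)) := by
  have h1 : Tendsto partialEtaPS atTop (𝓝 ModularCurve.etaProd) :=
    (PowerSeries.WithPiTopology.multipliable_one_sub_X_pow ℤ).hasProd.tendsto_prod_nat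
  have h2 := ((PowerSeries.WithPiTopology.continuous_coeff ℤ n).tendsto _).comp h1
  have h3 := ((continuous_of_discreteTopology (f := (Int.cast : ℤ → ℂ))).tendsto _).comp h2
  simpa [Function.comp_def] using h3

theorem coeff_etaProd (n : ℕ) :
    (n.factorial : ℂ)⁻¹ * iteratedDeriv n (fun q => ∏' n : ℕ, (1 - q ^ (n + 1))) 0
      = (ModularCurve.etaProd.map (Int.castRingHom ℂ)).coeff n := by
  refine tendsto_nhds_unique (tendsto_coeff_partialEta n) ?_
  simp_rw [coeff_partialEta]
  exact tendsto_coeff_partialEtaPS n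

theorem hasPS_etaProd {t : ι → ℂ} (ht : ∀ x, ‖t x‖ < 1) :
    HasPS t (fun x => ∏' n : ℕ, (1 - t x ^ (n + 1)))
      (ModularCurve.etaProd.map (Int.castRingHom ℂ)) := by
  have h := hasPS_of_differentiableOn ModularForm.differentiableOn_tprod_one_sub_pow ht
  convert! h using 1
  ext n
  rw [PowerSeries.coeff_mk, coeff_etaProd]

end FermatJ
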