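import Mathlib
import Fermat.Agent.J.EtaExp
import Fermat.Prelude.Def_ModularCurve_LaurentCoeff

/-!
# The modular `j`-function on the upper half plane
-/

set_option autoImplicit false

noncomputable section

open Filter Topology UpperHalfPlane ModularForm EisensteinSeries MatrixGroups
open scoped Manifold

local notation "𝕢" => Function.Periodic.qParam

namespace FermatJ

/-- the coordinate `q_h = exp (2 π i τ / h)` on the upper half plane -/
def qc (h : ℕ) (τ : ℍ) : ℂ := 𝕢 (h : ℝ) τ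

theorem qc_ne_zero (h : ℕ) (τ : ℍ) : qc h τ ≠ 0 := Complex.exp_ne_zero _

theorem norm_qc_lt_one (h : ℕ) [NeZero h] (τ : ℍ) : ‖qc h τ‖ < 1 :=
  Function.Periodic.norm_qParam_lt_one (by exact_mod_cast Nat.pos_of_ne_zero (NeZero.ne h)) τ.im_pos

theorem eventually_mem_range_qc (h : ℕ) [NeZero h] :
    ∀ᶠ z in 𝓝[≠] (0 : ℂ), z ∈ Set.range (qc h) := by
  have h1 : ∀ᶠ z in 𝓝[≠] (0 : ℂ), z ∈ Metric.ball (0 : ℂ) 1 :=
    nhdsWithin_le_nhds (Metric.ball_mem_nhds 0 one_pos)
  have hh : (0 : ℝ) < h := by exact_mod_cast Nat.pos_of_ne_zero (NeZero.ne h)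
  filter_upwards [h1, eventually_mem_nhdsWithin] with z hz hz0
  refine ⟨⟨Function.Periodic.invQParam h z,
    Function.Periodic.im_invQParam_pos_of_norm_lt_one hh (by simpa using hz) hz0⟩, ?_⟩
  exact Function.Periodic.qParam_right_inv hh.ne' hz0

/-- Build a level-one modular form. -/
def mkLevelOne {k : ℤ} (f : ℍ → ℂ) (hf : ∀ γ : SL(2, ℤ), f ∣[k] γ = f) (hd : MDiff f)
    (hb : IsBoundedAtImInfty f) : ModularForm 𝒮ℒ k where
  toFun := f
  slash_action_eq' A hA := by
    obtain ⟨A, rfl⟩ := hA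
    exact hf A
  holo' := hd
  bdd_at_cusps' hc := by
    rw [Subgroup.IsArithmetic.isCusp_iff_isCusp_SL2Z] at hc
    rw [OnePoint.isBoundedAt_iff_forall_SL2Z hc]
    intro γ _
    rw [hf γ]
    exact hb

/-- The modular `j`-function. -/
def jf (τ : ℍ) : ℂ := E₄ τ ^ 3 / discriminant τ

theorem jf_mul_discriminant (τ : ℍ) : jf τ * discriminant τ = E₄ τ ^ 3 :=
  div_mul_cancel₀ _ (discriminant_ne_zero τ)

theorem jf_sub_mul_discriminant (τ : ℍ) : (jf τ - 1728) * discriminant τ = E₆ τ ^ 2 := by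
  rw [sub_mul, jf_mul_discriminant, discriminant_eq_E₄_cube_sub_E₆_sq]
  ring

theorem slash_eq_smul {k : ℤ} {f : ℍ → ℂ} {γ : SL(2, ℤ)} (h : f ∣[k] γ = f) (τ : ℍ) :
    f (γ • τ) = denom γ τ ^ k * f τ := by
  have h1 := congrFun h τ
  rw [ModularForm.SL_slash_apply] at h1
  rw [← h1, mul_comm, mul_assoc, ← zpow_add₀ (denom_ne_zero _ _)]
  simp

theorem discriminant_smul (γ : SL(2, ℤ)) (τ : ℍ) :
    discriminant (γ • τ) = denom γ τ ^ (12 : ℤ) * discriminant τ :=
  slash_eq_smul (SlashInvariantForm.slash_action_generators_SL2Z discriminant_S_invariant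
    discriminant_T_invariant γ) τ

theorem E_smul {k : ℕ} (f : ModularForm 𝒮ℒ k) (γ : SL(2, ℤ)) (τ : ℍ) :
    f (γ • τ) = denom γ τ ^ (k : ℤ) * f τ :=
  slash_eq_smul (f.slash_action_eq' γ ⟨γ, rfl⟩) τ

theorem jf_smul (γ : SL(2, ℤ)) (τ : ℍ) : jf (γ • τ) = jf τ := by
  rw [jf, jf, discriminant_smul, E_smul, mul_pow]
  have h := denom_ne_zero γ τ
  rw [show (denom γ τ ^ ((4 : ℕ) : ℤ)) ^ 3 = denom γ τ ^ (12 : ℤ) by
    rw [← zpow_natCast, ← zpow_mul]; norm_num]
  exact mul_div_mul_left _ _ (zpow_ne_zero _ h)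

theorem mdifferentiable_discriminant : MDiff (discriminant : ℍ → ℂ) :=
  CuspForm.discriminant.holo'

theorem mdifferentiable_jf : MDiff jf := by
  have h1 : MDiff (E₄ : ℍ → ℂ) := E₄.holo'
  have h2 := mdifferentiable_discriminant
  rw [UpperHalfPlane.mdifferentiable_iff] at *
  have : (jf ∘ ofComplex) = fun z => ((E₄ ∘ ofComplex) z) ^ 3 / ((discriminant ∘ ofComplex) z) := by
    rfl
  rw [this]
  exact (h1.pow 3).div h2 fun z _ => discriminant_ne_zero _

theorem periodic_of_forall {f : ℍ → ℂ} {h : ℕ} (hf : ∀ τ : ℍ, f ((h : ℝ) +ᵥ τ) = f τ) :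
    Function.Periodic (f ∘ ofComplex) (h : ℝ) := by
  intro w
  by_cases! hw : 0 < w.im
  · have h1 : 0 < (w + (h : ℝ)).im := by simp [hw]
    simp only [Function.comp_apply, ofComplex_apply_of_im_pos h1, ofComplex_apply_of_im_pos hw]
    convert! hf ⟨w, hw⟩ using 2
    ext
    simp [add_comm]
  · have h1 : (w + (h : ℝ)).im ≤ 0 := by simpa using hw
    simp only [Function.comp_apply, ofComplex_apply_of_im_nonpos h1,
      ofComplex_apply_of_im_nonpos hw]

theorem hasPS_of_bounded {f : ℍ → ℂ} {h : ℕ} [NeZero h] (hf : ∀ τ : ℍ, f ((h : ℝ) +ᵥ τ) = f τ)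
    (hd : MDiff f) (hb : IsBoundedAtImInfty f) : HasPS (qc h) f (qExpansion h f) := by
  intro τ
  have hh : (0 : ℝ) < h := by exact_mod_cast Nat.pos_of_ne_zero (NeZero.ne h)
  simpa [qc] using hasSum_qExpansion hh (periodic_of_forall hf) hd hb τ

theorem hasPS_E {k : ℕ} (f : ModularForm 𝒮ℒ k) : HasPS (qc 1) f (qExpansion 1 f) := by
  intro τ
  have := ModularForm.hasSum_qExpansion (h := 1) f one_pos one_mem_strictPeriods_SL τ
  simpa [qc] using this

theorem qExpansion_E₄ : qExpansion 1 E₄ = ModularCurve.eisenstein4.map (Int.castRingHom ℂ) := by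
  ext n
  rw [E_qExpansion_coeff _ ⟨2, rfl⟩, PowerSeries.coeff_map, ModularCurve.eisenstein4,
    PowerSeries.coeff_mk]
  split_ifs with h
  · simp
  · rw [show (bernoulli 4 : ℂ) = -1 / 30 by
      rw [show bernoulli 4 = -1 / 30 by decide +kernel]; norm_num]
    rw [ArithmeticFunction.sigma_apply]
    push_cast
    norm_num

/-- the infinite product `∏ (1 - q^n)` -/
def etaP (τ : ℍ) : ℂ := ∏' n : ℕ, (1 - qc 1 τ ^ (n + 1))

theorem discriminant_eq_etaP (τ : ℍ) : discriminant τ = qc 1 τ * etaP τ ^ 24 := by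
  have h1 : Multipliable fun n : ℕ => 1 - qc 1 τ ^ (n + 1) :=
    multipliable_one_sub_pow (norm_qc_lt_one 1 τ)
  rw [discriminant_eq_q_prod, etaP, ← h1.tprod_pow]
  simp [qc, eta_q]

theorem etaP_ne_zero (τ : ℍ) : etaP τ ≠ 0 := by
  intro h
  have := discriminant_ne_zero τ
  rw [discriminant_eq_etaP, h] at this
  simp at this

theorem hasPS_etaP : HasPS (qc 1) etaP (ModularCurve.etaProd.map (Int.castRingHom ℂ)) :=
  hasPS_etaProd (norm_qc_lt_one 1)

theorem qc_vadd (h : ℕ) [NeZero h] (τ : ℍ) : qc h ((h : ℝ) +ᵥ τ) = qc h τ := by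
  have hh : (h : ℂ) ≠ 0 := by exact_mod_cast NeZero.ne h
  simp only [qc, Function.Periodic.qParam, coe_vadd]
  push_cast
  rw [show 2 * (Real.pi : ℂ) * Complex.I * ((h : ℂ) + τ) / h
    = 2 * Real.pi * Complex.I * τ / h + 2 * Real.pi * Complex.I by field_simp; ring]
  exact Complex.exp_periodic _

theorem mdifferentiable_qc (h : ℕ) : MDiff (qc h) := by
  rw [UpperHalfPlane.mdifferentiable_iff]
  have : DifferentiableOn ℂ (fun z : ℂ => 𝕢 (h : ℝ) z) upperHalfPlaneSet := by
    unfold Function.Periodic.qParam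
    fun_prop
  refine this.congr fun z hz => ?_
  simp [qc, ofComplex_apply_of_im_pos hz]

theorem discriminant_vadd (τ : ℍ) : discriminant (((1 : ℕ) : ℝ) +ᵥ τ) = discriminant τ := by
  have := discriminant_smul ModularGroup.T τ
  rw [modular_T_smul] at this
  simpa [denom, ModularGroup.coe_T] using this

theorem mdifferentiable_inv_etaP_pow : MDiff (fun τ : ℍ => (etaP τ ^ 24)⁻¹) := by
  have h1 := mdifferentiable_qc 1
  have h2 := mdifferentiable_discriminant
  rw [UpperHalfPlane.mdifferentiable_iff] at *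
  refine (h1.div h2 fun z _ => discriminant_ne_zero _).congr fun z hz => ?_
  have := discriminant_eq_etaP (ofComplex z)
  simp only [Function.comp_apply, Pi.div_apply]
  rw [this]
  have h3 := qc_ne_zero 1 (ofComplex z)
  have h4 := etaP_ne_zero (ofComplex z)
  field_simp

theorem qc_isBigO_discriminant : (fun τ : ℍ => qc 1 τ) =O[atImInfty] discriminant := by
  refine (Asymptotics.IsBigO.of_norm_left ?_)
  refine exp_isBigO_discriminant.congr_left fun τ => ?_
  simp [qc, Function.Periodic.qParam, Complex.norm_exp]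

theorem inv_etaP_pow_eq (τ : ℍ) : (etaP τ ^ 24)⁻¹ = qc 1 τ / discriminant τ := by
  rw [discriminant_eq_etaP]
  have h3 := qc_ne_zero 1 τ
  have h4 := etaP_ne_zero τ
  field_simp

theorem isBoundedAtImInfty_inv_etaP_pow : IsBoundedAtImInfty (fun τ => (etaP τ ^ 24)⁻¹) := by
  have := qc_isBigO_discriminant.mul
    (Asymptotics.isBigO_refl (fun τ : ℍ => (discriminant τ)⁻¹) atImInfty)
  unfold IsBoundedAtImInfty BoundedAtFilter
  refine Asymptotics.IsBigO.congr_left ?_ (fun τ => (inv_etaP_pow_eq τ).symm)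
  refine Asymptotics.IsBigO.trans this (Asymptotics.isBigO_of_le _ fun τ => ?_)
  rw [mul_inv_cancel₀ (discriminant_ne_zero τ)]
  simp

theorem HasPS.mul_eq_one {ι : Type*} {t f g : ι → ℂ} {P Q : PowerSeries ℂ}
    (ht : ∀ᶠ z in 𝓝[≠] (0 : ℂ), z ∈ Set.range t) (hf : HasPS t f P)
    (hg : HasPS t g Q) (hfg : ∀ x, f x * g x = 1) : P * Q = 1 :=
  ((hf.mul hg).congr hfg).unique ht (HasPS.one _)

theorem hasPS_inv_etaP_pow_aux : HasPS (qc 1) (fun τ => (etaP τ ^ 24)⁻¹)
    (qExpansion ((1 : ℕ) : ℝ) (fun τ => (etaP τ ^ 24)⁻¹)) := by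
  refine hasPS_of_bounded (fun τ => ?_) mdifferentiable_inv_etaP_pow isBoundedAtImInfty_inv_etaP_pow
  simp only [etaP, qc_vadd 1 τ]

theorem hasPS_inv_etaP_pow : HasPS (qc 1) (fun τ => (etaP τ ^ 24)⁻¹)
    (ModularCurve.dedekindEtaUnitInv.map (Int.castRingHom ℂ)) := by
  have h1 := hasPS_inv_etaP_pow_aux
  generalize qExpansion ((1 : ℕ) : ℝ) (fun τ => (etaP τ ^ 24)⁻¹) = Q at h1
  have h2 : HasPS (qc 1) (fun τ => etaP τ ^ 24)
      (ModularCurve.dedekindEtaUnit.map (Int.castRingHom ℂ)) := by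
    rw [ModularCurve.dedekindEtaUnit, map_pow]
    exact hasPS_etaP.pow 24
  have h4 := HasPS.mul_eq_one (eventually_mem_range_qc 1) h1 h2
    (fun τ => inv_mul_cancel₀ (pow_ne_zero _ (etaP_ne_zero τ)))
  have h5 : ModularCurve.dedekindEtaUnit.map (Int.castRingHom ℂ) *
      ModularCurve.dedekindEtaUnitInv.map (Int.castRingHom ℂ) = 1 := by
    rw [← map_mul, ModularCurve.dedekindEtaUnit_mul_inv, map_one]
  rw [← left_inv_eq_right_inv h4 h5]
  exact h1

theorem hasPS_jNum : HasPS (qc 1) (fun τ => qc 1 τ * jf τ)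
    (ModularCurve.jNum.map (Int.castRingHom ℂ)) := by
  have h1 := ((hasPS_E E₄).pow 3).mul hasPS_inv_etaP_pow
  have h2 : (qExpansion 1 (E₄ : ℍ → ℂ)) ^ 3 * ModularCurve.dedekindEtaUnitInv.map (Int.castRingHom ℂ)
      = ModularCurve.jNum.map (Int.castRingHom ℂ) := by
    rw [qExpansion_E₄, ModularCurve.jNum, map_mul, map_pow]
  rw [h2] at h1
  refine h1.congr fun τ => ?_
  rw [jf, discriminant_eq_etaP]
  have h3 := qc_ne_zero 1 τ
  have h4 := etaP_ne_zero τ
  field_simp

theorem coeffMap_ofPowerSeries {R S : Type*} [CommRing R] [CommRing S] (f : R →+* S)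
    (P : PowerSeries R) : ModularCurve.coeffMap f (HahnSeries.ofPowerSeries ℤ R P)
      = HahnSeries.ofPowerSeries ℤ S (P.map f) := by
  ext k
  rw [ModularCurve.coeffMap_coeff]
  rcases lt_or_ge k 0 with hk | hk
  · rw [ModularCurve.ofPowerSeries_coeff_of_neg _ hk, ModularCurve.ofPowerSeries_coeff_of_neg _ hk,
      map_zero]
  · obtain ⟨n, rfl⟩ := Int.eq_ofNat_of_zero_le hk
    rw [HahnSeries.ofPowerSeries_apply_coeff, HahnSeries.ofPowerSeries_apply_coeff,
      PowerSeries.coeff_map]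

/-- `jq` with complex coefficients -/
def jqC : LaurentSeries ℂ := ModularCurve.coeffMap (algebraMap ℚ ℂ) ModularCurve.jq

theorem hasExp_jf : HasExp (qc 1) jf jqC := by
  refine ⟨1, ModularCurve.jNum.map (Int.castRingHom ℂ), ?_, ?_⟩
  · rw [jqC, ModularCurve.jq, map_mul, ModularCurve.coeffMap_single, coeffMap_ofPowerSeries,
      ModularCurve.jNumQ]
    congr 2
    simp
  · simpa using hasPS_jNum

theorem hasPS_discriminant : HasPS (qc 1) discriminant
    (PowerSeries.X * ModularCurve.dedekindEtaUnit.map (Int.castRingHom ℂ)) := by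
  have h2 : HasPS (qc 1) (fun τ => etaP τ ^ 24)
      (ModularCurve.dedekindEtaUnit.map (Int.castRingHom ℂ)) := by
    rw [ModularCurve.dedekindEtaUnit, map_pow]
    exact hasPS_etaP.pow 24
  exact ((HasPS.X (qc 1)).mul h2).congr fun τ => (discriminant_eq_etaP τ).symm

/-- The `q`-expansion of the discriminant is `X ∏ (1 - X ^ n) ^ 24`. -/
theorem qExpansion_discriminant : qExpansion 1 discriminant =
    PowerSeries.X * ModularCurve.dedekindEtaUnit.map (Int.castRingHom ℂ) := by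
  have h1 : HasPS (qc 1) discriminant (qExpansion 1 discriminant) := by
    intro τ
    have := ModularForm.hasSum_qExpansion (h := 1) CuspForm.discriminant one_pos
      one_mem_strictPeriods_SL τ
    simpa [qc] using this
  exact h1.unique (eventually_mem_range_qc 1) hasPS_discriminant

end FermatJ
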