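import Mathlib
import Fermat.Agent.J.JFun

/-!
# Level one functions are polynomials in `j`; surjectivity of `j`
-/

set_option autoImplicit false

noncomputable section

open Filter Topology UpperHalfPlane ModularForm EisensteinSeries MatrixGroups
open scoped Manifold

local notation "𝕢" => Function.Periodic.qParam

namespace FermatJ

theorem HasExp.hasPS {ι : Type*} {t f : ι → ℂ} {P : PowerSeries ℂ} (ht : ∀ x, t x ≠ 0)
    (h : HasExp t f (HahnSeries.ofPowerSeries ℤ ℂ P)) : HasPS t f P := by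
  obtain ⟨m, Q, hQ, hf⟩ := h
  have h1 : Q = PowerSeries.X ^ m * P := by
    apply HahnSeries.ofPowerSeries_injective (Γ := ℤ)
    rw [map_mul, HahnSeries.ofPowerSeries_X_pow, hQ, ← mul_assoc, HahnSeries.single_mul_single]
    simp
  subst h1
  intro x
  have h2 := hf x
  rw [← hasSum_nat_add_iff' m] at h2
  have h3 : ∑ i ∈ Finset.range m, (PowerSeries.X ^ m * P).coeff i * t x ^ i = 0 := by
    refine Finset.sum_eq_zero fun i hi => ?_
    rw [Finset.mem_range] at hi
    rw [PowerSeries.coeff_X_pow_mul', if_neg (by omega), zero_mul]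
  rw [h3, sub_zero] at h2
  have h4 := h2.mul_left ((t x ^ m)⁻¹)
  have h5 := pow_ne_zero m (ht x)
  convert! h4 using 1
  · funext n
    rw [PowerSeries.coeff_X_pow_mul, pow_add]
    field_simp
  · field_simp

theorem HasPS.isBounded {f : ℍ → ℂ} {P : PowerSeries ℂ} {h : ℕ} [NeZero h]
    (hf : HasPS (qc h) f P) : IsBoundedAtImInfty f := by
  have hh : (0 : ℝ) < h := by exact_mod_cast Nat.pos_of_ne_zero (NeZero.ne h)
  exact isBoundedAtImInfty_of_hasSum_qExpansion (c := fun n => P.coeff n) hh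
    (fun τ => by simpa [qc] using hf τ)

theorem tendsto_qc (h : ℕ) [NeZero h] : Tendsto (qc h) atImInfty (𝓝 0) := by
  have hh : (0 : ℝ) < h := by exact_mod_cast Nat.pos_of_ne_zero (NeZero.ne h)
  exact qParam_tendsto_atImInfty hh

theorem HasPS.tendsto {f : ℍ → ℂ} {P : PowerSeries ℂ} {h : ℕ} [NeZero h]
    (hf : HasPS (qc h) f P) : Tendsto f atImInfty (𝓝 (P.coeff 0)) := by
  set g : ℍ → ℂ := fun τ => (f τ - P.coeff 0) * (qc h τ)⁻¹ with hg
  have h1 : HasPS (qc h) g (PowerSeries.mk fun n => P.coeff (n + 1)) := by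
    intro τ
    have h2 := hf τ
    rw [← hasSum_nat_add_iff' 1] at h2
    have h3 := h2.mul_right ((qc h τ)⁻¹)
    convert! h3 using 1
    · funext n
      rw [PowerSeries.coeff_mk, pow_succ]
      field_simp [qc_ne_zero h τ]
    · simp [hg]
  have h2 : IsBoundedAtImInfty g := h1.isBounded
  have h3 : Tendsto (fun τ => qc h τ * g τ) atImInfty (𝓝 0) := by
    have h4 : (qc h) =o[atImInfty] (1 : ℍ → ℝ) := (Asymptotics.isLittleO_one_iff ℝ).mpr (tendsto_qc h)
    have h5 := h4.mul_isBigO h2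
    rw [← Asymptotics.isLittleO_one_iff ℝ]
    simpa using h5
  have h4 : f = fun τ => P.coeff 0 + qc h τ * g τ := by
    funext τ
    rw [hg]
    field_simp [qc_ne_zero h τ]
    ring
  rw [h4]
  simpa using h3.const_add (P.coeff 0)

theorem tendsto_qc_mul_jf : Tendsto (fun τ => qc 1 τ * jf τ) atImInfty (𝓝 1) := by
  simpa using hasPS_jNum.tendsto

/-- `j` is surjective. -/
theorem jf_surjective : Function.Surjective jf := by
  intro c
  by_contra hc
  push Not at hc
  have hne : ∀ τ, jf τ - c ≠ 0 := fun τ => sub_ne_zero.mpr (hc τ)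
  set g : ℍ → ℂ := fun τ => (jf τ - c)⁻¹ with hg
  have hd : MDiff g := by
    have h1 := mdifferentiable_jf
    rw [UpperHalfPlane.mdifferentiable_iff] at *
    exact (h1.sub_const c).inv fun z _ => hne _
  have hinv : ∀ γ : SL(2, ℤ), g ∣[(0 : ℤ)] γ = g := by
    intro γ
    funext τ
    rw [ModularForm.SL_slash_apply]
    show (jf (γ • τ) - c)⁻¹ * _ = (jf τ - c)⁻¹
    rw [jf_smul]
    simp
  have ht : Tendsto g atImInfty (𝓝 0) := by
    have h1 : Tendsto (fun τ => qc 1 τ * (qc 1 τ * jf τ - c * qc 1 τ)⁻¹) atImInfty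
        (𝓝 (0 * (1 - c * 0)⁻¹)) :=
      (tendsto_qc 1).mul ((tendsto_qc_mul_jf.sub ((tendsto_qc 1).const_mul c)).inv₀ (by simp))
    rw [zero_mul] at h1
    refine h1.congr fun τ => ?_
    have h2 := hne τ
    have h3 := qc_ne_zero 1 τ
    have h4 : qc 1 τ * jf τ - c * qc 1 τ = qc 1 τ * (jf τ - c) := by ring
    rw [h4, hg]
    field_simp
  have hb : IsBoundedAtImInfty g := ht.isBigO_one ℝ
  obtain ⟨b, hb'⟩ := ModularFormClass.levelOne_weight_zero_const (mkLevelOne g hinv hd hb)
  have hb2 : ∀ τ, g τ = b := fun τ => congrFun hb' τ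
  have hb0 : b = 0 := by
    have : Tendsto g atImInfty (𝓝 b) := by
      rw [show g = fun _ => b from funext hb2]
      exact tendsto_const_nhds
    exact tendsto_nhds_unique this ht
  have := hb2 UpperHalfPlane.I
  rw [hb0] at this
  exact inv_ne_zero (hne _) this

section Poly

variable {K : Type*} [Field K] [Algebra ℚ K] [Algebra K ℂ]

/-- extension of scalars `K → ℂ` for Laurent series -/
abbrev toC (φ : LaurentSeries K) : LaurentSeries ℂ := ModularCurve.coeffMap (algebraMap K ℂ) φ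

/-- `jq` with coefficients in `K`. -/
abbrev jqK (K : Type*) [Field K] [Algebra ℚ K] : LaurentSeries K :=
  ModularCurve.coeffEmb K ModularCurve.jq

theorem toC_coeffEmb (x : LaurentSeries ℚ) :
    toC (ModularCurve.coeffEmb K x) = ModularCurve.coeffMap (algebraMap ℚ ℂ) x := by
  rw [toC, ModularCurve.coeffEmb, ModularCurve.coeffMap_coeffMap]
  exact ModularCurve.coeffMap_congr (Subsingleton.elim _ _) x

theorem toC_jqK : toC (jqK K) = jqC := toC_coeffEmb _

omit [Algebra K ℂ] in
theorem coeff_jqK_pow_self (n : ℕ) : (jqK K ^ n).coeff (-(n : ℤ)) = 1 := by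
  rw [← map_pow, ModularCurve.coeffEmb_coeff, ModularCurve.coeff_jq_pow_self, map_one]

omit [Algebra K ℂ] in
theorem coeff_jqK_pow_of_lt {n : ℕ} {m : ℤ} (hm : m < -(n : ℤ)) : (jqK K ^ n).coeff m = 0 := by
  rw [← map_pow, ModularCurve.coeffEmb_coeff, ModularCurve.coeff_jq_pow_of_lt hm, map_zero]

omit [Algebra ℚ K] in
omit [Algebra K ℂ] in
theorem exists_ofPowerSeries {φ : LaurentSeries K} (h : ∀ k < 0, φ.coeff k = 0) :
    φ = HahnSeries.ofPowerSeries ℤ K (PowerSeries.mk fun n => φ.coeff n) := by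
  ext k
  rcases lt_or_ge k 0 with hk | hk
  · rw [h k hk, ModularCurve.ofPowerSeries_coeff_of_neg _ hk]
  · obtain ⟨n, rfl⟩ := Int.eq_ofNat_of_zero_le hk
    rw [HahnSeries.ofPowerSeries_apply_coeff, PowerSeries.coeff_mk]

omit [Algebra ℚ K] in
theorem exists_const_of_coeff {f : ℍ → ℂ} {φ : LaurentSeries K} (hd : MDiff f)
    (hinv : ∀ (γ : SL(2, ℤ)) (τ : ℍ), f (γ • τ) = f τ) (hf : HasExp (qc 1) f (toC φ))
    (h : ∀ k < 0, φ.coeff k = 0) : ∀ τ, f τ = algebraMap K ℂ (φ.coeff 0) := by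
  have h1 := exists_ofPowerSeries h
  set P : PowerSeries K := PowerSeries.mk fun n => φ.coeff n with hP
  have h2 : HasPS (qc 1) f (P.map (algebraMap K ℂ)) := by
    apply HasExp.hasPS (qc_ne_zero 1)
    rw [← coeffMap_ofPowerSeries, ← h1]
    exact hf
  have hinv' : ∀ γ : SL(2, ℤ), f ∣[(0 : ℤ)] γ = f := by
    intro γ
    funext τ
    rw [ModularForm.SL_slash_apply]
    show f (γ • τ) * _ = f τ
    rw [hinv]
    simp
  obtain ⟨b, hb⟩ := ModularFormClass.levelOne_weight_zero_const
    (mkLevelOne f hinv' hd h2.isBounded)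
  have hb2 : ∀ τ, f τ = b := fun τ => congrFun hb τ
  have h3 : HasPS (qc 1) f (PowerSeries.C b) := (HasPS.C _ b).congr fun τ => (hb2 τ).symm
  have h4 := h2.unique (eventually_mem_range_qc 1) h3
  have h5 := congrArg (PowerSeries.coeff 0) h4
  intro τ
  rw [hb2 τ]
  simpa [hP] using h5.symm

/-- A holomorphic level one function which is meromorphic at infinity, with expansion
coefficients in `K`, is a polynomial in `j` with coefficients in `K`. -/
theorem exists_polynomial_of_coeff (m : ℕ) : ∀ (f : ℍ → ℂ) (φ : LaurentSeries K), MDiff f →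
    (∀ (γ : SL(2, ℤ)) (τ : ℍ), f (γ • τ) = f τ) → HasExp (qc 1) f (toC φ) →
    (∀ k < -(m : ℤ), φ.coeff k = 0) →
    ∃ P : Polynomial K, ∀ τ, f τ = Polynomial.aeval (jf τ) P := by
  induction m with
  | zero =>
    intro f φ hd hinv hf h
    exact ⟨Polynomial.C (φ.coeff 0), fun τ => by
      rw [exists_const_of_coeff hd hinv hf (by simpa using h) τ, Polynomial.aeval_C]⟩
  | succ m ih =>
    intro f φ hd hinv hf h
    set a : K := φ.coeff (-((m + 1 : ℕ) : ℤ)) with ha
    have hg : HasExp (qc 1) (fun τ => f τ - algebraMap K ℂ a * jf τ ^ (m + 1))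
        (toC (φ - HahnSeries.C a * jqK K ^ (m + 1))) := by
      have h1 : toC (φ - HahnSeries.C a * jqK K ^ (m + 1))
          = toC φ - HahnSeries.C (algebraMap K ℂ a) * jqC ^ (m + 1) := by
        rw [toC, map_sub, map_mul, map_pow]
        congr 2
        · exact ModularCurve.coeffMap_single _ _ _
        · rw [← toC_jqK (K := K)]
      rw [h1]
      exact hf.sub ((HasExp.const _ _).mul (hasExp_jf.pow (m + 1)))
    have hd' : MDiff (fun τ => f τ - algebraMap K ℂ a * jf τ ^ (m + 1)) := by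
      have h1 := mdifferentiable_jf
      rw [UpperHalfPlane.mdifferentiable_iff] at *
      exact hd.sub ((h1.pow (m + 1)).const_mul _)
    have hinv' : ∀ (γ : SL(2, ℤ)) (τ : ℍ), (fun τ => f τ - algebraMap K ℂ a * jf τ ^ (m + 1)) (γ • τ)
        = (fun τ => f τ - algebraMap K ℂ a * jf τ ^ (m + 1)) τ := by
      intro γ τ
      simp only [hinv, jf_smul]
    have hc : ∀ k < -(m : ℤ), (φ - HahnSeries.C a * jqK K ^ (m + 1)).coeff k = 0 := by
      intro k hk
      rw [HahnSeries.coeff_sub, HahnSeries.C_mul_eq_smul, HahnSeries.coeff_smul]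
      rcases eq_or_ne k (-((m + 1 : ℕ) : ℤ)) with rfl | hk'
      · rw [coeff_jqK_pow_self, smul_eq_mul, mul_one, ← ha, sub_self]
      · have hk2 : k < -((m + 1 : ℕ) : ℤ) := by
          push_cast at hk' ⊢
          omega
        rw [coeff_jqK_pow_of_lt hk2, smul_zero, sub_zero]
        exact h k hk2
    obtain ⟨P, hP⟩ := ih _ _ hd' hinv' hg hc
    refine ⟨P + Polynomial.C a * Polynomial.X ^ (m + 1), fun τ => ?_⟩
    have := hP τ
    simp only [map_add, map_mul, Polynomial.aeval_C, map_pow, Polynomial.aeval_X]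
    linear_combination this

theorem exists_polynomial {f : ℍ → ℂ} {φ : LaurentSeries K} (hd : MDiff f)
    (hinv : ∀ (γ : SL(2, ℤ)) (τ : ℍ), f (γ • τ) = f τ) (hf : HasExp (qc 1) f (toC φ)) :
    ∃ P : Polynomial K, ∀ τ, f τ = Polynomial.aeval (jf τ) P := by
  rcases eq_or_ne φ 0 with rfl | hφ
  · exact exists_polynomial_of_coeff 0 f 0 hd hinv hf (by simp)
  · refine exists_polynomial_of_coeff (-φ.order).toNat f φ hd hinv hf fun k hk => ?_
    apply HahnSeries.coeff_eq_zero_of_lt_order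
    omega

end Poly

end FermatJ
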