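import Mathlib
import Fermat.Agent.J.LevelOne

/-!
# Twisting expansions
-/

set_option autoImplicit false

noncomputable section

open Filter Topology UpperHalfPlane

namespace FermatJ

section Twist

variable {R : Type*} [CommRing R]

/-- The twist `φ(q) ↦ φ(u q)` of a Laurent series by a unit `u`. -/
def twist (u : Rˣ) : LaurentSeries R →+* LaurentSeries R where
  toFun φ :=
    { coeff := fun k => ((u ^ k : Rˣ) : R) * φ.coeff k
      isPWO_support' := φ.isPWO_support.mono fun k hk => by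
        simp only [Function.mem_support, ne_eq, HahnSeries.mem_support] at hk ⊢
        exact fun h => hk (by rw [h, mul_zero]) }
  map_one' := by
    ext k
    rcases eq_or_ne k 0 with rfl | hk
    · simp
    · simp [HahnSeries.coeff_one, hk]
  map_zero' := by
    ext k
    simp
  map_add' x y := by
    ext k
    simp [mul_add]
  map_mul' x y := by
    ext k
    simp only [HahnSeries.coeff_mul, Finset.mul_sum]
    symm
    refine Finset.sum_congr ?_ fun ij hij => ?_
    · ext ij
      simp [HahnSeries.mem_support]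
    · rw [Finset.mem_antidiagonal] at hij
      rw [← hij.2.2, zpow_add, Units.val_mul]
      ring

@[simp]
theorem coeff_twist (u : Rˣ) (φ : LaurentSeries R) (k : ℤ) :
    (twist u φ).coeff k = ((u ^ k : Rˣ) : R) * φ.coeff k := rfl

theorem twist_single (u : Rˣ) (k : ℤ) (r : R) :
    twist u (HahnSeries.single k r) = HahnSeries.single k (((u ^ k : Rˣ) : R) * r) := by
  ext m
  rw [coeff_twist]
  rcases eq_or_ne m k with rfl | hm
  · simp
  · simp [HahnSeries.coeff_single_of_ne hm]

theorem coeffMap_twist {S : Type*} [CommRing S] (f : R →+* S) (u : Rˣ) (φ : LaurentSeries R) :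
    ModularCurve.coeffMap f (twist u φ) = twist (Units.map (f : R →* S) u)
      (ModularCurve.coeffMap f φ) := by
  ext k
  simp only [ModularCurve.coeffMap_coeff, coeff_twist, map_mul]
  congr 1
  rw [← map_zpow]
  rfl

end Twist

variable {ι ι' : Type*}

theorem twist_ofPowerSeries (u : ℂˣ) (P : PowerSeries ℂ) :
    twist u (HahnSeries.ofPowerSeries ℤ ℂ P)
      = HahnSeries.ofPowerSeries ℤ ℂ (PowerSeries.rescale (u : ℂ) P) := by
  ext k
  rw [coeff_twist]
  rcases lt_or_ge k 0 with hk | hk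
  · rw [ModularCurve.ofPowerSeries_coeff_of_neg _ hk, ModularCurve.ofPowerSeries_coeff_of_neg _ hk,
      mul_zero]
  · obtain ⟨n, rfl⟩ := Int.eq_ofNat_of_zero_le hk
    rw [HahnSeries.ofPowerSeries_apply_coeff, HahnSeries.ofPowerSeries_apply_coeff,
      PowerSeries.coeff_rescale]
    simp

/-- Change of coordinate by a constant factor. -/
theorem HasExp.twist {t : ι → ℂ} {t' : ι' → ℂ} {σ : ι' → ι} {f : ι → ℂ} {φ : LaurentSeries ℂ}
    (u : ℂˣ) (hσ : ∀ x, t (σ x) = u * t' x) (h : HasExp t f φ) :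
    HasExp t' (fun x => f (σ x)) (twist u φ) := by
  obtain ⟨m, P, hP, hf⟩ := h
  refine ⟨m, PowerSeries.C (((u ^ (-(m : ℤ)) : ℂˣ) : ℂ)) * PowerSeries.rescale (u : ℂ) P, ?_, ?_⟩
  · have h2 : HahnSeries.ofPowerSeries ℤ ℂ
        (PowerSeries.C (((u ^ (-(m : ℤ)) : ℂˣ) : ℂ)) * PowerSeries.rescale (u : ℂ) P)
        = HahnSeries.single 0 (((u ^ (-(m : ℤ)) : ℂˣ) : ℂ)) *
          HahnSeries.ofPowerSeries ℤ ℂ (PowerSeries.rescale (u : ℂ) P) := by
      rw [RingHom.map_mul, HahnSeries.ofPowerSeries_C]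
      rfl
    rw [h2, hP, RingHom.map_mul, twist_single, twist_ofPowerSeries, ← mul_assoc,
      HahnSeries.single_mul_single, add_zero, mul_one, one_mul]
  · intro x
    have h1 := (hf (σ x)).mul_left (((u ^ (-(m : ℤ)) : ℂˣ) : ℂ))
    simp only [hσ] at h1
    convert! h1 using 1
    · funext n
      rw [PowerSeries.coeff_C_mul, PowerSeries.coeff_rescale, mul_pow]
      ring
    · rw [mul_pow]
      have hu : (u : ℂ) ≠ 0 := u.ne_zero
      rw [zpow_neg, zpow_natCast, Units.val_inv_eq_inv_val, Units.val_pow_eq_pow_val]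
      field_simp

/-- the power series `P(X^M)` -/
def expandPS (M : ℕ) (P : PowerSeries ℂ) : PowerSeries ℂ :=
  PowerSeries.mk fun n => if M ∣ n then P.coeff (n / M) else 0

theorem qExpand_ofPowerSeries (M : ℕ) [NeZero M] (P : PowerSeries ℂ) :
    ModularCurve.qExpand ℂ M (HahnSeries.ofPowerSeries ℤ ℂ P)
      = HahnSeries.ofPowerSeries ℤ ℂ (expandPS M P) := by
  have hM : 0 < M := Nat.pos_of_ne_zero (NeZero.ne M)
  ext k
  by_cases hdvd : (M : ℤ) ∣ k
  · obtain ⟨m, rfl⟩ := hdvd
    rw [ModularCurve.qExpand_coeff_mul]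
    rcases lt_or_ge m 0 with hm | hm
    · have h2 : (M : ℤ) * m < 0 := mul_neg_of_pos_of_neg (by exact_mod_cast hM) hm
      rw [ModularCurve.ofPowerSeries_coeff_of_neg _ hm,
        ModularCurve.ofPowerSeries_coeff_of_neg _ h2]
    · obtain ⟨n, rfl⟩ := Int.eq_ofNat_of_zero_le hm
      rw [show (M : ℤ) * (n : ℤ) = ((M * n : ℕ) : ℤ) by push_cast; ring,
        HahnSeries.ofPowerSeries_apply_coeff, HahnSeries.ofPowerSeries_apply_coeff,
        expandPS, PowerSeries.coeff_mk, if_pos (Dvd.intro n rfl), Nat.mul_div_cancel_left n hM]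
  · rw [ModularCurve.qExpand_coeff_of_not_dvd M _ hdvd]
    rcases lt_or_ge k 0 with hk | hk
    · rw [ModularCurve.ofPowerSeries_coeff_of_neg _ hk]
    · obtain ⟨n, rfl⟩ := Int.eq_ofNat_of_zero_le hk
      rw [HahnSeries.ofPowerSeries_apply_coeff, expandPS, PowerSeries.coeff_mk, if_neg]
      exact fun h => hdvd (by exact_mod_cast h)

theorem HasPS.expand {t : ι → ℂ} {t' : ι' → ℂ} {σ : ι' → ι} {f : ι → ℂ} {P : PowerSeries ℂ}
    (M : ℕ) [NeZero M] (hσ : ∀ x, t (σ x) = t' x ^ M) (h : HasPS t f P) :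
    HasPS t' (fun x => f (σ x)) (expandPS M P) := by
  have hM : 0 < M := Nat.pos_of_ne_zero (NeZero.ne M)
  intro x
  have h1 := h (σ x)
  have hinj : Function.Injective (fun n : ℕ => M * n) := fun a b hab =>
    Nat.eq_of_mul_eq_mul_left hM hab
  rw [← hinj.hasSum_iff]
  · convert! h1 using 1
    funext n
    simp only [Function.comp_apply, expandPS, PowerSeries.coeff_mk, hσ]
    rw [if_pos (Dvd.intro n rfl), Nat.mul_div_cancel_left n hM, pow_mul]
  · intro n hn
    rw [expandPS, PowerSeries.coeff_mk, if_neg, zero_mul]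
    rintro ⟨c, rfl⟩
    exact hn ⟨c, rfl⟩

/-- Change of coordinate by a power. -/
theorem HasExp.expand {t : ι → ℂ} {t' : ι' → ℂ} {σ : ι' → ι} {f : ι → ℂ} {φ : LaurentSeries ℂ}
    (M : ℕ) [NeZero M] (hσ : ∀ x, t (σ x) = t' x ^ M) (h : HasExp t f φ) :
    HasExp t' (fun x => f (σ x)) (ModularCurve.qExpand ℂ M φ) := by
  obtain ⟨m, P, hP, hf⟩ := h
  refine ⟨M * m, expandPS M P, ?_, ?_⟩
  · rw [hP, map_mul, qExpand_ofPowerSeries, ModularCurve.qExpand_single]
    congr 2
    push_cast
    ring_nf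
  · refine (hf.expand M hσ).congr fun x => ?_
    simp only [hσ]
    rw [← pow_mul]

end FermatJ
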