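import Mathlib
import Fermat.Agent.J.LevelOne

/-!
# Local expansions at interior points of the upper half plane
-/

set_option autoImplicit false

noncomputable section

open Filter Topology UpperHalfPlane ModularForm EisensteinSeries MatrixGroups
open scoped Manifold ComplexConjugate

namespace FermatJ

/-- The coordinate `(τ - τ₀) / (τ - conj τ₀)` at the point `τ₀` of the upper half plane. -/
def wc (τ₀ : ℍ) (τ : ℍ) : ℂ := ((τ : ℂ) - τ₀) / ((τ : ℂ) - conj (τ₀ : ℂ))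

theorem sub_conj_ne_zero (τ₀ τ : ℍ) : (τ : ℂ) - conj (τ₀ : ℂ) ≠ 0 := by
  intro h
  have := congrArg Complex.im h
  simp only [Complex.sub_im, coe_im, Complex.conj_im, sub_neg_eq_add, Complex.zero_im] at this
  have h1 := τ.im_pos
  have h2 := τ₀.im_pos
  linarith

/-- inverse of the coordinate -/
def unw (τ₀ : ℍ) (w : ℂ) : ℂ := ((τ₀ : ℂ) - conj (τ₀ : ℂ) * w) / (1 - w)

theorem one_sub_ne_zero_of_norm {w : ℂ} (hw : ‖w‖ < 1) : 1 - w ≠ 0 := by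
  intro h
  rw [← sub_eq_zero.mp h] at hw
  simp at hw

theorem im_unw (τ₀ : ℍ) {w : ℂ} (hw : ‖w‖ < 1) : 0 < (unw τ₀ w).im := by
  have h1 := one_sub_ne_zero_of_norm hw
  have hn : 0 < Complex.normSq (1 - w) := Complex.normSq_pos.mpr h1
  have hw2 : Complex.normSq w < 1 := by
    rw [Complex.normSq_eq_norm_sq]
    nlinarith [norm_nonneg w]
  rw [unw, Complex.div_im]
  rw [← sub_div, ]
  apply div_pos _ hn
  simp only [Complex.sub_im, Complex.sub_re, Complex.mul_im, Complex.mul_re, Complex.conj_re,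
    Complex.conj_im, coe_re, coe_im, Complex.one_re, Complex.one_im]
  rw [Complex.normSq_apply] at hw2
  nlinarith [τ₀.im_pos, mul_pos τ₀.im_pos (sub_pos.mpr hw2)]

theorem wc_unw (τ₀ : ℍ) {w : ℂ} (hw : ‖w‖ < 1) : wc τ₀ ⟨unw τ₀ w, im_unw τ₀ hw⟩ = w := by
  have h1 := one_sub_ne_zero_of_norm hw
  have h2 := sub_conj_ne_zero τ₀ τ₀
  have h3 := sub_conj_ne_zero τ₀ ⟨unw τ₀ w, im_unw τ₀ hw⟩
  rw [wc, div_eq_iff h3]
  simp only [unw]
  field_simp
  ring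

theorem one_sub_wc (τ₀ τ : ℍ) : 1 - wc τ₀ τ = ((τ₀ : ℂ) - conj (τ₀ : ℂ)) / ((τ : ℂ) - conj (τ₀ : ℂ)) := by
  have h := sub_conj_ne_zero τ₀ τ
  rw [wc]
  field_simp
  ring

theorem unw_wc (τ₀ τ : ℍ) : unw τ₀ (wc τ₀ τ) = τ := by
  have h := sub_conj_ne_zero τ₀ τ
  have h0 := sub_conj_ne_zero τ₀ τ₀
  rw [unw, one_sub_wc, wc]
  field_simp
  ring

theorem norm_wc_lt_one (τ₀ τ : ℍ) : ‖wc τ₀ τ‖ < 1 := by
  have h := sub_conj_ne_zero τ₀ τ
  rw [wc, norm_div, div_lt_one (norm_pos_iff.mpr h)]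
  rw [← abs_norm (_ - _), ← abs_norm ((τ : ℂ) - conj (τ₀ : ℂ)), ← sq_lt_sq,
    ← Complex.normSq_eq_norm_sq, ← Complex.normSq_eq_norm_sq, Complex.normSq_apply,
    Complex.normSq_apply]
  simp only [Complex.sub_re, Complex.sub_im, coe_re, coe_im, Complex.conj_re, Complex.conj_im]
  nlinarith [mul_pos τ.im_pos τ₀.im_pos]

theorem eventually_mem_range_wc (τ₀ : ℍ) : ∀ᶠ z in 𝓝[≠] (0 : ℂ), z ∈ Set.range (wc τ₀) := by
  have h1 : ∀ᶠ z in 𝓝[≠] (0 : ℂ), z ∈ Metric.ball (0 : ℂ) 1 :=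
    nhdsWithin_le_nhds (Metric.ball_mem_nhds 0 one_pos)
  filter_upwards [h1] with z hz
  exact ⟨_, wc_unw τ₀ (by simpa using hz)⟩

@[simp] theorem wc_self (τ₀ : ℍ) : wc τ₀ τ₀ = 0 := by simp [wc]

theorem wc_eq_zero_iff {τ₀ τ : ℍ} : wc τ₀ τ = 0 ↔ τ = τ₀ := by
  have h := sub_conj_ne_zero τ₀ τ
  rw [wc, div_eq_zero_iff, or_iff_left h, sub_eq_zero]
  exact ⟨fun h => UpperHalfPlane.ext h, fun h => by rw [h]⟩

/-- the function on the disc corresponding to `f` -/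
def discFun (τ₀ : ℍ) (f : ℍ → ℂ) (w : ℂ) : ℂ := f (ofComplex (unw τ₀ w))

theorem differentiableOn_unw (τ₀ : ℍ) : DifferentiableOn ℂ (unw τ₀) (Metric.ball 0 1) := by
  unfold unw
  refine DifferentiableOn.div (by fun_prop) (by fun_prop) fun w hw => ?_
  exact one_sub_ne_zero_of_norm (by simpa using hw)

theorem differentiableOn_discFun (τ₀ : ℍ) {f : ℍ → ℂ} (hf : MDiff f) :
    DifferentiableOn ℂ (discFun τ₀ f) (Metric.ball 0 1) := by
  rw [UpperHalfPlane.mdifferentiable_iff] at hf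
  exact hf.comp (differentiableOn_unw τ₀) fun w hw => im_unw τ₀ (by simpa using hw)

theorem discFun_wc (τ₀ : ℍ) (f : ℍ → ℂ) (τ : ℍ) : discFun τ₀ f (wc τ₀ τ) = f τ := by
  rw [discFun, unw_wc, ofComplex_apply]

/-- The local expansion of `f` at `τ₀`. -/
def localPS (τ₀ : ℍ) (f : ℍ → ℂ) : PowerSeries ℂ :=
  PowerSeries.mk fun n => (n.factorial : ℂ)⁻¹ * iteratedDeriv n (discFun τ₀ f) 0

theorem hasPS_local (τ₀ : ℍ) {f : ℍ → ℂ} (hf : MDiff f) : HasPS (wc τ₀) f (localPS τ₀ f) :=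
  (hasPS_of_differentiableOn (differentiableOn_discFun τ₀ hf) (norm_wc_lt_one τ₀)).congr
    (discFun_wc τ₀ f)

theorem HasPS.coeff_zero {ι : Type*} {t f : ι → ℂ} {P : PowerSeries ℂ} (h : HasPS t f P)
    {x : ι} (hx : t x = 0) : f x = P.coeff 0 := by
  have h1 := h x
  rw [hx] at h1
  have h2 : (fun n : ℕ => P.coeff n * (0 : ℂ) ^ n) = fun n => if n = 0 then P.coeff 0 else 0 := by
    funext n
    rcases n with _ | n
    · simp
    · simp
  rw [h2] at h1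
  exact h1.unique (hasSum_ite_eq 0 _)

open Derivative in
/-- derivative of the local coordinate -/
def dwc (τ₀ : ℍ) (τ : ℍ) : ℂ :=
  (2 * Real.pi * Complex.I)⁻¹ * (((τ₀ : ℂ) - conj (τ₀ : ℂ)) / ((τ : ℂ) - conj (τ₀ : ℂ)) ^ 2)

theorem mdifferentiable_dwc (τ₀ : ℍ) : MDiff (dwc τ₀) := by
  rw [UpperHalfPlane.mdifferentiable_iff]
  have : DifferentiableOn ℂ (fun z : ℂ => (2 * Real.pi * Complex.I)⁻¹ *
      (((τ₀ : ℂ) - conj (τ₀ : ℂ)) / (z - conj (τ₀ : ℂ)) ^ 2)) upperHalfPlaneSet := by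
    refine DifferentiableOn.const_mul ?_ _
    refine DifferentiableOn.div (by fun_prop) (by fun_prop) fun z hz => ?_
    exact pow_ne_zero _ (sub_conj_ne_zero τ₀ ⟨z, hz⟩)
  refine this.congr fun z hz => ?_
  simp [dwc, ofComplex_apply_of_im_pos hz]

theorem dwc_ne_zero (τ₀ τ : ℍ) : dwc τ₀ τ ≠ 0 := by
  refine mul_ne_zero (inv_ne_zero ?_) (div_ne_zero ?_ (pow_ne_zero _ (sub_conj_ne_zero τ₀ τ)))
  · exact Complex.two_pi_I_ne_zero
  · exact sub_conj_ne_zero τ₀ τ₀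

theorem hasPS_deriv_discFun (τ₀ : ℍ) {f : ℍ → ℂ} (hf : MDiff f) :
    HasPS (wc τ₀) (fun τ => deriv (discFun τ₀ f) (wc τ₀ τ))
      (PowerSeries.derivative (R := ℂ) (localPS τ₀ f)) := by
  have h1 := hasPS_of_differentiableOn
    ((differentiableOn_discFun τ₀ hf).deriv Metric.isOpen_ball) (norm_wc_lt_one τ₀)
  convert! h1 using 1
  ext n
  rw [PowerSeries.coeff_derivative, PowerSeries.coeff_mk, localPS, PowerSeries.coeff_mk,
    iteratedDeriv_succ', Nat.factorial_succ]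
  have : ((n : ℂ) + 1) ≠ 0 := by exact_mod_cast Nat.succ_ne_zero n
  push_cast
  field_simp

open Derivative in
theorem normalizedDeriv_eq (τ₀ : ℍ) {f : ℍ → ℂ} (hf : MDiff f) (τ : ℍ) :
    normalizedDerivOfComplex f τ = deriv (discFun τ₀ f) (wc τ₀ τ) * dwc τ₀ τ := by
  have hev : (f ∘ ofComplex) =ᶠ[𝓝 (τ : ℂ)]
      (discFun τ₀ f ∘ fun z : ℂ => (z - τ₀) / (z - conj (τ₀ : ℂ))) := by
    filter_upwards [isOpen_upperHalfPlaneSet.mem_nhds τ.im_pos] with z hz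
    have := discFun_wc τ₀ f ⟨z, hz⟩
    simp only [Function.comp_apply, ofComplex_apply_of_im_pos hz]
    rw [← this]
    rfl
  have h1 : HasDerivAt (fun z : ℂ => (z - τ₀) / (z - conj (τ₀ : ℂ)))
      (((τ₀ : ℂ) - conj (τ₀ : ℂ)) / ((τ : ℂ) - conj (τ₀ : ℂ)) ^ 2) (τ : ℂ) := by
    have h2 := ((hasDerivAt_id (τ : ℂ)).sub_const (τ₀ : ℂ)).div
      ((hasDerivAt_id (τ : ℂ)).sub_const (conj (τ₀ : ℂ))) (sub_conj_ne_zero τ₀ τ)
    convert! h2 using 1
    simp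
  have h3 : DifferentiableAt ℂ (discFun τ₀ f) (wc τ₀ τ) :=
    (differentiableOn_discFun τ₀ hf).differentiableAt
      (Metric.isOpen_ball.mem_nhds (by simpa using norm_wc_lt_one τ₀ τ))
  have h4 := h3.hasDerivAt.comp (τ : ℂ) h1
  rw [normalizedDerivOfComplex, hev.deriv_eq, h4.deriv, dwc]
  ring

open Derivative in
theorem hasPS_normalizedDeriv (τ₀ : ℍ) {f : ℍ → ℂ} (hf : MDiff f) :
    HasPS (wc τ₀) (normalizedDerivOfComplex f)
      (PowerSeries.derivative (R := ℂ) (localPS τ₀ f) * localPS τ₀ (dwc τ₀)) :=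
  ((hasPS_deriv_discFun τ₀ hf).mul (hasPS_local τ₀ (mdifferentiable_dwc τ₀))).congr
    fun τ => (normalizedDeriv_eq τ₀ hf τ).symm

end FermatJ
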