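import Mathlib
import Fermat.Agent.J.Local

/-!
# The derivative of `j` and orders of vanishing of `j - j(τ₀)`
-/

set_option autoImplicit false

noncomputable section

open Filter Topology UpperHalfPlane ModularForm EisensteinSeries MatrixGroups Derivative
open scoped Manifold ComplexConjugate

local notation "𝕢" => Function.Periodic.qParam

namespace FermatJ

theorem periodic_of_level_one {f : ℍ → ℂ} (hinv : ∀ (γ : SL(2, ℤ)) (τ : ℍ), f (γ • τ) = f τ)
    (τ : ℍ) : f (((1 : ℕ) : ℝ) +ᵥ τ) = f τ := by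
  have := hinv ModularGroup.T τ
  rw [modular_T_smul] at this
  simpa using this

theorem normalizedDeriv_eq_cusp {f : ℍ → ℂ} (hper : ∀ τ : ℍ, f (((1 : ℕ) : ℝ) +ᵥ τ) = f τ)
    (hf : MDiff f) (hb : IsBoundedAtImInfty f) (τ : ℍ) :
    normalizedDerivOfComplex f τ = deriv (cuspFunction (1 : ℝ) f) (qc 1 τ) * qc 1 τ := by
  have hper' : Function.Periodic (f ∘ ofComplex) (1 : ℝ) := by
    simpa using periodic_of_forall hper
  have hev : (f ∘ ofComplex) =ᶠ[𝓝 (τ : ℂ)] (cuspFunction (1 : ℝ) f ∘ fun z : ℂ => 𝕢 (1 : ℝ) z) := by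
    filter_upwards [isOpen_upperHalfPlaneSet.mem_nhds τ.im_pos] with z hz
    have := eq_cuspFunction (h := 1) ⟨z, hz⟩ one_ne_zero hper'
    simp only [Function.comp_apply, ofComplex_apply_of_im_pos hz]
    rw [← this]
  have h1 : HasDerivAt (fun z : ℂ => 𝕢 (1 : ℝ) z) (2 * Real.pi * Complex.I * 𝕢 (1 : ℝ) (τ : ℂ))
      (τ : ℂ) := by
    have h2 : HasDerivAt (fun z : ℂ => 2 * Real.pi * Complex.I * z / ((1 : ℝ) : ℂ))
        (2 * Real.pi * Complex.I) (τ : ℂ) := by
      have := (hasDerivAt_id (τ : ℂ)).const_mul (2 * Real.pi * Complex.I)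
      simpa using this
    have := h2.cexp
    unfold Function.Periodic.qParam
    convert! this using 1
    ring
  have hq : ‖𝕢 (1 : ℝ) (τ : ℂ)‖ < 1 := by simpa [qc] using norm_qc_lt_one 1 τ
  have h3 : DifferentiableAt ℂ (cuspFunction (1 : ℝ) f) (𝕢 (1 : ℝ) (τ : ℂ)) :=
    differentiableAt_cuspFunction one_pos hper' hf hb hq
  have h4 := h3.hasDerivAt.comp (τ : ℂ) h1
  rw [normalizedDerivOfComplex, hev.deriv_eq, h4.deriv]
  have : (2 * Real.pi * Complex.I : ℂ) ≠ 0 := Complex.two_pi_I_ne_zero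
  simp only [qc, Nat.cast_one]
  field_simp

theorem isBounded_normalizedDeriv {f : ℍ → ℂ} (hper : ∀ τ : ℍ, f (((1 : ℕ) : ℝ) +ᵥ τ) = f τ)
    (hf : MDiff f) (hb : IsBoundedAtImInfty f) : IsBoundedAtImInfty (normalizedDerivOfComplex f) := by
  have hper' : Function.Periodic (f ∘ ofComplex) (1 : ℝ) := by
    simpa using periodic_of_forall hper
  have h1 : ContinuousAt (deriv (cuspFunction (1 : ℝ) f)) 0 :=
    (analyticAt_cuspFunction_zero one_pos hper' hf hb).deriv.continuousAt
  have h2 : Tendsto (fun τ => deriv (cuspFunction (1 : ℝ) f) (qc 1 τ) * qc 1 τ) atImInfty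
      (𝓝 (deriv (cuspFunction (1 : ℝ) f) 0 * 0)) :=
    (h1.tendsto.comp (tendsto_qc 1)).mul (tendsto_qc 1)
  have h3 : Tendsto (normalizedDerivOfComplex f) atImInfty
      (𝓝 (deriv (cuspFunction (1 : ℝ) f) 0 * 0)) :=
    h2.congr fun τ => (normalizedDeriv_eq_cusp hper hf hb τ).symm
  exact h3.isBigO_one ℝ

theorem normalizedDeriv_jf_slash (γ : SL(2, ℤ)) :
    normalizedDerivOfComplex jf ∣[(2 : ℤ)] γ = normalizedDerivOfComplex jf := by
  have h0 : jf ∣[(0 : ℤ)] γ = jf := by
    funext τ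
    rw [ModularForm.SL_slash_apply]
    show jf (γ • τ) * _ = jf τ
    rw [jf_smul]
    simp
  have h := normalizedDerivOfComplex_SL_slash (k := 0) mdifferentiable_jf (γ := γ)
  rw [h0] at h
  have h1 : (fun z : ℍ ↦ ((0 : ℤ) : ℂ) * (2 * Real.pi * Complex.I)⁻¹ * (γ 1 0 / denom γ z) * jf z)
      = 0 := by
    funext z
    simp
  rw [h1, sub_zero] at h
  exact h.symm

theorem normalizedDeriv_qc (τ : ℍ) : normalizedDerivOfComplex (qc 1) τ = qc 1 τ := by
  have h1 : HasDerivAt (fun z : ℂ => 𝕢 (1 : ℝ) z) (2 * Real.pi * Complex.I * 𝕢 (1 : ℝ) (τ : ℂ))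
      (τ : ℂ) := by
    have h2 : HasDerivAt (fun z : ℂ => 2 * Real.pi * Complex.I * z / ((1 : ℝ) : ℂ))
        (2 * Real.pi * Complex.I) (τ : ℂ) := by
      have := (hasDerivAt_id (τ : ℂ)).const_mul (2 * Real.pi * Complex.I)
      simpa using this
    have := h2.cexp
    unfold Function.Periodic.qParam
    convert! this using 1
    ring
  have hev : (qc 1 ∘ ofComplex) =ᶠ[𝓝 (τ : ℂ)] (fun z : ℂ => 𝕢 (1 : ℝ) z) := by
    filter_upwards [isOpen_upperHalfPlaneSet.mem_nhds τ.im_pos] with z hz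
    simp [qc, ofComplex_apply_of_im_pos hz]
  rw [normalizedDerivOfComplex, hev.deriv_eq, h1.deriv]
  have : (2 * Real.pi * Complex.I : ℂ) ≠ 0 := Complex.two_pi_I_ne_zero
  simp only [qc, Nat.cast_one]
  field_simp

theorem mdifferentiable_qc_mul_jf : MDiff (fun τ => qc 1 τ * jf τ) := by
  have h1 := mdifferentiable_jf
  have h2 := mdifferentiable_qc 1
  rw [UpperHalfPlane.mdifferentiable_iff] at *
  exact h2.mul h1

theorem normalizedDeriv_jf_mul_discriminant (τ : ℍ) :
    normalizedDerivOfComplex jf τ * discriminant τ =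
      (normalizedDerivOfComplex (fun τ => qc 1 τ * jf τ) τ - qc 1 τ * jf τ) * etaP τ ^ 24 := by
  have h := congrFun (normalizedDerivOfComplex_mul (qc 1) jf (mdifferentiable_qc 1)
    mdifferentiable_jf) τ
  simp only [Pi.add_apply, Pi.mul_apply, normalizedDeriv_qc] at h
  have h2 : (fun τ => qc 1 τ * jf τ) = qc 1 * jf := rfl
  rw [h2, h, discriminant_eq_etaP]
  ring

theorem isBounded_normalizedDeriv_jf_mul_discriminant :
    IsBoundedAtImInfty (fun τ => normalizedDerivOfComplex jf τ * discriminant τ) := by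
  have h1 : IsBoundedAtImInfty (fun τ => qc 1 τ * jf τ) := hasPS_jNum.isBounded
  have h2 : IsBoundedAtImInfty (normalizedDerivOfComplex (fun τ => qc 1 τ * jf τ)) := by
    refine isBounded_normalizedDeriv (fun τ => ?_) mdifferentiable_qc_mul_jf h1
    simp only [periodic_of_level_one jf_smul, qc_vadd 1]
  have h3 : IsBoundedAtImInfty (fun τ => etaP τ ^ 24) := (hasPS_etaP.pow 24).isBounded
  have h4 := (Asymptotics.IsBigO.sub h2 h1).mul h3
  have h5 : (fun τ => normalizedDerivOfComplex jf τ * discriminant τ) = fun τ =>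
      (normalizedDerivOfComplex (fun τ => qc 1 τ * jf τ) τ - qc 1 τ * jf τ) * etaP τ ^ 24 :=
    funext normalizedDeriv_jf_mul_discriminant
  rw [h5]
  unfold IsBoundedAtImInfty BoundedAtFilter
  refine h4.trans ?_
  exact Asymptotics.isBigO_of_le _ fun τ => by simp

/-- `D j · Δ` as a modular form of weight 14. -/
def djForm : ModularForm 𝒮ℒ 14 :=
  mkLevelOne (k := 14) (fun τ => normalizedDerivOfComplex jf τ * discriminant τ)
    (fun γ => by
      have h1 := ModularForm.mul_slash_SL2 2 12 γ (normalizedDerivOfComplex jf) discriminant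
      rw [normalizedDeriv_jf_slash, SlashInvariantForm.slash_action_generators_SL2Z
        discriminant_S_invariant discriminant_T_invariant γ] at h1
      exact h1)
    (by
      have h1 := normalizedDerivOfComplex_mdifferentiable mdifferentiable_jf
      have h2 := mdifferentiable_discriminant
      rw [UpperHalfPlane.mdifferentiable_iff] at *
      exact h1.mul h2)
    isBounded_normalizedDeriv_jf_mul_discriminant

theorem djForm_apply (τ : ℍ) :
    djForm τ = normalizedDerivOfComplex jf τ * discriminant τ := rfl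

/-- `E₄² E₆` as a modular form of weight 14. -/
def e14Form : ModularForm 𝒮ℒ 14 := ModularForm.mcast (by decide) ((E₄.mul E₄).mul E₆)

theorem e14Form_apply (τ : ℍ) : e14Form τ = E₄ τ ^ 2 * E₆ τ := by
  simp only [e14Form, coe_mcast, coe_mul, Pi.mul_apply]
  ring

theorem e14Form_ne_zero : e14Form ≠ 0 := by
  intro h
  have h1 : ∀ τ, E₄ τ ^ 2 * E₆ τ = 0 := fun τ => by
    rw [← e14Form_apply, h]
    rfl
  have h4 : Tendsto (E₄ : ℍ → ℂ) atImInfty (𝓝 1) := by
    have := (hasPS_E E₄).tendsto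
    rwa [E_qExpansion_coeff_zero _ ⟨2, rfl⟩] at this
  have h6 : Tendsto (E₆ : ℍ → ℂ) atImInfty (𝓝 1) := by
    have := (hasPS_E E₆).tendsto
    rwa [E_qExpansion_coeff_zero _ ⟨3, rfl⟩] at this
  have h2 : Tendsto (fun τ => E₄ τ ^ 2 * E₆ τ) atImInfty (𝓝 (1 ^ 2 * 1)) := (h4.pow 2).mul h6
  simp only [h1] at h2
  have := tendsto_nhds_unique h2 tendsto_const_nhds
  norm_num at this

theorem exists_smul_e14Form : ∃ c : ℂ, c • e14Form = djForm := by
  have h : Module.rank ℂ (ModularForm 𝒮ℒ ((14 : ℕ) : ℤ)) = 1 := by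
    rw [dimension_level_one 14 (by decide)]
    norm_num [Nat.ModEq]
  exact (finrank_eq_one_iff_of_nonzero' e14Form e14Form_ne_zero).mp
    (Module.rank_eq_one_iff_finrank_eq_one.mp h) _

theorem jf_ne_const (c : ℂ) : ∃ τ, jf τ ≠ c := by
  obtain ⟨τ, hτ⟩ := jf_surjective (c + 1)
  exact ⟨τ, by rw [hτ]; simp⟩

theorem eq_const_of_derivative_eq_zero {ι : Type*} {t f : ι → ℂ} {P : PowerSeries ℂ}
    (h : HasPS t f P) (hP : PowerSeries.derivative (R := ℂ) P = 0) (x : ι) : f x = P.coeff 0 := by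
  have h1 : P = PowerSeries.C (P.coeff 0) := by
    ext n
    rcases n with _ | n
    · simp
    · have h2 := congrArg (PowerSeries.coeff n) hP
      rw [PowerSeries.coeff_derivative, map_zero] at h2
      have h3 : ((n : ℂ) + 1) ≠ 0 := by exact_mod_cast Nat.succ_ne_zero n
      rw [PowerSeries.coeff_C, if_neg (Nat.succ_ne_zero n)]
      exact (mul_eq_zero.mp h2).resolve_right h3
  rw [h1] at h
  exact (h x).unique (HasPS.C t _ x)

theorem localPS_dwc_coeff_zero (τ₀ : ℍ) : (localPS τ₀ (dwc τ₀)).coeff 0 ≠ 0 := by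
  rw [← (hasPS_local τ₀ (mdifferentiable_dwc τ₀)).coeff_zero (wc_self τ₀)]
  exact dwc_ne_zero τ₀ τ₀

theorem normalizedDeriv_jf_ne_zero : ∃ τ, normalizedDerivOfComplex jf τ ≠ 0 := by
  by_contra h
  push Not at h
  have h1 := hasPS_normalizedDeriv UpperHalfPlane.I mdifferentiable_jf
  have h2 : HasPS (wc UpperHalfPlane.I) (fun _ => 0)
      (PowerSeries.derivative (R := ℂ) (localPS UpperHalfPlane.I jf) *
        localPS UpperHalfPlane.I (dwc UpperHalfPlane.I)) := h1.congr h
  have h3 := h2.unique (eventually_mem_range_wc _) (HasPS.zero _)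
  have h4 : localPS UpperHalfPlane.I (dwc UpperHalfPlane.I) ≠ 0 := by
    intro h0
    apply localPS_dwc_coeff_zero UpperHalfPlane.I
    rw [h0, map_zero]
  have h5 := (mul_eq_zero.mp h3).resolve_right h4
  have h6 := eq_const_of_derivative_eq_zero
    (hasPS_local UpperHalfPlane.I mdifferentiable_jf) h5
  obtain ⟨τ, hτ⟩ := jf_ne_const ((localPS UpperHalfPlane.I jf).coeff 0)
  exact hτ (h6 τ)

theorem exists_normalizedDeriv_jf : ∃ c : ℂ, c ≠ 0 ∧ ∀ τ,
    normalizedDerivOfComplex jf τ * discriminant τ = c * (E₄ τ ^ 2 * E₆ τ) := by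
  obtain ⟨c, hc⟩ := exists_smul_e14Form
  have h : ∀ τ, normalizedDerivOfComplex jf τ * discriminant τ = c * (E₄ τ ^ 2 * E₆ τ) := by
    intro τ
    rw [← djForm_apply, ← hc, ← e14Form_apply]
    rfl
  refine ⟨c, ?_, h⟩
  rintro rfl
  obtain ⟨τ, hτ⟩ := normalizedDeriv_jf_ne_zero
  have := h τ
  rw [zero_mul] at this
  exact mul_ne_zero hτ (discriminant_ne_zero τ) this

/-- the order of vanishing drops by one under derivation -/
theorem order_derivative_add_one {Q : PowerSeries ℂ} (h0 : Q.coeff 0 = 0) (hQ : Q ≠ 0) :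
    (PowerSeries.derivative (R := ℂ) Q).order + 1 = Q.order := by
  obtain ⟨n, hn⟩ : ∃ n : ℕ, Q.order = n := ENat.ne_top_iff_exists.mp
    (by rwa [ne_eq, PowerSeries.order_eq_top]) |>.imp fun _ h => h.symm
  have hn' := (PowerSeries.order_eq_nat).mp hn
  rcases n with _ | n
  · exact absurd h0 hn'.1
  rw [hn]
  have h1 : (PowerSeries.derivative (R := ℂ) Q).order = n := by
    rw [PowerSeries.order_eq_nat]
    constructor
    · rw [PowerSeries.coeff_derivative]
      have h3 : ((n : ℂ) + 1) ≠ 0 := by exact_mod_cast Nat.succ_ne_zero n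
      exact mul_ne_zero hn'.1 h3
    · intro i hi
      rw [PowerSeries.coeff_derivative, hn'.2 (i + 1) (by omega), zero_mul]
  rw [h1]
  rfl

end FermatJ
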