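import Mathlib
import Fermat.Agent.J.Twist
import Fermat.Agent.J.JDeriv
import Fermat.Prelude.Thm_ModularCurve_coeffMap_qExpand

/-!
# The functions `j((aτ+b)/d)`
-/

set_option autoImplicit false

noncomputable section

open Filter Topology UpperHalfPlane ModularForm EisensteinSeries MatrixGroups Matrix
open scoped Manifold ComplexConjugate

local notation "Δ" m:1024 => (FixedDetMatrix (Fin 2) ℤ m)

namespace FermatJ

theorem det_map_cast {m : ℤ} (A : Δ m) : (A.1.map (Int.cast : ℤ → ℝ)).det = (m : ℝ) :=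
  (RingHom.map_det (Int.castRingHom ℝ) A.1).symm.trans (congrArg (Int.cast : ℤ → ℝ) A.2)

/-- The real matrix attached to an integral matrix of positive determinant. -/
def toGL {m : ℤ} (hm : 0 < m) (A : Δ m) : GL (Fin 2) ℝ :=
  Matrix.GeneralLinearGroup.mkOfDetNeZero (A.1.map (Int.cast : ℤ → ℝ)) (by
    rw [det_map_cast A]
    exact_mod_cast hm.ne')

theorem det_toGL {m : ℤ} (hm : 0 < m) (A : Δ m) : 0 < (toGL hm A).det.val := by
  have h := det_map_cast A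
  have h2 : (toGL hm A).det.val = (A.1.map (Int.cast : ℤ → ℝ)).det := rfl
  rw [h2, h]
  exact_mod_cast hm

theorem toGL_smul {m : ℤ} (hm : 0 < m) (γ : SL(2, ℤ)) (A : Δ m) :
    toGL hm (γ • A) = (γ : GL (Fin 2) ℝ) * toGL hm A := by
  ext i j
  have : (toGL hm (γ • A)).1 = (γ.1 * A.1).map (Int.cast : ℤ → ℝ) := rfl
  rw [this]
  simp only [Matrix.map_apply, Matrix.mul_apply, Units.val_mul]
  push_cast
  rfl

/-- The function `j ∘ A`. -/
def jM {m : ℤ} (hm : 0 < m) (A : Δ m) (τ : ℍ) : ℂ := jf (toGL hm A • τ)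

theorem jM_smul {m : ℤ} (hm : 0 < m) (γ : SL(2, ℤ)) (A : Δ m) : jM hm (γ • A) = jM hm A := by
  funext τ
  rw [jM, jM, toGL_smul, mul_smul]
  exact jf_smul γ _

/-- right multiplication by an element of `SL(2, ℤ)`. -/
def rmul {m : ℤ} (A : Δ m) (γ : SL(2, ℤ)) : Δ m := ⟨A.1 * γ.1, by
  rw [Matrix.det_mul, γ.2, mul_one]
  exact A.2⟩

theorem toGL_rmul {m : ℤ} (hm : 0 < m) (γ : SL(2, ℤ)) (A : Δ m) :
    toGL hm (rmul A γ) = toGL hm A * (γ : GL (Fin 2) ℝ) := by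
  ext i j
  have : (toGL hm (rmul A γ)).1 = (A.1 * γ.1).map (Int.cast : ℤ → ℝ) := rfl
  rw [this]
  simp only [Matrix.map_apply, Matrix.mul_apply, Units.val_mul]
  push_cast
  rfl

theorem jM_apply_smul {m : ℤ} (hm : 0 < m) (γ : SL(2, ℤ)) (A : Δ m) (τ : ℍ) :
    jM hm A (γ • τ) = jM hm (rmul A γ) τ := by
  rw [jM, jM, toGL_rmul, mul_smul]
  rfl

theorem im_aff_pos (a : ℕ) (b : ℤ) (d : ℕ) [NeZero a] [NeZero d] (τ : ℍ) :
    0 < (((a : ℂ) * τ + b) / d).im := by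
  have ha : (0 : ℝ) < a := by exact_mod_cast Nat.pos_of_ne_zero (NeZero.ne a)
  have hd : (0 : ℝ) < d := by exact_mod_cast Nat.pos_of_ne_zero (NeZero.ne d)
  have h1 : (((a : ℂ) * τ + b) / d) = (((a : ℂ) * τ + b)) * ((d : ℝ)⁻¹ : ℝ) := by
    push_cast
    rfl
  rw [h1, Complex.im_mul_ofReal]
  have h2 : (((a : ℂ) * τ + b)).im = a * τ.im := by
    simp
  rw [h2]
  have := τ.im_pos
  positivity

/-- the point `(aτ+b)/d` -/
def aff (a : ℕ) (b : ℤ) (d : ℕ) [NeZero a] [NeZero d] (τ : ℍ) : ℍ :=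
  ⟨((a : ℂ) * τ + b) / d, im_aff_pos a b d τ⟩

/-- The function `τ ↦ j((aτ+b)/d)`. -/
def jabd (a : ℕ) (b : ℤ) (d : ℕ) [NeZero a] [NeZero d] (τ : ℍ) : ℂ := jf (aff a b d τ)

/-- The matrix `(a b; 0 d)`. -/
def matabd (a : ℕ) (b : ℤ) (d : ℕ) : Δ ((a * d : ℕ) : ℤ) := ⟨!![(a : ℤ), b; 0, (d : ℤ)], by
  rw [Matrix.det_fin_two]
  simp⟩

theorem toGL_smul_eq {m : ℤ} (hm : 0 < m) (A : Δ m) (τ : ℍ) :
    ((toGL hm A • τ : ℍ) : ℂ) = ((A.1 0 0 : ℂ) * τ + A.1 0 1) / ((A.1 1 0 : ℂ) * τ + A.1 1 1) := by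
  rw [coe_smul_of_det_pos (det_toGL hm A)]
  simp [num, denom, toGL, Matrix.GeneralLinearGroup.mkOfDetNeZero]

theorem jM_eq_jabd {m : ℤ} (hm : 0 < m) (A : Δ m) (h : A.1 1 0 = 0) (a : ℕ) (b : ℤ) (d : ℕ)
    [NeZero a] [NeZero d] (ha : A.1 0 0 = a) (hb : A.1 0 1 = b) (hd : A.1 1 1 = d) :
    jM hm A = jabd a b d := by
  funext τ
  rw [jM, jabd]
  congr 1
  ext
  rw [toGL_smul_eq, h, ha, hb, hd]
  simp [aff]

/-- Hermite normal form: every `A` of determinant `m > 0` is equivalent to `(a b; 0 d)` with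
`a d = m`, `0 ≤ b < d`. -/
theorem exists_hermite {m : ℕ} (hm : 0 < (m : ℤ)) (A : Δ (m : ℤ)) :
    ∃ (a b d : ℕ) (_ : NeZero a) (_ : NeZero d) (γ : SL(2, ℤ)), a * d = m ∧ b < d ∧
      (γ • A).1 = !![(a : ℤ), (b : ℤ); 0, (d : ℤ)] := by
  refine FixedDetMatrices.induction_on (C := fun A => ∃ (a b d : ℕ) (_ : NeZero a) (_ : NeZero d)
    (γ : SL(2, ℤ)), a * d = m ∧ b < d ∧ (γ • A).1 = !![(a : ℤ), (b : ℤ); 0, (d : ℤ)])
    hm.ne' ?_ ?_ ?_
  · intro A h1 h2 h3 h4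
    have hdet : A.1 0 0 * A.1 1 1 = m := by
      have := A.2
      rw [Matrix.det_fin_two, h1, mul_zero, sub_zero] at this
      exact this
    have hd : 0 < A.1 1 1 := by
      by_contra hd
      push Not at hd
      have : A.1 0 0 * A.1 1 1 ≤ 0 := mul_nonpos_of_nonneg_of_nonpos h2.le hd
      omega
    obtain ⟨a, ha⟩ := Int.eq_ofNat_of_zero_le h2.le
    obtain ⟨b, hb⟩ := Int.eq_ofNat_of_zero_le h3
    obtain ⟨d, hd'⟩ := Int.eq_ofNat_of_zero_le hd.le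
    have ha0 : a ≠ 0 := by rintro rfl; simp [ha] at h2
    have hd0 : d ≠ 0 := by rintro rfl; simp [hd'] at hd
    have : NeZero a := ⟨ha0⟩
    have : NeZero d := ⟨hd0⟩
    refine ⟨a, b, d, ‹_›, ‹_›, 1, ?_, ?_, ?_⟩
    · rw [ha, hd'] at hdet
      exact_mod_cast hdet
    · rw [abs_of_nonneg h3, abs_of_pos hd, hb, hd'] at h4
      exact_mod_cast h4
    · rw [one_smul]
      ext i j
      fin_cases i <;> fin_cases j <;> simp [ha, hb, hd', h1]
  · rintro B ⟨a, b, d, ha, hd, γ, h1, h2, h3⟩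
    refine ⟨a, b, d, ha, hd, γ * ModularGroup.S⁻¹, h1, h2, ?_⟩
    rw [← h3, mul_smul, inv_smul_smul]
  · rintro B ⟨a, b, d, ha, hd, γ, h1, h2, h3⟩
    refine ⟨a, b, d, ha, hd, γ * ModularGroup.T⁻¹, h1, h2, ?_⟩
    rw [← h3, mul_smul, inv_smul_smul]

theorem jabd_apply_smul (a : ℕ) (b : ℤ) (d : ℕ) [NeZero a] [NeZero d] (γ : SL(2, ℤ)) :
    ∃ (a' b' d' : ℕ) (_ : NeZero a') (_ : NeZero d') (γ' : SL(2, ℤ)), a' * d' = a * d ∧ b' < d' ∧
      γ'.1 * !![(a : ℤ), b; 0, (d : ℤ)] * γ.1 = !![(a' : ℤ), (b' : ℤ); 0, (d' : ℤ)] ∧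
      ∀ τ, jabd a b d (γ • τ) = jabd a' (b' : ℤ) d' τ := by
  have hm : (0 : ℤ) < ((a * d : ℕ) : ℤ) := by
    have := Nat.pos_of_ne_zero (NeZero.ne a)
    have := Nat.pos_of_ne_zero (NeZero.ne d)
    positivity
  obtain ⟨a', b', d', ha', hd', γ', h1, h2, h3⟩ := exists_hermite hm (rmul (matabd a b d) γ)
  refine ⟨a', b', d', ha', hd', γ', h1, h2, ?_, fun τ => ?_⟩
  · rw [← h3, Matrix.mul_assoc]
    rfl
  · have h4 := jM_eq_jabd hm (γ' • rmul (matabd a b d) γ) (by rw [h3]; simp) a' b' d'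
      (by rw [h3]; simp) (by rw [h3]; simp) (by rw [h3]; simp)
    rw [← h4, jM_smul, ← jM_apply_smul, jM_eq_jabd hm (matabd a b d) (by simp [matabd]) a b d
      (by simp [matabd]) (by simp [matabd]) (by simp [matabd])]

/-- `Γ₀(N)`-invariance of `j(dτ)` for `d ∣ N`. -/
theorem jabd_apply_smul_of_mem_Gamma0 {N : ℕ} [NeZero N] {γ : SL(2, ℤ)}
    (hγ : γ ∈ CongruenceSubgroup.Gamma0 N) {d : ℕ} [NeZero d] (hd : d ∣ N) (τ : ℍ) :
    jabd d 0 1 (γ • τ) = jabd d 0 1 τ := by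
  obtain ⟨c, hc⟩ : (N : ℤ) ∣ γ 1 0 := by
    rw [CongruenceSubgroup.Gamma0_mem] at hγ
    exact (ZMod.intCast_zmod_eq_zero_iff_dvd _ _).mp hγ
  obtain ⟨e, he⟩ := hd
  have hdet := γ.2
  rw [Matrix.det_fin_two] at hdet
  have hdet' : γ.1 0 0 * γ.1 1 1 - ((d : ℤ) * γ.1 0 1) * ((e : ℤ) * c) = 1 := by
    have h10 : γ.1 1 0 = (N : ℤ) * c := hc
    rw [h10, he] at hdet
    push_cast at hdet
    linear_combination hdet
  set γ' : SL(2, ℤ) := ⟨!![γ.1 0 0, (d : ℤ) * γ.1 0 1; (e : ℤ) * c, γ.1 1 1], by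
    rw [Matrix.det_fin_two]
    simpa using hdet'⟩ with hγ'
  have hm : (0 : ℤ) < ((d * 1 : ℕ) : ℤ) := by
    have := Nat.pos_of_ne_zero (NeZero.ne d)
    positivity
  have h1 : rmul (matabd d 0 1) γ = γ' • matabd d 0 1 := by
    have h10 : γ.1 1 0 = (N : ℤ) * c := hc
    apply Subtype.ext
    change !![((d : ℕ) : ℤ), 0; 0, ((1 : ℕ) : ℤ)] * γ.1
      = !![γ.1 0 0, (d : ℤ) * γ.1 0 1; (e : ℤ) * c, γ.1 1 1] * !![((d : ℕ) : ℤ), 0; 0, ((1 : ℕ) : ℤ)]
    conv_lhs => rw [Matrix.eta_fin_two γ.1]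
    rw [Matrix.mul_fin_two, Matrix.mul_fin_two, h10, he]
    push_cast
    ext i j
    fin_cases i <;> fin_cases j <;> simp [mul_comm, mul_left_comm]
  have h2 : jM hm (matabd d 0 1) = jabd d 0 1 := jM_eq_jabd hm (matabd d 0 1) (by simp [matabd])
    d 0 1 (by simp [matabd]) (by simp [matabd]) (by simp [matabd])
  rw [← h2, jM_apply_smul, h1, jM_smul]

section Exp

variable {K : Type*} [Field K] [Algebra ℚ K]

/-- The `q_N`-expansion of `j((aτ+b)/d)` where `u = exp(2πib/d)`. -/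
def expAbd (K : Type*) [Field K] [Algebra ℚ K] (M : ℕ) [NeZero M] (u : Kˣ) : LaurentSeries K :=
  ModularCurve.qExpand K M (twist u (jqK K))

theorem coeff_expAbd_self (M : ℕ) [NeZero M] (u : Kˣ) :
    (expAbd K M u).coeff (-(M : ℤ)) = ((u⁻¹ : Kˣ) : K) := by
  have h := coeff_jqK_pow_self (K := K) 1
  rw [expAbd, show (-(M : ℤ)) = (M : ℤ) * (-1) by ring, ModularCurve.qExpand_coeff_mul, coeff_twist]
  rw [pow_one] at h
  simp only [Nat.cast_one] at h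
  rw [h]
  simp

theorem coeff_expAbd_of_lt (M : ℕ) [NeZero M] (u : Kˣ) {k : ℤ} (hk : k < -(M : ℤ)) :
    (expAbd K M u).coeff k = 0 := by
  have hM : 0 < M := Nat.pos_of_ne_zero (NeZero.ne M)
  by_cases hdvd : (M : ℤ) ∣ k
  · obtain ⟨m, rfl⟩ := hdvd
    have hm : m < -1 := by
      by_contra hm
      push Not at hm
      have : (M : ℤ) * (-1) ≤ (M : ℤ) * m := mul_le_mul_of_nonneg_left hm (by positivity)
      omega
    rw [expAbd, ModularCurve.qExpand_coeff_mul, coeff_twist]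
    have h := coeff_jqK_pow_of_lt (K := K) (n := 1) (m := m) (by simpa using hm)
    rw [pow_one] at h
    rw [h, mul_zero]
  · rw [expAbd, ModularCurve.qExpand_coeff_of_not_dvd M _ hdvd]

/-- the complex number `exp(2πib/d)` as a unit -/
def zetaC (b : ℤ) (d : ℕ) : ℂˣ := Units.mk0 (Complex.exp (2 * Real.pi * Complex.I * b / d))
  (Complex.exp_ne_zero _)

theorem zetaC_pow (b : ℤ) (d : ℕ) [NeZero d] : (zetaC b d : ℂ) ^ d = 1 := by
  have hd : (d : ℂ) ≠ 0 := by exact_mod_cast NeZero.ne d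
  rw [zetaC, Units.val_mk0, ← Complex.exp_nat_mul, Complex.exp_eq_one_iff]
  exact ⟨b, by field_simp⟩

omit [Algebra ℚ K] in
theorem exists_algebraMap_eq [IsAlgClosed K] [Algebra K ℂ] {z : ℂ} (hz : IsIntegral K z) :
    ∃ u : K, algebraMap K ℂ u = z := by
  have h := minpoly.mem_range_of_degree_eq_one K z
    (IsAlgClosed.degree_eq_one_of_irreducible K (minpoly.irreducible hz))
  exact h

omit [Algebra ℚ K] in
theorem exists_zetaK (K : Type*) [Field K] [IsAlgClosed K] [Algebra K ℂ] (b : ℤ) (d : ℕ)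
    [NeZero d] : ∃ u : Kˣ, Units.map (algebraMap K ℂ : K →* ℂ) u = zetaC b d := by
  have hint : IsIntegral K (zetaC b d : ℂ) := by
    refine ⟨Polynomial.X ^ d - 1, Polynomial.monic_X_pow_sub_C 1 (NeZero.ne d), ?_⟩
    simp [zetaC_pow]
  obtain ⟨u, hu⟩ := exists_algebraMap_eq hint
  have hu0 : u ≠ 0 := by
    rintro rfl
    rw [map_zero] at hu
    exact (zetaC b d).ne_zero hu.symm
  exact ⟨Units.mk0 u hu0, Units.ext hu⟩

/-- a root of unity in `K` mapping to `exp(2πib/d)`. -/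
def zetaK (K : Type*) [Field K] [IsAlgClosed K] [Algebra K ℂ] (b : ℤ) (d : ℕ) [NeZero d] : Kˣ :=
  (exists_zetaK K b d).choose

omit [Algebra ℚ K] in
theorem map_zetaK [IsAlgClosed K] [Algebra K ℂ] (b : ℤ) (d : ℕ) [NeZero d] :
    Units.map (algebraMap K ℂ : K →* ℂ) (zetaK K b d) = zetaC b d :=
  (exists_zetaK K b d).choose_spec

omit [Algebra ℚ K] in
theorem zetaK_zero [IsAlgClosed K] [Algebra K ℂ] (d : ℕ) [NeZero d] :
    zetaK K 0 d = 1 := by
  apply Units.map_injective (f := (algebraMap K ℂ : K →* ℂ)) (algebraMap K ℂ).injective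
  rw [map_zetaK, map_one]
  ext
  simp [zetaC]

theorem twist_one {R : Type*} [CommRing R] (φ : LaurentSeries R) : twist 1 φ = φ := by
  ext k
  simp

instance neZero_mul_div (a d N : ℕ) [NeZero a] [NeZero d] [NeZero N] [h : Fact (d ∣ N)] :
    NeZero (a * (N / d)) :=
  ⟨Nat.mul_ne_zero (NeZero.ne a) (Nat.div_ne_zero_iff_of_dvd h.out |>.mpr
    ⟨NeZero.ne N, NeZero.ne d⟩)⟩

theorem qc_aff (a : ℕ) (b : ℤ) (d N : ℕ) [NeZero a] [NeZero d] [NeZero N] (hd : d ∣ N) (τ : ℍ) :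
    qc 1 (aff a b d τ) = zetaC b d * qc N τ ^ (a * (N / d)) := by
  have hd0 : (d : ℂ) ≠ 0 := by exact_mod_cast NeZero.ne d
  have hN0 : (N : ℂ) ≠ 0 := by exact_mod_cast NeZero.ne N
  simp only [qc, Function.Periodic.qParam, aff, zetaC, Units.val_mk0]
  rw [← Complex.exp_nat_mul, ← Complex.exp_add]
  congr 1
  rw [Nat.cast_mul, Nat.cast_div hd hd0]
  push_cast
  field_simp
  ring

theorem toC_expAbd [IsAlgClosed K] [Algebra K ℂ] (M : ℕ) [NeZero M] (b : ℤ) (d : ℕ) [NeZero d] :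
    toC (expAbd K M (zetaK K b d)) = ModularCurve.qExpand ℂ M (twist (zetaC b d) jqC) := by
  rw [toC, expAbd, ModularCurve.coeffMap_qExpand, coeffMap_twist]
  change ModularCurve.qExpand ℂ M (twist (Units.map (algebraMap K ℂ : K →* ℂ) (zetaK K b d))
    (toC (jqK K))) = _
  rw [map_zetaK, toC_jqK]

theorem hasExp_jabd [IsAlgClosed K] [Algebra K ℂ] (a : ℕ) (b : ℤ) (d N : ℕ) [NeZero a] [NeZero d]
    [NeZero N] [hd : Fact (d ∣ N)] :
    HasExp (qc N) (jabd a b d) (toC (expAbd K (a * (N / d)) (zetaK K b d))) := by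
  rw [toC_expAbd]
  have h1 : HasExp (fun τ => qc N τ ^ (a * (N / d))) (fun τ => jf (aff a b d τ))
      (twist (zetaC b d) jqC) :=
    hasExp_jf.twist (zetaC b d) (qc_aff a b d N hd.out)
  exact h1.expand (t' := qc N) (σ := fun τ => τ) (a * (N / d)) (fun τ => rfl)

end Exp

theorem toC_injective {K : Type*} [Field K] [Algebra K ℂ] :
    Function.Injective (toC (K := K)) := by
  intro x y h
  ext k
  have := congrArg (fun z : LaurentSeries ℂ => z.coeff k) h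
  exact (algebraMap K ℂ).injective this

/-- The stabiliser of `j(Nτ)` is `Γ₀(N)`. -/
theorem mem_Gamma0_of_jabd {N : ℕ} [NeZero N] {γ : SL(2, ℤ)}
    (h : ∀ τ, jabd N 0 1 (γ • τ) = jabd N 0 1 τ) : γ ∈ CongruenceSubgroup.Gamma0 N := by
  obtain ⟨a', b', d', ha', hd', γ', h1, h2, h3, h4⟩ := jabd_apply_smul N 0 1 γ
  rw [mul_one] at h1
  have hd1 : Fact (1 ∣ N) := ⟨one_dvd N⟩
  have hd2 : Fact (d' ∣ N) := ⟨⟨a', by rw [← h1, mul_comm]⟩⟩
  have e1 := hasExp_jabd (K := ℂ) N 0 1 N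
  have e2 := hasExp_jabd (K := ℂ) a' (b' : ℤ) d' N
  have e3 : HasExp (qc N) (jabd N 0 1) (toC (expAbd ℂ (a' * (N / d')) (zetaK ℂ (b' : ℤ) d'))) :=
    e2.congr fun τ => by rw [← h4 τ, h τ]
  have e4 := toC_injective (e1.unique (eventually_mem_range_qc N) e3)
  have hdN : N / d' = a' := by
    rw [← h1]
    exact Nat.mul_div_cancel _ (Nat.pos_of_ne_zero hd'.out)
  have hMM : N * (N / 1) = a' * (N / d') := by
    rcases lt_trichotomy (N * (N / 1)) (a' * (N / d')) with hlt | heq | hgt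
    · exfalso
      have c1 := coeff_expAbd_of_lt (K := ℂ) (N * (N / 1)) (zetaK ℂ 0 1)
        (k := -((a' * (N / d') : ℕ) : ℤ)) (by omega)
      rw [e4, coeff_expAbd_self] at c1
      exact Units.ne_zero _ c1
    · exact heq
    · exfalso
      have c1 := coeff_expAbd_of_lt (K := ℂ) (a' * (N / d')) (zetaK ℂ (b' : ℤ) d')
        (k := -((N * (N / 1) : ℕ) : ℤ)) (by omega)
      rw [← e4, coeff_expAbd_self] at c1
      exact Units.ne_zero _ c1
  rw [hdN, Nat.div_one] at hMM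
  have ha : a' = N := (Nat.mul_self_inj.mp hMM).symm
  subst ha
  have hd : d' = 1 := by
    have := Nat.pos_of_ne_zero (NeZero.ne a')
    exact Nat.eq_of_mul_eq_mul_left this (by rw [h1, mul_one])
  subst hd
  have hb : b' = 0 := by omega
  subst hb
  rw [CongruenceSubgroup.Gamma0_mem, ZMod.intCast_zmod_eq_zero_iff_dvd]
  -- `γ' * diag * γ = diag`
  have hdet := γ'.2
  rw [Matrix.det_fin_two] at hdet
  rw [Matrix.eta_fin_two γ'.1, Matrix.eta_fin_two γ.1, Matrix.mul_fin_two, Matrix.mul_fin_two] at h3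
  have h00 := congrFun (congrFun h3 0) 0
  have h10 := congrFun (congrFun h3 1) 0
  simp at h00 h10
  refine ⟨-γ'.1 1 0 , ?_⟩
  have e : γ.1 1 0 = (a' : ℤ) * (-γ'.1 1 0) := by
    linear_combination (-γ'.1 1 0) * h00 + (γ'.1 0 0) * h10 - (γ.1 1 0) * hdet
  exact e

end FermatJ
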