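import Mathlib
import Fermat.Agent.J.Mat

/-!
# The field of modular functions of level `N` over `K`
-/

set_option autoImplicit false

noncomputable section

open Filter Topology UpperHalfPlane ModularForm EisensteinSeries MatrixGroups Matrix
open scoped Manifold ComplexConjugate

namespace FermatJ

/-- The generating functions `j((aτ+b)/d)`, `ad ∣ N`, `0 ≤ b < d`. -/
def gens (N : ℕ) : Set (ℍ → ℂ) :=
  {f | ∃ (a b d : ℕ) (_ : NeZero a) (_ : NeZero d), a * d ∣ N ∧ b < d ∧ f = jabd a (b : ℤ) d}

theorem gens_finite (N : ℕ) [NeZero N] : (gens N).Finite := by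
  have hN := Nat.pos_of_ne_zero (NeZero.ne N)
  have : gens N ⊆ (fun x : ℕ × ℕ × ℕ => if h : x.1 ≠ 0 ∧ x.2.2 ≠ 0 then
      @jabd x.1 (x.2.1 : ℤ) x.2.2 ⟨h.1⟩ ⟨h.2⟩ else 0) ''
      ((Finset.range (N + 1) ×ˢ Finset.range (N + 1) ×ˢ Finset.range (N + 1) :
        Finset (ℕ × ℕ × ℕ)) : Set (ℕ × ℕ × ℕ)) := by
    rintro f ⟨a, b, d, ha, hd, h1, h2, rfl⟩
    refine ⟨(a, b, d), ?_, ?_⟩
    · have h3 : a ≤ N := Nat.le_of_dvd hN ((Dvd.intro _ rfl).trans h1)
      have h4 : d ≤ N := Nat.le_of_dvd hN ((Dvd.intro_left _ rfl).trans h1)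
      simp only [Finset.coe_product, Set.mem_prod, Finset.coe_range, Set.mem_Iio]
      omega
    · exact dif_pos (⟨ha.out, hd.out⟩ : a ≠ 0 ∧ d ≠ 0)
  exact Set.Finite.subset (Set.Finite.image _ (Finset.finite_toSet _)) this

theorem mdifferentiable_jabd (a : ℕ) (b : ℤ) (d : ℕ) [NeZero a] [NeZero d] :
    MDiff (jabd a b d) := by
  have h1 := mdifferentiable_jf
  rw [UpperHalfPlane.mdifferentiable_iff] at *
  have hd : (d : ℂ) ≠ 0 := by exact_mod_cast NeZero.ne d
  have h2 : DifferentiableOn ℂ (fun z : ℂ => ((a : ℂ) * z + b) / d) upperHalfPlaneSet := by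
    fun_prop
  have h3 : Set.MapsTo (fun z : ℂ => ((a : ℂ) * z + b) / d) upperHalfPlaneSet upperHalfPlaneSet :=
    fun z hz => im_aff_pos a b d ⟨z, hz⟩
  refine (h1.comp h2 h3).congr fun z hz => ?_
  simp only [Function.comp_apply, jabd]
  congr 1
  ext
  rw [ofComplex_apply_of_im_pos hz, ofComplex_apply_of_im_pos (h3 hz)]
  rfl

variable (K : Type*) [Field K] [IsAlgClosed K] [Algebra ℚ K] [Algebra K ℂ] (N : ℕ) [NeZero N]

/-- The ring of functions generated by the `j((aτ+b)/d)` over `K`. -/
def holo : Subalgebra K (ℍ → ℂ) := Algebra.adjoin K (gens N)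

variable {K N}

omit [IsAlgClosed K] [Algebra ℚ K] [NeZero N] in
theorem mdiff_of_mem {f : ℍ → ℂ} (hf : f ∈ holo K N) : MDiff f := by
  induction hf using Algebra.adjoin_induction with
  | mem f hf =>
    obtain ⟨a, b, d, ha, hd, h1, h2, rfl⟩ := hf
    exact mdifferentiable_jabd _ _ _
  | algebraMap c => exact mdifferentiable_const
  | add f g _ _ hf hg => exact hf.add hg
  | mul f g _ _ hf hg =>
    rw [UpperHalfPlane.mdifferentiable_iff] at *
    exact hf.mul hg

theorem exists_hasExp {f : ℍ → ℂ} (hf : f ∈ holo K N) :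
    ∃ φ : LaurentSeries K, HasExp (qc N) f (toC φ) := by
  induction hf using Algebra.adjoin_induction with
  | mem f hf =>
    obtain ⟨a, b, d, ha, hd, h1, h2, rfl⟩ := hf
    have : Fact (d ∣ N) := ⟨(Dvd.intro_left _ rfl).trans h1⟩
    exact ⟨_, hasExp_jabd a b d N⟩
  | algebraMap c =>
    refine ⟨HahnSeries.C c, ?_⟩
    have : toC (HahnSeries.C c) = HahnSeries.C (algebraMap K ℂ c) :=
      ModularCurve.coeffMap_single _ _ _
    rw [this]
    exact HasExp.const _ _
  | add f g _ _ hf hg =>
    obtain ⟨φ, hφ⟩ := hf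
    obtain ⟨ψ, hψ⟩ := hg
    exact ⟨φ + ψ, by rw [toC, map_add]; exact hφ.add hψ⟩
  | mul f g _ _ hf hg =>
    obtain ⟨φ, hφ⟩ := hf
    obtain ⟨ψ, hψ⟩ := hg
    exact ⟨φ * ψ, by rw [toC, map_mul]; exact hφ.mul hψ⟩

omit [IsAlgClosed K] [Algebra ℚ K] [NeZero N] in
theorem smul_mem_holo {f : ℍ → ℂ} (hf : f ∈ holo K N) (γ : SL(2, ℤ)) :
    (fun τ => f (γ • τ)) ∈ holo K N := by
  induction hf using Algebra.adjoin_induction with
  | mem f hf =>
    obtain ⟨a, b, d, ha, hd, h1, h2, rfl⟩ := hf
    obtain ⟨a', b', d', ha', hd', γ', h1', h2', h3', h4'⟩ := jabd_apply_smul a (b : ℤ) d γ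
    apply Algebra.subset_adjoin
    exact ⟨a', b', d', ha', hd', by rw [h1']; exact h1, h2', funext h4'⟩
  | algebraMap c => exact Subalgebra.algebraMap_mem _ c
  | add f g _ _ hf hg => exact Subalgebra.add_mem _ hf hg
  | mul f g _ _ hf hg => exact Subalgebra.mul_mem _ hf hg

/-- The expansion at infinity. -/
def expInf : holo K N →ₐ[K] LaurentSeries K where
  toFun f := (exists_hasExp f.2).choose
  map_one' := by
    apply toC_injective
    refine (exists_hasExp (1 : holo K N).2).choose_spec.unique (eventually_mem_range_qc N) ?_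
    rw [toC, map_one]
    exact HasExp.one _
  map_zero' := by
    apply toC_injective
    refine (exists_hasExp (0 : holo K N).2).choose_spec.unique (eventually_mem_range_qc N) ?_
    rw [toC, map_zero]
    exact HasExp.zero _
  map_add' f g := by
    apply toC_injective
    refine (exists_hasExp (f + g).2).choose_spec.unique (eventually_mem_range_qc N) ?_
    rw [toC, map_add]
    exact (exists_hasExp f.2).choose_spec.add (exists_hasExp g.2).choose_spec
  map_mul' f g := by
    apply toC_injective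
    refine (exists_hasExp (f * g).2).choose_spec.unique (eventually_mem_range_qc N) ?_
    rw [toC, map_mul]
    exact (exists_hasExp f.2).choose_spec.mul (exists_hasExp g.2).choose_spec
  commutes' c := by
    apply toC_injective
    refine (exists_hasExp (algebraMap K (holo K N) c).2).choose_spec.unique
      (eventually_mem_range_qc N) ?_
    have : toC (algebraMap K (LaurentSeries K) c) = HahnSeries.C (algebraMap K ℂ c) := by
      rw [ModularCurve.algebraMap_laurentSeries_eq_single]
      exact ModularCurve.coeffMap_single _ _ _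
    rw [this]
    exact HasExp.const _ _

theorem hasExp_expInf (f : holo K N) : HasExp (qc N) f.1 (toC (expInf f)) :=
  (exists_hasExp f.2).choose_spec

theorem expInf_eq {f : holo K N} {φ : LaurentSeries K} (h : HasExp (qc N) f.1 (toC φ)) :
    expInf f = φ :=
  toC_injective ((hasExp_expInf f).unique (eventually_mem_range_qc N) h)

theorem expInf_injective : Function.Injective (expInf (K := K) (N := N)) := by
  rw [injective_iff_map_eq_zero]
  intro f hf
  have h := hasExp_expInf f
  rw [hf, toC, map_zero] at h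
  ext τ
  exact h.eq_zero_of_zero (qc_ne_zero N τ)

instance : IsDomain (holo K N) := expInf_injective.isDomain (expInf (K := K) (N := N)).toRingHom

variable (K N) in
/-- The field of modular functions of level `N` over `K`. -/
abbrev FunN : Type _ := FractionRing (holo K N)

/-- Action of `SL(2, ℤ)` on the ring of functions. -/
def actHolo (γ : SL(2, ℤ)) : holo K N ≃ₐ[K] holo K N where
  toFun f := ⟨fun τ => f.1 (γ⁻¹ • τ), smul_mem_holo f.2 γ⁻¹⟩
  invFun f := ⟨fun τ => f.1 (γ • τ), smul_mem_holo f.2 γ⟩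
  left_inv f := by
    ext τ
    simp
  right_inv f := by
    ext τ
    simp
  map_mul' f g := rfl
  map_add' f g := rfl
  commutes' c := rfl

omit [IsAlgClosed K] [Algebra ℚ K] [NeZero N] in
theorem actHolo_apply (γ : SL(2, ℤ)) (f : holo K N) (τ : ℍ) :
    (actHolo γ f).1 τ = f.1 (γ⁻¹ • τ) := rfl

variable (K N) in
/-- Action of `SL(2, ℤ)` on the ring of functions. -/
def actHoloHom : SL(2, ℤ) →* (holo K N ≃ₐ[K] holo K N) where
  toFun := actHolo
  map_one' := by
    ext f τ
    simp [actHolo_apply]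
  map_mul' γ γ' := by
    ext f τ
    rw [AlgEquiv.mul_apply, actHolo_apply, actHolo_apply, actHolo_apply, _root_.mul_inv_rev,
      mul_smul]

variable (K N) in
/-- Action of `SL(2, ℤ)` on the field of modular functions of level `N`. -/
def actN : SL(2, ℤ) →* (FunN K N ≃ₐ[K] FunN K N) :=
  (IsFractionRing.fieldEquivOfAlgEquivHom (A := K) (B := holo K N) K (FunN K N)).comp
    (actHoloHom K N)

theorem actN_algebraMap (γ : SL(2, ℤ)) (f : holo K N) :
    actN K N γ (algebraMap (holo K N) (FunN K N) f)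
      = algebraMap (holo K N) (FunN K N) (actHolo γ f) := by
  simp only [actN, MonoidHom.comp_apply, IsFractionRing.fieldEquivOfAlgEquivHom_apply]
  exact IsFractionRing.fieldEquivOfAlgEquiv_algebraMap K (FunN K N) (FunN K N) _ f

end FermatJ
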