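import Mathlib
import Fermat.Agent.J.Field

/-!
# The fixed field of `SL(2, ℤ)` is `K(j)`
-/

set_option autoImplicit false

noncomputable section

open Filter Topology UpperHalfPlane ModularForm EisensteinSeries MatrixGroups Matrix
open scoped Manifold ComplexConjugate IntermediateField

namespace FermatJ

section Expand

variable {ι : Type*} {t f : ι → ℂ}

theorem HasPS.of_expand {P : PowerSeries ℂ} (M : ℕ) [NeZero M]
    (h : HasPS t f (expandPS M P)) : HasPS (fun x => t x ^ M) f P := by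
  have hM : 0 < M := Nat.pos_of_ne_zero (NeZero.ne M)
  intro x
  have h1 := h x
  have hinj : Function.Injective (fun n : ℕ => M * n) := fun a b hab =>
    Nat.eq_of_mul_eq_mul_left hM hab
  rw [← hinj.hasSum_iff] at h1
  · convert! h1 using 1
    funext n
    simp only [Function.comp_apply, expandPS, PowerSeries.coeff_mk]
    rw [if_pos (Dvd.intro n rfl), Nat.mul_div_cancel_left n hM, pow_mul]
  · intro n hn
    rw [expandPS, PowerSeries.coeff_mk, if_neg, zero_mul]
    rintro ⟨c, rfl⟩
    exact hn ⟨c, rfl⟩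

theorem exists_single_mul_ofPowerSeries {R : Type*} [Field R] (φ : LaurentSeries R) :
    ∃ (m : ℕ) (P : PowerSeries R),
      φ = HahnSeries.single (-(m : ℤ)) 1 * HahnSeries.ofPowerSeries ℤ R P := by
  refine ⟨(-φ.order).toNat, PowerSeries.mk fun n => φ.coeff (n - (-φ.order).toNat), ?_⟩
  ext k
  rw [show k = (k + ((-φ.order).toNat : ℤ)) + (-((-φ.order).toNat : ℤ)) by ring,
    HahnSeries.coeff_single_mul_add, one_mul]
  rcases lt_or_ge (k + ((-φ.order).toNat : ℤ)) 0 with hk | hk
  · rw [ModularCurve.ofPowerSeries_coeff_of_neg _ hk]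
    apply HahnSeries.coeff_eq_zero_of_lt_order
    omega
  · obtain ⟨n, hn⟩ := Int.eq_ofNat_of_zero_le hk
    rw [hn, HahnSeries.ofPowerSeries_apply_coeff, PowerSeries.coeff_mk]
    congr 1

theorem HasExp.of_qExpand {φ : LaurentSeries ℂ} (M : ℕ) [NeZero M] (ht : ∀ x, t x ≠ 0)
    (h : HasExp t f (ModularCurve.qExpand ℂ M φ)) : HasExp (fun x => t x ^ M) f φ := by
  obtain ⟨m, P, hP⟩ := exists_single_mul_ofPowerSeries φ
  refine ⟨m, P, hP, ?_⟩
  have h1 : HasExp t (fun x => t x ^ (M * m) * f x)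
      (HahnSeries.ofPowerSeries ℤ ℂ (expandPS M P)) := by
    have h2 := ((HasExp.coord t).pow (M * m)).mul h
    rw [hP, map_mul, qExpand_ofPowerSeries, ModularCurve.qExpand_single, HahnSeries.single_pow,
      ← mul_assoc, HahnSeries.single_mul_single] at h2
    convert! h2 using 1
    simp
  have h3 := (h1.hasPS ht).of_expand M
  refine h3.congr fun x => ?_
  rw [pow_mul]

end Expand

theorem zetaC_zpow (b : ℤ) (d : ℕ) [NeZero d] (k : ℤ) :
    zetaC b d ^ k = 1 ↔ (d : ℤ) ∣ b * k := by
  have hd : (d : ℂ) ≠ 0 := by exact_mod_cast NeZero.ne d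
  rw [Units.ext_iff, Units.val_zpow_eq_zpow_val, zetaC, Units.val_mk0, ← Complex.exp_int_mul,
    Units.val_one, Complex.exp_eq_one_iff]
  constructor
  · rintro ⟨n, hn⟩
    refine ⟨n, ?_⟩
    have h1 : (b : ℂ) * k = d * n := by
      have h2 := Complex.two_pi_I_ne_zero
      field_simp at hn
      linear_combination hn
    exact_mod_cast h1
  · rintro ⟨n, hn⟩
    refine ⟨n, ?_⟩
    have h1 : (b : ℂ) * k = d * n := by exact_mod_cast hn
    field_simp
    linear_combination h1

theorem qc_T (N : ℕ) [NeZero N] (τ : ℍ) :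
    qc N (ModularGroup.T • τ) = zetaC 1 N * qc N τ := by
  have hN0 : (N : ℂ) ≠ 0 := by exact_mod_cast NeZero.ne N
  simp only [qc, Function.Periodic.qParam, zetaC, Units.val_mk0]
  rw [modular_T_smul, ← Complex.exp_add]
  congr 1
  rw [coe_vadd]
  push_cast
  field_simp

theorem HasExp.T_smul {N : ℕ} [NeZero N] {f : ℍ → ℂ} {φ : LaurentSeries ℂ}
    (h : HasExp (qc N) f φ) :
    HasExp (qc N) (fun τ => f (ModularGroup.T • τ)) (FermatJ.twist (zetaC 1 N) φ) :=
  h.twist (σ := fun τ => ModularGroup.T • τ) (zetaC 1 N) (qc_T N)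

/-- A Laurent series whose support is contained in the multiples of `N`. -/
theorem exists_qExpand_eq {R : Type*} [CommRing R] (N : ℕ) [NeZero N] {φ : LaurentSeries R}
    (h : ∀ k : ℤ, ¬ (N : ℤ) ∣ k → φ.coeff k = 0) :
    ∃ ψ : LaurentSeries R, φ = ModularCurve.qExpand R N ψ := by
  have hN : 0 < N := Nat.pos_of_ne_zero (NeZero.ne N)
  have hbdd : BddBelow (Function.support fun k : ℤ => φ.coeff (N * k)) := by
    refine ⟨min φ.order 0, ?_⟩
    intro k hk
    by_contra hlt
    push Not at hlt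
    apply hk
    apply HahnSeries.coeff_eq_zero_of_lt_order
    have h1 : (N : ℤ) * k ≤ 1 * k :=
      mul_le_mul_of_nonpos_right (by exact_mod_cast hN) (by omega)
    omega
  refine ⟨HahnSeries.ofSuppBddBelow _ hbdd, ?_⟩
  ext k
  by_cases hk : (N : ℤ) ∣ k
  · obtain ⟨m, rfl⟩ := hk
    rw [ModularCurve.qExpand_coeff_mul]
    rfl
  · rw [ModularCurve.qExpand_coeff_of_not_dvd N _ hk, h k hk]

variable {K : Type*} [Field K] [IsAlgClosed K] [Algebra ℚ K] [Algebra K ℂ] {N : ℕ} [NeZero N]

omit [IsAlgClosed K] [Algebra ℚ K] in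
/-- Invariance under `T` means that the expansion is in `q`. -/
theorem exists_hasExp_one {f : ℍ → ℂ} {φ : LaurentSeries K} (h : HasExp (qc N) f (toC φ))
    (hT : ∀ τ, f (ModularGroup.T • τ) = f τ) :
    ∃ ψ : LaurentSeries K, φ = ModularCurve.qExpand K N ψ ∧ HasExp (qc 1) f (toC ψ) := by
  have h1 : FermatJ.twist (zetaC 1 N) (toC φ) = toC φ :=
    (h.T_smul.congr hT).unique (eventually_mem_range_qc N) h
  have h2 : ∀ k : ℤ, ¬ (N : ℤ) ∣ k → φ.coeff k = 0 := by
    intro k hk
    have h3 := congrArg (fun z : LaurentSeries ℂ => z.coeff k) h1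
    simp only [coeff_twist, ModularCurve.coeffMap_coeff] at h3
    by_contra hne
    have h4 : algebraMap K ℂ (φ.coeff k) ≠ 0 := by
      rw [ne_eq, map_eq_zero_iff _ (algebraMap K ℂ).injective]
      exact hne
    have h5 : ((zetaC 1 N ^ k : ℂˣ) : ℂ) = 1 := by
      apply mul_right_cancel₀ h4
      rw [one_mul]
      exact h3
    have h6 := (zetaC_zpow 1 N k).mp (Units.ext h5)
    rw [one_mul] at h6
    exact hk h6
  obtain ⟨ψ, hψ⟩ := exists_qExpand_eq N h2
  refine ⟨ψ, hψ, ?_⟩
  rw [hψ, toC, ModularCurve.coeffMap_qExpand] at h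
  have h3 := h.of_qExpand N (qc_ne_zero N)
  have h4 : (fun τ => qc N τ ^ N) = qc 1 := by
    funext τ
    have hN0 : (N : ℂ) ≠ 0 := by exact_mod_cast NeZero.ne N
    simp only [qc, Function.Periodic.qParam]
    rw [← Complex.exp_nat_mul]
    congr 1
    push_cast
    field_simp
  rw [h4] at h3
  exact h3

theorem jabd_one : jabd 1 0 1 = jf := by
  funext τ
  rw [jabd]
  congr 1
  ext
  simp [aff]

variable (K N) in
/-- `j(aτ+b/d)` in the ring of functions -/
def jH (a b d : ℕ) [NeZero a] [NeZero d] (h : a * d ∣ N) (hb : b < d) : holo K N :=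
  ⟨jabd a (b : ℤ) d, Algebra.subset_adjoin ⟨a, b, d, ‹_›, ‹_›, h, hb, rfl⟩⟩

variable (K N) in
/-- `j(dτ)` in the ring of functions -/
def jD (d : ℕ) [NeZero d] (h : d ∣ N) : holo K N :=
  jH K N d 0 1 (by rwa [mul_one]) one_pos

variable (K N) in
/-- `j` in the ring of functions -/
def jOne : holo K N := jD K N 1 (one_dvd N)

omit [IsAlgClosed K] [Algebra ℚ K] [NeZero N] in
theorem jOne_val : (jOne K N).1 = jf := by
  show jabd 1 ((0 : ℕ) : ℤ) 1 = jf
  rw [Nat.cast_zero, jabd_one]

variable (K N) in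
/-- `j` in the field of functions -/
def xj : FunN K N := algebraMap (holo K N) (FunN K N) (jOne K N)

omit [IsAlgClosed K] [Algebra ℚ K] [NeZero N] in
theorem actHolo_jOne (γ : SL(2, ℤ)) : actHolo γ (jOne K N) = jOne K N := by
  ext τ
  rw [actHolo_apply, jOne_val, jf_smul]

theorem exists_poly_of_invariant {f : holo K N} (hf : ∀ γ : SL(2, ℤ), actHolo γ f = f) :
    ∃ P : Polynomial K, f = Polynomial.aeval (jOne K N) P := by
  have hinv : ∀ (γ : SL(2, ℤ)) (τ : ℍ), f.1 (γ • τ) = f.1 τ := by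
    intro γ τ
    have h := congrFun (congrArg Subtype.val (hf γ⁻¹)) τ
    rw [actHolo_apply, inv_inv] at h
    exact h
  obtain ⟨φ, hφ⟩ := exists_hasExp f.2
  obtain ⟨ψ, -, hψ⟩ := exists_hasExp_one hφ (hinv ModularGroup.T)
  obtain ⟨P, hP⟩ := exists_polynomial (mdiff_of_mem f.2) hinv hψ
  refine ⟨P, ?_⟩
  ext τ
  rw [hP τ]
  have h1 : ((Polynomial.aeval (jOne K N) P : holo K N) : ℍ → ℂ) τ
      = Polynomial.aeval ((jOne K N).1 τ) P := by
    have h2 : ((Pi.evalAlgHom K (fun _ : ℍ => ℂ) τ).comp (holo K N).val) (jOne K N)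
        = (jOne K N).1 τ := rfl
    rw [← h2, Polynomial.aeval_algHom_apply]
    rfl
  rw [h1, jOne_val]

section Finite

omit [IsAlgClosed K] [Algebra ℚ K] in
theorem finite_range_actHoloHom : Finite (actHoloHom K N).range := by
  classical
  have hfin := (gens_finite N).to_subtype
  -- the restriction to generators
  have hmem : ∀ (γ : SL(2, ℤ)) (g : gens N), (fun τ => g.1 (γ⁻¹ • τ)) ∈ gens N := by
    rintro γ ⟨f, a, b, d, ha, hd, h1, h2, rfl⟩
    obtain ⟨a', b', d', ha', hd', γ', h1', h2', h3', h4'⟩ := jabd_apply_smul a (b : ℤ) d γ⁻¹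
    exact ⟨a', b', d', ha', hd', by rw [h1']; exact h1, h2', funext h4'⟩
  let Φ : (actHoloHom K N).range → (gens N → (ℍ → ℂ)) := fun σ g =>
    (σ.1 ⟨g.1, Algebra.subset_adjoin g.2⟩).1
  have hΦ : Function.Injective Φ := by
    rintro ⟨σ, hσ⟩ ⟨σ', hσ'⟩ h
    apply Subtype.ext
    apply AlgEquiv.ext
    rintro ⟨f, hf⟩
    have h1 : ∀ g : gens N, σ ⟨g.1, Algebra.subset_adjoin g.2⟩
        = σ' ⟨g.1, Algebra.subset_adjoin g.2⟩ := fun g => Subtype.ext (congrFun h g)
    have h2 : (σ : holo K N →ₐ[K] holo K N) = σ' :=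
      AlgHom.adjoin_ext fun f hf => h1 ⟨f, hf⟩
    exact DFunLike.congr_fun h2 ⟨f, hf⟩
  have hrange : Set.range Φ ⊆ Set.pi Set.univ (fun _ : gens N => gens N) := by
    rintro _ ⟨⟨_, γ, rfl⟩, rfl⟩
    intro g _
    exact hmem γ g
  have h3 : (Set.range Φ).Finite := (Set.Finite.pi' fun _ => gens_finite N).subset (by
    intro x hx
    exact fun i => hrange hx i (Set.mem_univ i))
  have := h3.to_subtype
  exact Finite.of_injective_finite_range hΦ

omit [IsAlgClosed K] [Algebra ℚ K] [Algebra K ℂ] in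
theorem prod_invariant {A : Type*} [CommRing A] [Algebra K A] (G : Subgroup (A ≃ₐ[K] A))
    [Fintype G] (σ : A ≃ₐ[K] A) (hσ : σ ∈ G) (b : A) :
    σ (∏ τ : G, τ.1 b) = ∏ τ : G, τ.1 b := by
  rw [map_prod]
  exact Fintype.prod_equiv (Equiv.mulLeft (⟨σ, hσ⟩ : G)) _ _ fun τ => rfl

end Finite

theorem finite_range_actN : Finite (actN K N).range := by
  have h := finite_range_actHoloHom (K := K) (N := N)
  have : (actN K N).range = (actHoloHom K N).range.map
      (IsFractionRing.fieldEquivOfAlgEquivHom (A := K) (B := holo K N) K (FunN K N)) := by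
    rw [MonoidHom.map_range]
    rfl
  rw [this]
  have h2 : ((actHoloHom K N).range : Set (holo K N ≃ₐ[K] holo K N)).Finite := Set.toFinite _
  exact (h2.image _).to_subtype

theorem actN_xj (γ : SL(2, ℤ)) : actN K N γ (xj K N) = xj K N := by
  rw [xj, actN_algebraMap, actHolo_jOne]

omit [IsAlgClosed K] [Algebra ℚ K] [NeZero N] in
theorem aeval_jOne (P : Polynomial K) :
    algebraMap (holo K N) (FunN K N) (Polynomial.aeval (jOne K N) P)
      = Polynomial.aeval (xj K N) P := by
  rw [xj, Polynomial.aeval_algebraMap_apply]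

omit [IsAlgClosed K] [Algebra ℚ K] [Algebra K ℂ] in
theorem eq_of_mem_adjoin_of_fixed {L : Type*} [Field L] [Algebra K L] (σ : L ≃ₐ[K] L) {x l : L}
    (hx : σ x = x) (hl : l ∈ K⟮x⟯) : σ l = l := by
  have h1 : K⟮x⟯ ≤ IntermediateField.fixedField (Subgroup.zpowers σ) := by
    rw [IntermediateField.adjoin_simple_le_iff, IntermediateField.mem_fixedField_iff]
    intro τ hτ
    have h2 : Subgroup.zpowers σ ≤ MulAction.stabilizer (L ≃ₐ[K] L) x := by
      rw [Subgroup.zpowers_le]
      exact hx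
    exact h2 hτ
  have h2 := h1 hl
  rw [IntermediateField.mem_fixedField_iff] at h2
  exact h2 _ (Subgroup.mem_zpowers _)

omit [IsAlgClosed K] [Algebra ℚ K] [Algebra K ℂ] in
theorem aeval_div_mem {L : Type*} [Field L] [Algebra K L] (x : L) (P Q : Polynomial K) :
    Polynomial.aeval x P / Polynomial.aeval x Q ∈ K⟮x⟯ :=
  IntermediateField.div_mem _
    (IntermediateField.algebra_adjoin_le_adjoin K _ (Polynomial.aeval_mem_adjoin_singleton K _))
    (IntermediateField.algebra_adjoin_le_adjoin K _ (Polynomial.aeval_mem_adjoin_singleton K _))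

/-- The fixed field of `SL(2, ℤ)` is `K(j)`. -/
theorem fixed_iff (l : FunN K N) : (∀ γ : SL(2, ℤ), actN K N γ l = l) ↔ l ∈ K⟮xj K N⟯ := by
  classical
  constructor
  · intro hl
    obtain ⟨a, b, hb, rfl⟩ := IsFractionRing.div_surjective (A := holo K N) l
    have hfin := finite_range_actHoloHom (K := K) (N := N)
    have := Fintype.ofFinite (actHoloHom K N).range
    set B : holo K N := ∏ σ : (actHoloHom K N).range, σ.1 b with hB
    have hb0 : b ≠ 0 := nonZeroDivisors.ne_zero hb
    have hB0 : B ≠ 0 := by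
      rw [hB, Finset.prod_ne_zero_iff]
      intro σ _ h
      exact hb0 (by simpa using h)
    have hBinv : ∀ γ : SL(2, ℤ), actHolo γ B = B := fun γ =>
      prod_invariant (actHoloHom K N).range (actHolo γ) ⟨γ, rfl⟩ b
    obtain ⟨c, hc⟩ : b ∣ B := by
      have h1 := Finset.dvd_prod_of_mem (fun σ : (actHoloHom K N).range => σ.1 b)
        (Finset.mem_univ (1 : (actHoloHom K N).range))
      exact h1
    have hac : algebraMap (holo K N) (FunN K N) (a * c)
        = (algebraMap _ (FunN K N) a / algebraMap _ (FunN K N) b) * algebraMap _ (FunN K N) B := by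
      rw [hc, map_mul, map_mul]
      have : algebraMap (holo K N) (FunN K N) b ≠ 0 := by
        rw [ne_eq, IsFractionRing.to_map_eq_zero_iff]
        exact hb0
      field_simp
    have hinv : ∀ γ : SL(2, ℤ), actHolo γ (a * c) = a * c := by
      intro γ
      apply IsFractionRing.injective (holo K N) (FunN K N)
      rw [← actN_algebraMap, hac, map_mul, hl γ, actN_algebraMap, hBinv γ]
    obtain ⟨P, hP⟩ := exists_poly_of_invariant hinv
    obtain ⟨Q, hQ⟩ := exists_poly_of_invariant hBinv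
    have hB0' : algebraMap (holo K N) (FunN K N) B ≠ 0 := by
      rw [ne_eq, IsFractionRing.to_map_eq_zero_iff]
      exact hB0
    have h3 : algebraMap _ (FunN K N) a / algebraMap _ (FunN K N) b
        = Polynomial.aeval (xj K N) P / Polynomial.aeval (xj K N) Q := by
      rw [← aeval_jOne, ← aeval_jOne, ← hP, ← hQ, hac]
      field_simp
    rw [h3]
    exact aeval_div_mem _ _ _
  · intro hl γ
    exact eq_of_mem_adjoin_of_fixed _ (actN_xj γ) hl

variable (K N) in
/-- The embedding of the function field in Laurent series. -/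
def lamInf : FunN K N →ₐ[K] LaurentSeries K :=
  IsFractionRing.liftAlgHom (g := expInf (K := K) (N := N)) expInf_injective

theorem lamInf_algebraMap (f : holo K N) :
    lamInf K N (algebraMap (holo K N) (FunN K N) f) = expInf f := by
  exact IsFractionRing.lift_algebraMap expInf_injective f

theorem expInf_jD (d : ℕ) [NeZero d] (h : d ∣ N) :
    expInf (jD K N d h) = ModularCurve.qExpand K N (ModularCurve.qExpand K d (jqK K)) := by
  have : Fact (1 ∣ N) := ⟨one_dvd N⟩
  apply expInf_eq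
  have h1 := hasExp_jabd (K := K) d ((0 : ℕ) : ℤ) 1 N
  have h2 : expAbd K (d * (N / 1)) (zetaK K ((0 : ℕ) : ℤ) 1)
      = ModularCurve.qExpand K N (ModularCurve.qExpand K d (jqK K)) := by
    rw [expAbd, Nat.cast_zero, zetaK_zero, twist_one, ModularCurve.qExpand_qExpand]
    exact ModularCurve.qExpand_congr (by rw [Nat.div_one, mul_comm]) _
  rw [h2] at h1
  exact h1

theorem transcendental_xj : Transcendental K (xj K N) := by
  intro h
  obtain ⟨c, hc⟩ : xj K N ∈ (algebraMap K (FunN K N)).range :=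
    minpoly.mem_range_of_degree_eq_one K _
      (IsAlgClosed.degree_eq_one_of_irreducible K (minpoly.irreducible h.isIntegral))
  have h1 : algebraMap K (holo K N) c = jOne K N := by
    apply IsFractionRing.injective (holo K N) (FunN K N)
    rw [← IsScalarTower.algebraMap_apply, hc, xj]
  obtain ⟨τ, hτ⟩ := jf_ne_const (algebraMap K ℂ c)
  apply hτ
  rw [← jOne_val (K := K) (N := N), ← h1]
  rfl

theorem lamInf_xj : lamInf K N (xj K N) = ModularCurve.qExpand K N (jqK K) := by
  rw [xj, lamInf_algebraMap, jOne, expInf_jD, ModularCurve.qExpand_one_apply]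

end FermatJ
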