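import Mathlib
import Fermat.Agent.J.FieldGal
import Fermat.Agent.FF.Galois
import Fermat.Agent.MFF.CoeffDescent

/-!
# The fixed field of `Γ₀(N)`
-/

set_option autoImplicit false

noncomputable section

open Filter Topology UpperHalfPlane ModularForm EisensteinSeries MatrixGroups Matrix
open scoped Manifold ComplexConjugate IntermediateField

namespace FermatJ

section Abstract

variable {K E : Type*} [Field K] [Field E] [Algebra K E]

theorem mem_of_fixed_of_finite (G : Subgroup (E ≃ₐ[K] E)) [Finite G] (M : IntermediateField K E)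
    (h0 : IntermediateField.fixedField G ≤ M) {l : E}
    (hl : ∀ g ∈ G, (∀ m ∈ M, g m = m) → g l = l) : l ∈ M := by
  have hG := Fermat.FF.isGaloisGroup_fixedField G
  have h1 := IsGaloisGroup.fixedPoints_fixingSubgroup (G := G)
    (K := IntermediateField.fixedField G) (L := E) (F := IntermediateField.extendScalars h0)
  have h2 : l ∈ IntermediateField.extendScalars h0 := by
    rw [← h1]
    rintro ⟨⟨g, hg⟩, hfix⟩
    exact hl g hg fun m hm => hfix ⟨m, hm⟩
  exact h2

theorem mem_fixedField_map_iff {Γ : Type*} [Group Γ] (π : Γ →* (E ≃ₐ[K] E)) (Γ₀ : Subgroup Γ)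
    (l : E) : l ∈ IntermediateField.fixedField (Γ₀.map π) ↔ ∀ g ∈ Γ₀, π g l = l := by
  rw [IntermediateField.mem_fixedField_iff]
  constructor
  · intro h g hg
    exact h _ ⟨g, hg, rfl⟩
  · rintro h _ ⟨g, hg, rfl⟩
    exact h g hg

theorem mem_fixedField_range_iff {Γ : Type*} [Group Γ] (π : Γ →* (E ≃ₐ[K] E))
    (l : E) : l ∈ IntermediateField.fixedField π.range ↔ ∀ g, π g l = l := by
  rw [IntermediateField.mem_fixedField_iff]
  constructor
  · intro h g
    exact h _ ⟨g, rfl⟩
  · rintro h _ ⟨g, rfl⟩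
    exact h g

end Abstract

variable {K : Type*} [Field K] [IsAlgClosed K] [Algebra ℚ K] [Algebra K ℂ] {N : ℕ} [NeZero N]

variable (K N) in
/-- The fixed field of `Γ₀(N)`. -/
def F0 : IntermediateField K (FunN K N) :=
  IntermediateField.fixedField ((CongruenceSubgroup.Gamma0 N).map (actN K N))

theorem mem_F0 (l : FunN K N) : l ∈ F0 K N ↔ ∀ g ∈ CongruenceSubgroup.Gamma0 N, actN K N g l = l :=
  mem_fixedField_map_iff _ _ _

variable (K N) in
/-- The generators of `F0`. -/
def gensF0 : Set (FunN K N) :=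
  {y | ∃ (d : ℕ) (_ : NeZero d) (h : d ∣ N), y = algebraMap (holo K N) (FunN K N) (jD K N d h)}

omit [IsAlgClosed K] [Algebra ℚ K] in
theorem actHolo_jD {d : ℕ} [NeZero d] (h : d ∣ N) {γ : SL(2, ℤ)}
    (hγ : γ ∈ CongruenceSubgroup.Gamma0 N) : actHolo γ (jD K N d h) = jD K N d h := by
  ext τ
  rw [actHolo_apply]
  show jabd d ((0 : ℕ) : ℤ) 1 (γ⁻¹ • τ) = jabd d ((0 : ℕ) : ℤ) 1 τ
  rw [Nat.cast_zero]
  exact jabd_apply_smul_of_mem_Gamma0 (inv_mem hγ) h τ

theorem mem_Gamma0_of_actN {γ : SL(2, ℤ)}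
    (h : actN K N γ (algebraMap (holo K N) (FunN K N) (jD K N N dvd_rfl))
      = algebraMap (holo K N) (FunN K N) (jD K N N dvd_rfl)) :
    γ ∈ CongruenceSubgroup.Gamma0 N := by
  rw [actN_algebraMap] at h
  have h1 := IsFractionRing.injective (holo K N) (FunN K N) h
  rw [← inv_mem_iff]
  apply mem_Gamma0_of_jabd
  intro τ
  have h2 := congrFun (congrArg Subtype.val h1) τ
  rw [actHolo_apply] at h2
  have h3 : (jD K N N dvd_rfl).1 = jabd N 0 1 := by
    show jabd N ((0 : ℕ) : ℤ) 1 = jabd N 0 1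
    rw [Nat.cast_zero]
  rw [h3] at h2
  exact h2

theorem algebraMap_jD_mem_F0 {d : ℕ} [NeZero d] (h : d ∣ N) :
    algebraMap (holo K N) (FunN K N) (jD K N d h) ∈ F0 K N := by
  rw [mem_F0]
  intro g hg
  rw [actN_algebraMap, actHolo_jD h hg]

theorem xj_mem_F0 : xj K N ∈ F0 K N := algebraMap_jD_mem_F0 (one_dvd N)

theorem mem_Gamma0_of_fix {γ : SL(2, ℤ)} (h : ∀ l ∈ F0 K N, actN K N γ l = l) :
    γ ∈ CongruenceSubgroup.Gamma0 N :=
  mem_Gamma0_of_actN (h _ (algebraMap_jD_mem_F0 dvd_rfl))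

theorem F0_eq_adjoin : F0 K N = IntermediateField.adjoin K (gensF0 K N) := by
  have hle : IntermediateField.adjoin K (gensF0 K N) ≤ F0 K N := by
    rw [IntermediateField.adjoin_le_iff]
    rintro _ ⟨d, hd, h, rfl⟩
    exact algebraMap_jD_mem_F0 h
  refine le_antisymm ?_ hle
  intro l hl
  have hfin := finite_range_actN (K := K) (N := N)
  refine mem_of_fixed_of_finite (actN K N).range _ ?_ ?_
  · intro y hy
    rw [mem_fixedField_range_iff, fixed_iff] at hy
    have h1 : K⟮xj K N⟯ ≤ IntermediateField.adjoin K (gensF0 K N) := by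
      rw [IntermediateField.adjoin_simple_le_iff]
      exact IntermediateField.subset_adjoin K _ ⟨1, inferInstance, one_dvd N, rfl⟩
    exact h1 hy
  · rintro _ ⟨γ, rfl⟩ hγ
    rw [mem_F0] at hl
    apply hl
    apply mem_Gamma0_of_actN (K := K)
    exact hγ _ (IntermediateField.subset_adjoin K _ ⟨N, inferInstance, dvd_rfl, rfl⟩)

omit [IsAlgClosed K] [Algebra K ℂ] in
theorem jqK_eq : jqK K = ModularCurve.jqModC K := by
  have h := ModularCurve.coeffMap_jqModC (algebraMap ℚ K)
  rw [← h]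
  rfl

theorem map_F0 : (F0 K N).map (lamInf K N) =
    (ModularCurve.modularFunctionFieldFullC K N).map (ModularCurve.qExpandAlgHomC K N) := by
  rw [F0_eq_adjoin, ModularCurve.modularFunctionFieldFullC, IntermediateField.adjoin_map,
    IntermediateField.adjoin_map]
  congr 1
  ext y
  constructor
  · rintro ⟨_, ⟨d, hd, h, rfl⟩, rfl⟩
    refine ⟨_, ⟨d, hd, h, rfl⟩, ?_⟩
    rw [lamInf_algebraMap, expInf_jD, ← jqK_eq]
    rfl
  · rintro ⟨_, ⟨d, hd, h, rfl⟩, rfl⟩
    refine ⟨_, ⟨d, hd, h, rfl⟩, ?_⟩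
    rw [lamInf_algebraMap, expInf_jD, ← jqK_eq]
    rfl

variable (K N) in
/-- The fixed field of `Γ₀(N)` is the modular function field. -/
def F0Equiv : F0 K N ≃ₐ[K] ModularCurve.modularFunctionFieldFullC K N :=
  ((F0 K N).equivMap (lamInf K N)).trans
    ((IntermediateField.equivOfEq map_F0).trans
      ((ModularCurve.modularFunctionFieldFullC K N).equivMap
        (ModularCurve.qExpandAlgHomC K N)).symm)

theorem qExpand_F0Equiv (l : F0 K N) :
    ModularCurve.qExpand K N (F0Equiv K N l : LaurentSeries K) = lamInf K N l := by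
  have h1 := AlgEquiv.apply_symm_apply ((ModularCurve.modularFunctionFieldFullC K N).equivMap
        (ModularCurve.qExpandAlgHomC K N))
        (IntermediateField.equivOfEq map_F0 ((F0 K N).equivMap (lamInf K N) l))
  have h2 := congrArg Subtype.val h1
  exact h2

end FermatJ
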