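import Mathlib
import Fermat.Agent.FF.Basic
import Fermat.Agent.J.Twist

/-!
# Places from embeddings in fields of Laurent series
-/

set_option autoImplicit false

noncomputable section

open AlgebraicCurve

namespace FermatJ

section Order

variable {M : Type*} [Field M]

theorem order_mul' {φ ψ : LaurentSeries M} (hφ : φ ≠ 0) (hψ : ψ ≠ 0) :
    (φ * ψ).order = φ.order + ψ.order := HahnSeries.order_mul hφ hψ

theorem order_inv' (φ : LaurentSeries M) : (φ⁻¹).order = -φ.order := by
  rcases eq_or_ne φ 0 with rfl | hφ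
  · simp
  · have h := order_mul' hφ (inv_ne_zero hφ)
    rw [mul_inv_cancel₀ hφ, HahnSeries.order_one] at h
    omega

theorem order_add_ge {φ ψ : LaurentSeries M} (h1 : 0 ≤ φ.order) (h2 : 0 ≤ ψ.order) :
    0 ≤ (φ + ψ).order := by
  rcases eq_or_ne (φ + ψ) 0 with h | h
  · rw [h, HahnSeries.order_zero]
  · exact (le_min h1 h2).trans (HahnSeries.min_order_le_order_add h)

theorem order_zpow' (φ : LaurentSeries M) (n : ℤ) :
    (φ ^ n).order = n * φ.order := by
  have hn : ∀ n : ℕ, (φ ^ n).order = n * φ.order := by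
    intro n
    rw [HahnSeries.order_pow]
    simp
  obtain ⟨m, rfl | rfl⟩ := n.eq_nat_or_neg
  · rw [zpow_natCast, hn]
  · rw [zpow_neg, zpow_natCast, order_inv', hn]
    ring

variable (M) in
/-- The valuation ring of power series in the field of Laurent series. -/
def lauO : ValuationSubring (LaurentSeries M) where
  carrier := {φ | 0 ≤ φ.order}
  mul_mem' := by
    intro φ ψ h1 h2
    rcases eq_or_ne φ 0 with rfl | hφ
    · simp
    rcases eq_or_ne ψ 0 with rfl | hψ
    · simp
    show 0 ≤ (φ * ψ).order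
    rw [order_mul' hφ hψ]
    exact add_nonneg h1 h2
  one_mem' := by simp
  add_mem' := fun h1 h2 => order_add_ge h1 h2
  zero_mem' := by simp
  neg_mem' := fun {φ} h => by
    show 0 ≤ (-φ).order
    rw [HahnSeries.order_neg]
    exact h
  mem_or_inv_mem' := by
    intro φ
    show 0 ≤ φ.order ∨ 0 ≤ (φ⁻¹).order
    rw [order_inv']
    omega

theorem mem_lauO (φ : LaurentSeries M) : φ ∈ lauO M ↔ 0 ≤ φ.order := Iff.rfl

theorem order_twist (u : Mˣ) (φ : LaurentSeries M) : (twist u φ).order = φ.order := by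
  rcases eq_or_ne φ 0 with rfl | hφ
  · rw [map_zero]
  have h1 : (twist u φ).coeff φ.order ≠ 0 := by
    rw [coeff_twist]
    exact mul_ne_zero (Units.ne_zero _) (HahnSeries.coeff_order_eq_zero.not.mpr hφ)
  have hne : twist u φ ≠ 0 := by
    intro h
    rw [h] at h1
    exact h1 rfl
  refine le_antisymm (HahnSeries.order_le_of_coeff_ne_zero h1) ?_
  apply HahnSeries.order_le_of_coeff_ne_zero
  intro h
  apply HahnSeries.coeff_order_eq_zero.not.mpr hne
  rw [coeff_twist, h, mul_zero]

end Order

section Place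

variable {K L M : Type*} [Field K] [Field L] [Algebra K L] [Field M] (lam : L →+* LaurentSeries M)

theorem comap_isPrincipalIdealRing : IsPrincipalIdealRing ((lauO M).comap lam) := by
  classical
  constructor
  intro I
  by_cases hI : I = ⊥
  · subst hI
    exact ⟨0, by simp⟩
  obtain ⟨y0, hy0, hy0'⟩ := Submodule.exists_mem_ne_zero_of_ne_bot hI
  have hne : ∃ n : ℕ, ∃ y ∈ I, y ≠ 0 ∧ (lam y.1).order = n := by
    have h0 : 0 ≤ (lam y0.1).order := y0.2
    exact ⟨(lam y0.1).order.toNat, y0, hy0, hy0', by omega⟩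
  obtain ⟨x, hx, hx0, hxn⟩ := Nat.find_spec hne
  have hx0' : x.1 ≠ 0 := fun h => hx0 (Subtype.ext h)
  refine ⟨x, ?_⟩
  apply le_antisymm
  · intro y hy
    rcases eq_or_ne y 0 with rfl | hy0
    · exact zero_mem _
    have hy0' : y.1 ≠ 0 := fun h => hy0 (Subtype.ext h)
    have h1 : (lam x.1).order ≤ (lam y.1).order := by
      have h2 : 0 ≤ (lam y.1).order := y.2
      have h3 := Nat.find_min' hne ⟨y, hy, hy0, (show (lam y.1).order = (lam y.1).order.toNat by omega)⟩
      omega
    have h4 : y.1 * x.1⁻¹ ∈ (lauO M).comap lam := by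
      show 0 ≤ (lam (y.1 * x.1⁻¹)).order
      rw [map_mul, map_inv₀, order_mul', order_inv']
      · omega
      · rwa [ne_eq, map_eq_zero]
      · rw [ne_eq, inv_eq_zero, map_eq_zero]
        exact hx0'
    rw [Submodule.mem_span_singleton]
    refine ⟨⟨_, h4⟩, Subtype.ext ?_⟩
    show y.1 * x.1⁻¹ * x.1 = y.1
    field_simp
  · rw [Submodule.span_singleton_le_iff_mem]
    exact hx

/-- The place attached to an embedding in a field of Laurent series. -/
def placeOfLaurent (hK : ∀ a : K, 0 ≤ (lam (algebraMap K L a)).order)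
    (hne : ∃ l, (lam l).order < 0) : Place K L where
  toValuationSubring := (lauO M).comap lam
  algebraMap_mem' := hK
  ne_top' := by
    obtain ⟨l, hl⟩ := hne
    intro h
    have h1 : l ∈ (lauO M).comap lam := by
      rw [h]
      trivial
    have h2 : 0 ≤ (lam l).order := h1
    omega
  isPrincipalIdealRing' := comap_isPrincipalIdealRing lam

variable {lam} {hK : ∀ a : K, 0 ≤ (lam (algebraMap K L a)).order} {hne : ∃ l, (lam l).order < 0}

theorem mem_placeOfLaurent {l : L} :
    l ∈ (placeOfLaurent lam hK hne).toValuationSubring ↔ 0 ≤ (lam l).order := Iff.rfl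

/-- The order of the Laurent series is a multiple of the order at the place. -/
theorem exists_mul_ord_placeOfLaurent : ∃ e : ℕ, 0 < e ∧
    ∀ l, (lam l).order = e * (placeOfLaurent lam hK hne).ord l := by
  set w := placeOfLaurent lam hK hne with hw
  obtain ⟨t, ht⟩ := Fermat.FF.exists_ord_eq_one w
  have ht0 : t ≠ 0 := Fermat.FF.ne_zero_of_ord_ne_zero w (by rw [ht]; exact one_ne_zero)
  have h1 : 0 ≤ (lam t).order := by
    rw [← mem_placeOfLaurent (hK := hK) (hne := hne), Fermat.FF.mem_iff_ord w ht0, ht]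
    exact zero_le_one
  have h2 : ¬ 0 ≤ (lam t⁻¹).order := by
    rw [← mem_placeOfLaurent (hK := hK) (hne := hne), Fermat.FF.mem_iff_ord w (inv_ne_zero ht0),
      w.ord_inv, ht]
    omega
  rw [map_inv₀, order_inv'] at h2
  refine ⟨(lam t).order.toNat, by omega, ?_⟩
  intro l
  rcases eq_or_ne l 0 with rfl | hl
  · simp
  set n := w.ord l with hn
  set u := l * (t ^ n)⁻¹ with hu
  have hu0 : u ≠ 0 := mul_ne_zero hl (inv_ne_zero (zpow_ne_zero _ ht0))
  have hou : w.ord u = 0 := by
    rw [hu, w.ord_mul hl (inv_ne_zero (zpow_ne_zero _ ht0)), w.ord_inv, w.ord_zpow, ht, ← hn]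
    ring
  have h3 : 0 ≤ (lam u).order := by
    rw [← mem_placeOfLaurent (hK := hK) (hne := hne), Fermat.FF.mem_iff_ord w hu0, hou]
  have h4 : 0 ≤ (lam u⁻¹).order := by
    rw [← mem_placeOfLaurent (hK := hK) (hne := hne), Fermat.FF.mem_iff_ord w (inv_ne_zero hu0),
      w.ord_inv, hou, neg_zero]
  rw [map_inv₀, order_inv'] at h4
  have h5 : (lam u).order = 0 := by omega
  have h6 : l = u * t ^ n := by
    rw [hu]
    field_simp
  have h7 : lam u ≠ 0 := by rwa [ne_eq, map_eq_zero]
  have h8 : lam t ≠ 0 := by rwa [ne_eq, map_eq_zero]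
  conv_lhs => rw [h6, map_mul, map_zpow₀, order_mul' h7 (zpow_ne_zero _ h8), h5, order_zpow' (lam t)]
  rw [zero_add, mul_comm, Int.toNat_of_nonneg h1]

theorem ord_placeOfLaurent_pos {l : L} (h : 0 < (lam l).order) :
    0 < (placeOfLaurent lam hK hne).ord l := by
  obtain ⟨e, he, h1⟩ := exists_mul_ord_placeOfLaurent (lam := lam) (hK := hK) (hne := hne)
  rw [h1 l] at h
  exact pos_of_mul_pos_right h (by positivity)

theorem ord_placeOfLaurent_neg {l : L} (h : (lam l).order < 0) :
    (placeOfLaurent lam hK hne).ord l < 0 := by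
  have h1 := ord_placeOfLaurent_pos (hK := hK) (hne := hne) (l := l⁻¹)
    (by rw [map_inv₀, order_inv']; omega)
  rw [(placeOfLaurent lam hK hne).ord_inv] at h1
  omega

theorem ord_placeOfLaurent_le {l : L} (h : 0 ≤ (lam l).order) :
    (placeOfLaurent lam hK hne).ord l ≤ (lam l).order := by
  obtain ⟨e, he, h1⟩ := exists_mul_ord_placeOfLaurent (lam := lam) (hK := hK) (hne := hne)
  rw [h1 l] at h ⊢
  have he' : (1 : ℤ) ≤ e := by exact_mod_cast he
  have h2 : 0 ≤ (placeOfLaurent lam hK hne).ord l := by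
    by_contra h3
    push Not at h3
    have : (e : ℤ) * (placeOfLaurent lam hK hne).ord l < 0 := mul_neg_of_pos_of_neg (by omega) h3
    omega
  nlinarith

theorem le_ord_placeOfLaurent {l : L} (h : (lam l).order ≤ 0) :
    (lam l).order ≤ (placeOfLaurent lam hK hne).ord l := by
  have h1 := ord_placeOfLaurent_le (hK := hK) (hne := hne) (l := l⁻¹)
    (by rw [map_inv₀, order_inv']; omega)
  rw [(placeOfLaurent lam hK hne).ord_inv, map_inv₀, order_inv'] at h1
  omega

end Place

end FermatJ
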