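import Mathlib
import Fermat.Agent.J.Gamma0Field
import Fermat.Agent.J.LaurentPlace
import Fermat.Agent.J1.Orders

/-!
# The places of the field of functions of level `N`
-/

set_option autoImplicit false

noncomputable section

open Filter Topology UpperHalfPlane ModularForm EisensteinSeries MatrixGroups Matrix
open AlgebraicCurve
open scoped Manifold ComplexConjugate IntermediateField

namespace FermatJ

variable {K : Type*} [Field K] [IsAlgClosed K] [Algebra ℚ K] [Algebra K ℂ] {N : ℕ} [NeZero N]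

/-! ### expansions at interior points -/

omit [IsAlgClosed K] [Algebra ℚ K] [NeZero N] in
theorem localPS_unique' {τ₀ : ℍ} {f : ℍ → ℂ} {P : PowerSeries ℂ} (hf : MDiff f)
    (h : HasPS (wc τ₀) f P) : localPS τ₀ f = P :=
  (hasPS_local τ₀ hf).unique (eventually_mem_range_wc τ₀) h

variable (K N) in
/-- The ring homomorphism of local expansions. -/
def locHom (τ₀ : ℍ) : holo K N →+* LaurentSeries ℂ where
  toFun f := HahnSeries.ofPowerSeries ℤ ℂ (localPS τ₀ f.1)
  map_one' := by
    rw [localPS_unique' (mdiff_of_mem (1 : holo K N).2) (HasPS.one (wc τ₀)), map_one]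
  map_zero' := by
    rw [localPS_unique' (mdiff_of_mem (0 : holo K N).2) (HasPS.zero (wc τ₀)), map_zero]
  map_add' f g := by
    rw [localPS_unique' (mdiff_of_mem (f + g).2)
      ((hasPS_local τ₀ (mdiff_of_mem f.2)).add (hasPS_local τ₀ (mdiff_of_mem g.2))), map_add]
  map_mul' f g := by
    rw [localPS_unique' (mdiff_of_mem (f * g).2)
      ((hasPS_local τ₀ (mdiff_of_mem f.2)).mul (hasPS_local τ₀ (mdiff_of_mem g.2))), map_mul]

omit [IsAlgClosed K] [Algebra ℚ K] [NeZero N] in
theorem hasExp_locHom (τ₀ : ℍ) (f : holo K N) : HasExp (wc τ₀) f.1 (locHom K N τ₀ f) :=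
  HasExp.of_hasPS (hasPS_local τ₀ (mdiff_of_mem f.2))

omit [IsAlgClosed K] [Algebra ℚ K] [NeZero N] in
theorem locHom_eq {τ₀ : ℍ} {f : holo K N} {φ : LaurentSeries ℂ}
    (h : HasExp (wc τ₀) f.1 φ) : locHom K N τ₀ f = φ :=
  (hasExp_locHom τ₀ f).unique (eventually_mem_range_wc τ₀) h

omit [IsAlgClosed K] [Algebra ℚ K] [NeZero N] in
theorem locHom_injective (τ₀ : ℍ) : Function.Injective (locHom K N τ₀) := by
  rw [injective_iff_map_eq_zero]
  intro f hf
  have h1 : localPS τ₀ f.1 = 0 := by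
    apply HahnSeries.ofPowerSeries_injective (Γ := ℤ)
    rw [map_zero]
    exact hf
  have h := hasPS_local τ₀ (mdiff_of_mem f.2)
  rw [h1] at h
  ext τ
  exact (h τ).unique (HasPS.zero (wc τ₀) τ)

variable (K N) in
/-- The expansion of elements of the function field at an interior point. -/
def lamLoc (τ₀ : ℍ) : FunN K N →+* LaurentSeries ℂ :=
  IsFractionRing.lift (g := locHom K N τ₀) (locHom_injective τ₀)

theorem lamLoc_algebraMap (τ₀ : ℍ) (f : holo K N) :
    lamLoc K N τ₀ (algebraMap (holo K N) (FunN K N) f) = locHom K N τ₀ f :=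
  IsFractionRing.lift_algebraMap (locHom_injective τ₀) f

theorem lamLoc_const (τ₀ : ℍ) (a : K) :
    lamLoc K N τ₀ (algebraMap K (FunN K N) a) = HahnSeries.C (algebraMap K ℂ a) := by
  rw [IsScalarTower.algebraMap_apply K (holo K N) (FunN K N), lamLoc_algebraMap]
  exact locHom_eq (HasExp.const _ _)

theorem lamLoc_xj (τ₀ : ℍ) :
    lamLoc K N τ₀ (xj K N) = HahnSeries.ofPowerSeries ℤ ℂ (localPS τ₀ jf) := by
  rw [xj, lamLoc_algebraMap]
  apply locHom_eq
  rw [jOne_val]
  exact HasExp.of_hasPS (hasPS_local τ₀ mdifferentiable_jf)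

theorem order_ofPowerSeries {P : PowerSeries ℂ} {n : ℕ} (h : P.order = n) :
    (HahnSeries.ofPowerSeries ℤ ℂ P).order = n := by
  rw [PowerSeries.order_eq_nat] at h
  have h1 : (HahnSeries.ofPowerSeries ℤ ℂ P).coeff (n : ℤ) ≠ 0 := by
    rw [HahnSeries.ofPowerSeries_apply_coeff]
    exact h.1
  refine le_antisymm (HahnSeries.order_le_of_coeff_ne_zero h1) ?_
  have hne : HahnSeries.ofPowerSeries ℤ ℂ P ≠ 0 := by
    intro h0
    rw [h0] at h1
    exact h1 rfl
  by_contra hlt
  push Not at hlt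
  have h2 := HahnSeries.coeff_order_eq_zero.not.mpr hne
  apply h2
  rcases lt_or_ge (HahnSeries.ofPowerSeries ℤ ℂ P).order 0 with h3 | h3
  · exact ModularCurve.ofPowerSeries_coeff_of_neg _ h3
  · obtain ⟨m, hm⟩ := Int.eq_ofNat_of_zero_le h3
    rw [hm, HahnSeries.ofPowerSeries_apply_coeff]
    apply h.2
    omega

theorem lamLoc_xj_sub (τ₀ : ℍ) (a : K) :
    lamLoc K N τ₀ (xj K N - algebraMap K (FunN K N) a) =
      HahnSeries.ofPowerSeries ℤ ℂ (localPS τ₀ jf - PowerSeries.C (algebraMap K ℂ a)) := by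
  rw [RingHom.map_sub, lamLoc_xj, lamLoc_const, RingHom.map_sub, HahnSeries.ofPowerSeries_C]

/-- `j - j(τ₀)` vanishes at `τ₀`, to finite order. -/
theorem exists_order_local_jf (τ₀ : ℍ) :
    ∃ n : ℕ, 0 < n ∧ (localPS τ₀ jf - PowerSeries.C (jf τ₀)).order = n ∧
      ((jf τ₀ ≠ 0 ∧ jf τ₀ ≠ 1728 ∧ n = 1) ∨ (jf τ₀ = 1728 ∧ n = 2) ∨ (jf τ₀ = 0 ∧ n = 3)) := by
  by_cases h0 : jf τ₀ = 0
  · refine ⟨3, by norm_num, ?_, Or.inr (Or.inr ⟨h0, rfl⟩)⟩
    rw [h0, map_zero, sub_zero]
    exact order_of_eq_zero h0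
  by_cases h1 : jf τ₀ = 1728
  · refine ⟨2, by norm_num, ?_, Or.inr (Or.inl ⟨h1, rfl⟩)⟩
    rw [h1]
    exact order_of_eq_1728 h1
  · refine ⟨1, one_pos, order_of_generic h0 h1, Or.inl ⟨h0, h1, rfl⟩⟩

theorem order_const_nonneg {M : Type*} [Field M] (c : M) :
    0 ≤ (HahnSeries.C c : LaurentSeries M).order := by
  rw [HahnSeries.order_C]

theorem lamLoc_hK (τ₀ : ℍ) (a : K) : 0 ≤ (lamLoc K N τ₀ (algebraMap K (FunN K N) a)).order := by
  rw [lamLoc_const]
  exact order_const_nonneg _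

/-- The embedding is nontrivial. -/
theorem lamLoc_hne {τ₀ : ℍ} {a : K} (ha : jf τ₀ = algebraMap K ℂ a) :
    ∃ l, (lamLoc K N τ₀ l).order < 0 := by
  refine ⟨(xj K N - algebraMap K (FunN K N) a)⁻¹, ?_⟩
  obtain ⟨n, hn0, hn, -⟩ := exists_order_local_jf τ₀
  rw [map_inv₀, order_inv', lamLoc_xj_sub, ← ha, order_ofPowerSeries hn]
  omega

variable (K N) in
/-- The place attached to a point `τ₀` with `j(τ₀) ∈ K`. -/
def placeLoc (τ₀ : ℍ) (a : K) (ha : jf τ₀ = algebraMap K ℂ a) : Place K (FunN K N) :=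
  placeOfLaurent (lamLoc K N τ₀) (lamLoc_hK τ₀) (lamLoc_hne ha)

theorem placeLoc_ord_pos {τ₀ : ℍ} {a : K} (ha : jf τ₀ = algebraMap K ℂ a) :
    0 < (placeLoc K N τ₀ a ha).ord (xj K N - algebraMap K (FunN K N) a) := by
  obtain ⟨n, hn0, hn, -⟩ := exists_order_local_jf τ₀
  apply ord_placeOfLaurent_pos
  rw [lamLoc_xj_sub, ← ha, order_ofPowerSeries hn]
  omega

theorem placeLoc_ord_le {τ₀ : ℍ} {a : K} (ha : jf τ₀ = algebraMap K ℂ a) {n : ℕ}
    (hn : (localPS τ₀ jf - PowerSeries.C (jf τ₀)).order = n) :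
    (placeLoc K N τ₀ a ha).ord (xj K N - algebraMap K (FunN K N) a) ≤ n := by
  have h1 : (lamLoc K N τ₀ (xj K N - algebraMap K (FunN K N) a)).order = n := by
    rw [lamLoc_xj_sub, ← ha, order_ofPowerSeries hn]
  rw [← h1]
  apply ord_placeOfLaurent_le
  rw [h1]
  omega

/-- The action of the stabiliser of `τ₀` on local expansions. -/
theorem exists_lamLoc_actN {τ₀ : ℍ} {γ : SL(2, ℤ)} (h : γ • τ₀ = τ₀) :
    ∃ u : ℂˣ, ∀ l : FunN K N, lamLoc K N τ₀ (actN K N γ l) = twist u (lamLoc K N τ₀ l) := by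
  have h' : γ⁻¹ • τ₀ = τ₀ := by
    rw [inv_smul_eq_iff, h]
  obtain ⟨u, hu⟩ := exists_wc_smul h'
  refine ⟨u, ?_⟩
  have h1 : ((lamLoc K N τ₀).comp (actN K N γ : FunN K N →+* FunN K N)) =
      ((twist u).comp (lamLoc K N τ₀)) := by
    apply IsLocalization.ringHom_ext (nonZeroDivisors (holo K N))
    ext1 f
    simp only [RingHom.comp_apply, RingHom.coe_coe]
    rw [actN_algebraMap, lamLoc_algebraMap, lamLoc_algebraMap]
    apply locHom_eq
    exact (hasExp_locHom τ₀ f).twist (σ := fun τ => γ⁻¹ • τ) u hu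
  intro l
  exact RingHom.congr_fun h1 l

theorem placeLoc_stable {τ₀ : ℍ} {a : K} (ha : jf τ₀ = algebraMap K ℂ a) {γ : SL(2, ℤ)}
    (h : γ • τ₀ = τ₀) {l : FunN K N} (hl : l ∈ (placeLoc K N τ₀ a ha).toValuationSubring) :
    actN K N γ l ∈ (placeLoc K N τ₀ a ha).toValuationSubring := by
  obtain ⟨u, hu⟩ := exists_lamLoc_actN (K := K) (N := N) h
  rw [placeLoc, mem_placeOfLaurent] at hl ⊢
  rw [hu l, order_twist]
  exact hl

/-! ### the cusp -/

theorem order_qExpand {M : Type*} [Field M] (n : ℕ) [NeZero n] (φ : LaurentSeries M) :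
    (ModularCurve.qExpand M n φ).order = n * φ.order := by
  have hn : 0 < n := Nat.pos_of_ne_zero (NeZero.ne n)
  rcases eq_or_ne φ 0 with rfl | hφ
  · simp
  have h1 : (ModularCurve.qExpand M n φ).coeff (n * φ.order) ≠ 0 := by
    rw [ModularCurve.qExpand_coeff_mul]
    exact HahnSeries.coeff_order_eq_zero.not.mpr hφ
  refine le_antisymm (HahnSeries.order_le_of_coeff_ne_zero h1) ?_
  have hne : ModularCurve.qExpand M n φ ≠ 0 := by
    intro h0
    rw [h0] at h1
    exact h1 rfl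
  have h2 := HahnSeries.coeff_order_eq_zero.not.mpr hne
  obtain ⟨k, hk⟩ : (n : ℤ) ∣ (ModularCurve.qExpand M n φ).order := by
    by_contra hdvd
    exact h2 (ModularCurve.qExpand_coeff_of_not_dvd n _ hdvd)
  rw [hk]
  rw [hk, ModularCurve.qExpand_coeff_mul] at h2
  have h3 := HahnSeries.order_le_of_coeff_ne_zero h2
  exact mul_le_mul_of_nonneg_left h3 (by positivity)

omit [IsAlgClosed K] [Algebra K ℂ] in
theorem order_jqK : (jqK K).order = -1 := by
  have h1 : (jqK K).coeff (-1) ≠ 0 := by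
    have := coeff_jqK_pow_self (K := K) 1
    rw [pow_one, Nat.cast_one] at this
    rw [this]
    exact one_ne_zero
  refine le_antisymm (HahnSeries.order_le_of_coeff_ne_zero h1) ?_
  by_contra hlt
  push Not at hlt
  have hne : jqK K ≠ 0 := by
    intro h0
    rw [h0] at h1
    exact h1 rfl
  apply HahnSeries.coeff_order_eq_zero.not.mpr hne
  have := coeff_jqK_pow_of_lt (K := K) (n := 1) (m := (jqK K).order) (by simpa using hlt)
  rwa [pow_one] at this

theorem order_lamInf_xj : (lamInf K N (xj K N)).order = -N := by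
  rw [lamInf_xj, order_qExpand, order_jqK]
  ring

theorem lamInf_hK (a : K) :
    0 ≤ ((lamInf K N).toRingHom (algebraMap K (FunN K N) a)).order := by
  have : (lamInf K N).toRingHom (algebraMap K (FunN K N) a) = HahnSeries.C a := by
    show lamInf K N (algebraMap K (FunN K N) a) = _
    rw [AlgHom.commutes, ModularCurve.algebraMap_laurentSeries_eq_single]
    rfl
  rw [this]
  exact order_const_nonneg _

theorem lamInf_hne : ∃ l, ((lamInf K N).toRingHom l).order < 0 := by
  refine ⟨xj K N, ?_⟩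
  have h := order_lamInf_xj (K := K) (N := N)
  have hN : 0 < N := Nat.pos_of_ne_zero (NeZero.ne N)
  show (lamInf K N (xj K N)).order < 0
  omega

variable (K N) in
/-- The place at infinity. -/
def placeInf : Place K (FunN K N) :=
  placeOfLaurent (lamInf K N).toRingHom lamInf_hK lamInf_hne

theorem mem_placeInf {l : FunN K N} :
    l ∈ (placeInf K N).toValuationSubring ↔ 0 ≤ (lamInf K N l).order := Iff.rfl

theorem placeInf_ord_xj_neg : (placeInf K N).ord (xj K N) < 0 := by
  apply ord_placeOfLaurent_neg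
  have h := order_lamInf_xj (K := K) (N := N)
  have hN : 0 < N := Nat.pos_of_ne_zero (NeZero.ne N)
  show (lamInf K N (xj K N)).order < 0
  omega

theorem placeInf_ord_xj_ge : -(placeInf K N).ord (xj K N) ≤ N := by
  have h := order_lamInf_xj (K := K) (N := N)
  have h1 := le_ord_placeOfLaurent (lam := (lamInf K N).toRingHom) (hK := lamInf_hK)
    (hne := lamInf_hne) (l := xj K N) (by
      show (lamInf K N (xj K N)).order ≤ 0
      omega)
  have h2 : ((lamInf K N).toRingHom (xj K N)).order = -N := h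
  rw [h2] at h1
  have h3 : -(N : ℤ) ≤ (placeInf K N).ord (xj K N) := h1
  omega

theorem lamInf_actN_T (l : FunN K N) :
    lamInf K N (actN K N ModularGroup.T⁻¹ l) = twist (zetaK K 1 N) (lamInf K N l) := by
  have h1 : ((lamInf K N).toRingHom.comp
      (actN K N ModularGroup.T⁻¹ : FunN K N →+* FunN K N)) =
      ((twist (zetaK K 1 N)).comp (lamInf K N).toRingHom) := by
    apply IsLocalization.ringHom_ext (nonZeroDivisors (holo K N))
    ext1 f
    simp only [RingHom.comp_apply, RingHom.coe_coe]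
    show lamInf K N (actN K N ModularGroup.T⁻¹ (algebraMap (holo K N) (FunN K N) f)) =
      twist (zetaK K 1 N) (lamInf K N (algebraMap (holo K N) (FunN K N) f))
    rw [actN_algebraMap, lamInf_algebraMap, lamInf_algebraMap]
    apply expInf_eq
    have h2 := (hasExp_expInf f).T_smul
    have h3 : toC (twist (zetaK K 1 N) (expInf f)) = FermatJ.twist (zetaC 1 N) (toC (expInf f)) := by
      rw [toC, coeffMap_twist, map_zetaK]
    rw [h3]
    refine h2.congr fun τ => ?_
    rw [actHolo_apply, inv_inv]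
  exact RingHom.congr_fun h1 l

theorem lamInf_actN_T_pow (n : ℕ) (l : FunN K N) :
    lamInf K N (actN K N (ModularGroup.T⁻¹ ^ n) l) = twist (zetaK K 1 N ^ n) (lamInf K N l) := by
  induction n generalizing l with
  | zero =>
    rw [pow_zero, pow_zero, twist_one, map_one]
    rfl
  | succ n ih =>
    have h1 : actN K N (ModularGroup.T⁻¹ ^ (n + 1)) l
        = actN K N (ModularGroup.T⁻¹ ^ n) (actN K N ModularGroup.T⁻¹ l) := by
      rw [pow_succ, map_mul]
      rfl
    rw [h1, ih, lamInf_actN_T]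
    ext k
    rw [coeff_twist, coeff_twist, coeff_twist, pow_succ, mul_zpow, Units.val_mul, mul_assoc]

theorem order_lamInf_actN_T (l : FunN K N) :
    (lamInf K N (actN K N ModularGroup.T l)).order = (lamInf K N l).order := by
  have h1 := lamInf_actN_T (K := K) (N := N) (actN K N ModularGroup.T l)
  have h2 : actN K N ModularGroup.T⁻¹ (actN K N ModularGroup.T l) = l := by
    rw [map_inv]
    exact AlgEquiv.symm_apply_apply _ _
  rw [h2] at h1
  rw [h1, order_twist]

theorem placeInf_stable {l : FunN K N} (hl : l ∈ (placeInf K N).toValuationSubring) :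
    actN K N ModularGroup.T l ∈ (placeInf K N).toValuationSubring := by
  rw [mem_placeInf] at hl ⊢
  rw [order_lamInf_actN_T]
  exact hl

theorem dvd_of_actN_T_pow {n : ℕ} (h : actN K N (ModularGroup.T ^ n) = 1) : N ∣ n := by
  have hN : 0 < N := Nat.pos_of_ne_zero (NeZero.ne N)
  -- the function `j(τ/N)`
  set f : holo K N := jH K N 1 0 N (by rw [one_mul]) hN with hf
  have hfac : Fact (N ∣ N) := ⟨dvd_rfl⟩
  have h1 : expInf f = expAbd K (1 * (N / N)) (zetaK K ((0 : ℕ) : ℤ) N) := expInf_eq (hasExp_jabd _ _ _ _)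
  have h2 := lamInf_actN_T_pow (K := K) (N := N) n (algebraMap (holo K N) (FunN K N) f)
  have h3 : actN K N (ModularGroup.T⁻¹ ^ n) = 1 := by
    rw [inv_pow, map_inv, h, inv_one]
  rw [h3] at h2
  have h4 : lamInf K N (algebraMap (holo K N) (FunN K N) f)
      = twist (zetaK K 1 N ^ n) (lamInf K N (algebraMap (holo K N) (FunN K N) f)) := h2
  rw [lamInf_algebraMap, h1] at h4
  have h5 := congrArg (fun z : LaurentSeries K => z.coeff (-((1 * (N / N) : ℕ) : ℤ))) h4
  simp only [coeff_twist] at h5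
  rw [coeff_expAbd_self] at h5
  have h6 : (((zetaK K 1 N ^ n) ^ (-((1 * (N / N) : ℕ) : ℤ)) : Kˣ) : K) = 1 := by
    apply mul_right_cancel₀ (Units.ne_zero (zetaK K ((0 : ℕ) : ℤ) N)⁻¹)
    exact h5.symm.trans (one_mul _).symm
  have h7 : (zetaK K 1 N ^ n) ^ (-((1 * (N / N) : ℕ) : ℤ)) = 1 := Units.ext h6
  rw [one_mul, Nat.div_self hN] at h7
  have h8 : zetaK K 1 N ^ (n : ℤ) = 1 := by
    rw [zpow_natCast, ← inv_eq_one]
    simpa using h7
  have h9 := congrArg (Units.map (algebraMap K ℂ : K →* ℂ)) h8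
  rw [map_zpow, map_zetaK, map_one, zetaC_zpow, one_mul] at h9
  exact_mod_cast h9

theorem orderOf_actN_pos (γ : SL(2, ℤ)) : 0 < orderOf (actN K N γ) := by
  have hfin := finite_range_actN (K := K) (N := N)
  have h1 : IsOfFinOrder (⟨actN K N γ, γ, rfl⟩ : (actN K N).range) :=
    isOfFinOrder_of_finite _
  have h2 := h1.orderOf_pos
  have h3 := orderOf_injective (actN K N).range.subtype (Subgroup.subtype_injective _)
    ⟨actN K N γ, γ, rfl⟩
  rw [← h3] at h2
  exact h2

theorem le_orderOf_actN_T : (N : ℤ) ≤ orderOf (actN K N ModularGroup.T) := by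
  have hpos : 0 < orderOf (actN K N ModularGroup.T) := orderOf_actN_pos _
  have h1 : actN K N (ModularGroup.T ^ orderOf (actN K N ModularGroup.T)) = 1 := by
    rw [map_pow, pow_orderOf_eq_one]
  exact_mod_cast Nat.le_of_dvd hpos (dvd_of_actN_T_pow h1)

theorem mem_Gamma0_of_actN_eq_one {γ : SL(2, ℤ)} (h : actN K N γ = 1) :
    γ ∈ CongruenceSubgroup.Gamma0 N :=
  mem_Gamma0_of_fix (K := K) fun l _ => by rw [h]; rfl

theorem Gamma0_one_eq_top (h : N = 1) : CongruenceSubgroup.Gamma0 N = ⊤ := by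
  subst h
  rw [eq_top_iff]
  intro g _
  rw [CongruenceSubgroup.Gamma0_mem]
  exact Subsingleton.elim _ _

omit [NeZero N] in
theorem eq_one_of_mem {γ : SL(2, ℤ)} (h : γ ∈ CongruenceSubgroup.Gamma0 N)
    (h1 : γ 1 0 = 1 ∨ γ 1 0 = -1) : N = 1 := by
  rw [CongruenceSubgroup.Gamma0_mem, ZMod.intCast_zmod_eq_zero_iff_dvd] at h
  have h2 : (N : ℤ) ∣ 1 := by
    rcases h1 with h1 | h1
    · rwa [h1] at h
    · rw [h1] at h
      exact (Int.dvd_neg.mpr h).trans (by norm_num)
  have h3 : N ∣ 1 := by exact_mod_cast h2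
  exact Nat.dvd_one.mp h3

theorem two_le_orderOf_actN_S :
    2 ≤ orderOf (actN K N ModularGroup.S) ∨ CongruenceSubgroup.Gamma0 N = ⊤ := by
  by_contra! h
  obtain ⟨h1, h2⟩ := h
  have h3 := orderOf_actN_pos (K := K) (N := N) ModularGroup.S
  have h4 : orderOf (actN K N ModularGroup.S) = 1 := by omega
  rw [orderOf_eq_one_iff] at h4
  apply h2
  apply Gamma0_one_eq_top
  exact eq_one_of_mem (mem_Gamma0_of_actN_eq_one h4) (Or.inl (by simp [ModularGroup.S]))

theorem three_le_orderOf_actN_ST :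
    3 ≤ orderOf (actN K N (ModularGroup.S * ModularGroup.T)) ∨
      CongruenceSubgroup.Gamma0 N = ⊤ := by
  by_contra! h
  obtain ⟨h1, h2⟩ := h
  have h3 := orderOf_actN_pos (K := K) (N := N) (ModularGroup.S * ModularGroup.T)
  apply h2
  apply Gamma0_one_eq_top
  have h4 : orderOf (actN K N (ModularGroup.S * ModularGroup.T)) = 1 ∨
    orderOf (actN K N (ModularGroup.S * ModularGroup.T)) = 2 := by omega
  rcases h4 with h4 | h4
  · rw [orderOf_eq_one_iff] at h4
    refine eq_one_of_mem (mem_Gamma0_of_actN_eq_one h4) (Or.inl ?_)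
    rw [Matrix.SpecialLinearGroup.coe_mul]
    simp [ModularGroup.S, ModularGroup.T, Matrix.mul_apply, Fin.sum_univ_two]
  · have h5 : actN K N ((ModularGroup.S * ModularGroup.T) ^ 2) = 1 := by
      have h6 := pow_orderOf_eq_one (actN K N (ModularGroup.S * ModularGroup.T))
      rw [h4, ← map_pow] at h6
      exact h6
    refine eq_one_of_mem (mem_Gamma0_of_actN_eq_one h5) (Or.inl ?_)
    rw [pow_two, Matrix.SpecialLinearGroup.coe_mul, Matrix.SpecialLinearGroup.coe_mul]
    simp [ModularGroup.S, ModularGroup.T, Matrix.mul_apply, Fin.sum_univ_two]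

end FermatJ
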