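import Mathlib
import Fermat.Agent.J.Places
import Fermat.Agent.FF.X0Genus

/-!
# The genus of `X₀(N)`
-/

set_option autoImplicit false

noncomputable section

open AlgebraicCurve ModularCurve UpperHalfPlane
open scoped MatrixGroups IntermediateField

namespace FermatJ

variable (K : Type*) [Field K] [IsAlgClosed K] [Algebra ℚ K] [Algebra K ℂ] (N : ℕ) [NeZero N]

omit [NeZero N] in
theorem Gamma0_eq_top_imp (h : CongruenceSubgroup.Gamma0 N = ⊤) : N = 1 := by
  have h1 : ModularGroup.S ∈ CongruenceSubgroup.Gamma0 N := by rw [h]; trivial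
  exact eq_one_of_mem h1 (Or.inl (by simp [ModularGroup.S]))

/-- The genus of `X₀(N)` over an algebraically closed field `K ⊆ ℂ`. -/
theorem genus_fullC [CharZero K]
    [HasCanonicalDivisor (K := K) (F := modularFunctionFieldFullC K N)] :
    (genus K (modularFunctionFieldFullC K N) : ℚ) = genusFormula N := by
  refine Fermat.FF.genus_X0_of_hom (actN K N) N transcendental_xj finite_range_actN fixed_iff
    (F0 K N) mem_F0 (fun g hg => mem_Gamma0_of_fix hg) xj_mem_F0 ?_ ?_ ?_ ?_ (F0Equiv K N)
  · intro a ha0 ha1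
    obtain ⟨τ, hτ⟩ := jf_surjective (algebraMap K ℂ a)
    refine ⟨placeLoc K N τ a hτ, placeLoc_ord_pos hτ, ?_⟩
    have h0 : jf τ ≠ 0 := by
      rw [hτ, ne_eq, map_eq_zero]
      exact ha0
    have h1 : jf τ ≠ 1728 := by
      rw [hτ]
      intro h
      apply ha1
      apply (algebraMap K ℂ).injective
      rw [h, map_ofNat]
    exact placeLoc_ord_le hτ (order_of_generic h0 h1)
  · have hτ : jf rho = algebraMap K ℂ 0 := by rw [jf_rho, map_zero]
    refine ⟨placeLoc K N rho 0 hτ, ?_, ?_, ?_⟩
    · have h := placeLoc_ord_pos (N := N) hτ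
      rwa [map_zero, sub_zero] at h
    · intro l hl
      exact placeLoc_stable hτ ST_smul_rho hl
    · have h1 := placeLoc_ord_le (N := N) hτ (n := 3) (by
        rw [jf_rho, map_zero, sub_zero]
        exact order_of_eq_zero jf_rho)
      rw [map_zero, sub_zero] at h1
      rcases three_le_orderOf_actN_ST (K := K) (N := N) with h2 | h2
      · left
        exact h1.trans (by exact_mod_cast h2)
      · exact Or.inr (Gamma0_eq_top_imp N h2)
  · have hτ : jf UpperHalfPlane.I = algebraMap K ℂ 1728 := by rw [jf_I, map_ofNat]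
    refine ⟨placeLoc K N UpperHalfPlane.I 1728 hτ, placeLoc_ord_pos hτ, ?_, ?_⟩
    · intro l hl
      exact placeLoc_stable hτ S_smul_I hl
    · have h1 := placeLoc_ord_le (N := N) hτ (n := 2) (by
        rw [jf_I]
        exact order_of_eq_1728 jf_I)
      rcases two_le_orderOf_actN_S (K := K) (N := N) with h2 | h2
      · left
        exact h1.trans (by exact_mod_cast h2)
      · exact Or.inr (Gamma0_eq_top_imp N h2)
  · refine ⟨placeInf K N, placeInf_ord_xj_neg, fun l hl => placeInf_stable hl, Or.inl ?_⟩
    exact placeInf_ord_xj_ge.trans le_orderOf_actN_T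

end FermatJ
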