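import Mathlib
import Fermat.Agent.FF.Count
import Fermat.Agent.FF.Rel

/-!
# Ramification indices and decomposition groups
-/

set_option autoImplicit false

noncomputable section

open AlgebraicCurve Fermat.FF

namespace FermatJ

variable {K E : Type*} [Field K] [Field E] [Algebra K E] [IsAlgClosed K] [IsFF1 K E]

theorem inertiaDeg_eq_one_of_isFF1 (F : IntermediateField K E) [Algebra.IsIntegral F E]
    (w : Place K E) : w.inertiaDeg F = 1 := by
  have h := w.deg_restrict_mul_inertiaDeg (F := F)
  rw [deg_eq_one w] at h
  exact Nat.eq_one_of_mul_eq_one_left h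

omit [IsAlgClosed K] [IsFF1 K E] in
theorem ord_smul_algebraMap (H : Subgroup (E ≃ₐ[K] E)) {h : E ≃ₐ[K] E} (hh : h ∈ H)
    (w : Place K E) (f : IntermediateField.fixedField H) :
    (h • w).ord (algebraMap (IntermediateField.fixedField H) E f) =
      w.ord (algebraMap (IntermediateField.fixedField H) E f) := by
  have h3 : h (algebraMap _ E f) = algebraMap _ E f :=
    (IntermediateField.mem_fixedField_iff H _).mp f.2 h hh
  conv_lhs => rw [← h3]
  exact Place.ord_smul h w _

omit [IsAlgClosed K] [IsFF1 K E] in
theorem ramificationIndex_smul (H : Subgroup (E ≃ₐ[K] E)) {h : E ≃ₐ[K] E} (hh : h ∈ H)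
    (w : Place K E) : (h • w).ramificationIndex (IntermediateField.fixedField H) =
      w.ramificationIndex (IntermediateField.fixedField H) := by
  unfold Place.ramificationIndex
  simp_rw [ord_smul_algebraMap H hh w]

/-- The ramification index is the order of the decomposition group. -/
theorem ramificationIndex_eq_card (H : Subgroup (E ≃ₐ[K] E)) [Finite H] (w : Place K E) :
    w.ramificationIndex (IntermediateField.fixedField H) =
      Nat.card (MulAction.stabilizer H w) := by
  classical
  set F := IntermediateField.fixedField H with hF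
  have hfd : FiniteDimensional F E := finiteDimensional_fixedField H
  have hgal : IsGalois F E := isGalois_fixedField H
  have hfa : Rel.FiniteAt E (w.restrict F) := Rel.finiteAt_of_isSeparable K F E (w.restrict F)
  have h1 := Rel.sum_ramificationIndex_mul_inertiaDeg (F' := E) (w.restrict F)
  have h2 : ∀ v ∈ (Rel.fiber_finite E (w.restrict F)).toFinset,
      (v.ramificationIndex F : ℤ) * (v.inertiaDeg F : ℤ) = w.ramificationIndex F := by
    intro v hv
    have hv' : v.restrict F = w.restrict F :=
      (Rel.fiber_finite E (w.restrict F)).mem_toFinset.mp hv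
    obtain ⟨h, hh, rfl⟩ := (restrict_eq_restrict_iff H w v).mp hv'.symm
    rw [inertiaDeg_eq_one_of_isFF1, Nat.cast_one, mul_one, hF, ramificationIndex_smul H hh]
  rw [Finset.sum_congr rfl h2, Finset.sum_const, nsmul_eq_mul] at h1
  have h3 : (Rel.fiber_finite E (w.restrict F)).toFinset.card =
      Nat.card (MulAction.orbit H w) := by
    rw [← Set.ncard_eq_toFinset_card _ (Rel.fiber_finite E (w.restrict F)),
      ← Nat.card_coe_set_eq]
    congr 1
    have : {v : Place K E | v.restrict F = w.restrict F} = MulAction.orbit H w := by
      ext v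
      constructor
      · intro hv
        obtain ⟨h, hh, rfl⟩ := (restrict_eq_restrict_iff H w v).mp (Eq.symm hv)
        exact ⟨⟨h, hh⟩, rfl⟩
      · rintro ⟨⟨h, hh⟩, rfl⟩
        exact restrict_smul_eq H hh w
    rw [this]
  have h4 : Nat.card (MulAction.orbit H w) * Nat.card (MulAction.stabilizer H w) = Nat.card H := by
    rw [Nat.card_congr (MulAction.orbitEquivQuotientStabilizer H w)]
    exact (Subgroup.card_eq_card_quotient_mul_card_subgroup _).symm
  have h5 : Module.finrank F E = Nat.card H := (IsGaloisGroup.card_eq_finrank H F E).symm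
  rw [h3, h5, ← h4] at h1
  have h6 : Nat.card (MulAction.orbit H w) ≠ 0 := by
    have : Nonempty (MulAction.orbit H w) := ⟨⟨w, MulAction.mem_orbit_self w⟩⟩
    have : Finite (MulAction.orbit H w) := (Set.finite_range fun g : H => g • w).to_subtype
    exact Nat.card_pos.ne'
  have h7 : Nat.card (MulAction.orbit H w) * w.ramificationIndex F =
      Nat.card (MulAction.orbit H w) * Nat.card (MulAction.stabilizer H w) := by
    exact_mod_cast h1
  exact Nat.eq_of_mul_eq_mul_left (Nat.pos_of_ne_zero h6) h7

end FermatJ
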