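import Mathlib
import Fermat.Agent.J.GenusX0

/-!
# The degree of the modular function field over `K(j)`
-/

set_option autoImplicit false

noncomputable section

open AlgebraicCurve ModularCurve UpperHalfPlane
open scoped MatrixGroups IntermediateField

namespace FermatJ

/-- Degrees over `K(x)` are transported by isomorphisms. -/
theorem finrank_adjoin_of_algEquiv {K F F' : Type*} [Field K] [Field F] [Field F'] [Algebra K F]
    [Algebra K F'] (e : F ≃ₐ[K] F') (x : F) :
    Module.finrank K⟮x⟯ F = Module.finrank K⟮e x⟯ F' := by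
  have hmap : K⟮x⟯.map (e : F →ₐ[K] F') = K⟮e x⟯ := by
    rw [IntermediateField.adjoin_map, Set.image_singleton]
    rfl
  refine Algebra.finrank_eq_of_equiv_equiv
    ((K⟮x⟯.equivMap (e : F →ₐ[K] F')).trans (IntermediateField.equivOfEq hmap)).toRingEquiv
    e.toRingEquiv (RingHom.ext fun _ => rfl)

variable (K : Type*) [Field K] [IsAlgClosed K] [Algebra ℚ K] [Algebra K ℂ] (N : ℕ) [NeZero N]

/-- `j` as an element of the modular function field. -/
def jF : modularFunctionFieldFullC K N := ⟨jqModC K, jqModC_mem_full K N⟩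

theorem F0Equiv_xj : F0Equiv K N ⟨xj K N, xj_mem_F0⟩ = jF K N := by
  apply Subtype.ext
  apply ModularCurve.qExpand_injective (R := K) N
  rw [qExpand_F0Equiv]
  show lamInf K N (xj K N) = ModularCurve.qExpand K N (jqModC K)
  rw [lamInf_xj, jqK_eq]

/-- `[K(X₀(N)) : K(j)] = [SL₂(ℤ) : Γ₀(N)]`. -/
theorem finrank_fullC [CharZero K] :
    Module.finrank K⟮jF K N⟯ (modularFunctionFieldFullC K N) =
      (CongruenceSubgroup.Gamma0 N).index := by
  have hfin := finite_range_actN (K := K) (N := N)
  have hfix : IntermediateField.fixedField (actN K N).range = K⟮xj K N⟯ := by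
    ext l
    rw [mem_fixedField_range_iff, fixed_iff]
  have hker : (actN K N).ker ≤ CongruenceSubgroup.Gamma0 N := fun g hg =>
    mem_Gamma0_of_actN_eq_one hg
  have h := Fermat.FF.finrank_adjoin_fixedField (actN K N) (CongruenceSubgroup.Gamma0 N) hfix hker
  rw [← F0Equiv_xj, ← finrank_adjoin_of_algEquiv]
  exact h

end FermatJ
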